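import Fermat.Agent.Attach.Eigen

/-!
The character of the full Hecke algebra cut out by a normalized eigenform.
-/

set_option autoImplicit false
set_option linter.style.haveILetI false
set_option linter.unusedSectionVars false

noncomputable section

namespace FLTAgent.Attach

open CongruenceSubgroup ModularFormClass

variable {N : ℕ} [NeZero N] {g : S2 N}

theorem heckeTLin_eigenform (hg : g.IsNormalizedEigenform) {ℓ : ℕ} (hℓ : ℓ.Prime) (hℓN : ¬ ℓ ∣ N) :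
    CuspForm.heckeTLin 2 hℓ hℓN g = qCoeff g ℓ • g := by
  apply FLTAgent.Alg.coeffSeq_injective
  rw [map_smul]
  funext n
  rw [FLTAgent.Alg.coeff_heckeT hℓ hℓN, Pi.smul_apply, smul_eq_mul]
  rcases Nat.eq_zero_or_pos n with rfl | hn
  · simp [FLTAgent.Alg.coeffSeq_zero_coeff]
  obtain ⟨r, m, hm, rfl⟩ := Nat.exists_eq_pow_mul_and_not_dvd hn.ne' ℓ hℓ.ne_one
  have hc : ∀ j, (ℓ ^ j).Coprime m := fun j => ((hℓ.coprime_iff_not_dvd.2 hm)).pow_left j
  have hA : ∀ j, FLTAgent.Alg.coeffSeq N g (ℓ ^ j * m) = qCoeff g (ℓ ^ j) * qCoeff g m :=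
    fun j => hg.qCoeff_mul_of_coprime _ _ (hc j)
  rw [show ℓ ^ r * m * ℓ = ℓ ^ (r + 1) * m from by rw [pow_succ]; ring, hA, hA]
  cases r with
  | zero =>
    simp only [pow_zero, pow_one, one_mul, zero_add, hg.qCoeff_one, if_neg hm]
    ring
  | succ r =>
    rw [if_pos (dvd_mul_of_dvd_left (dvd_pow_self ℓ (Nat.succ_ne_zero r)) m),
      show ℓ ^ (r + 1) * m / ℓ = ℓ ^ r * m from by
        rw [pow_succ, mul_right_comm, Nat.mul_div_cancel _ hℓ.pos], hA,
      hg.qCoeff_prime_pow_of_not_dvd ℓ r hℓ hℓN]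
    ring

theorem heckeULin_eigenform (hg : g.IsNormalizedEigenform) {ℓ : ℕ} (hℓ : ℓ.Prime) (hℓN : ℓ ∣ N) :
    CuspForm.heckeULin 2 hℓN g = qCoeff g ℓ • g := by
  apply FLTAgent.Alg.coeffSeq_injective
  rw [map_smul]
  funext n
  rw [FLTAgent.Alg.coeff_heckeU hℓ hℓN, Pi.smul_apply, smul_eq_mul]
  rcases Nat.eq_zero_or_pos n with rfl | hn
  · simp [FLTAgent.Alg.coeffSeq_zero_coeff]
  obtain ⟨r, m, hm, rfl⟩ := Nat.exists_eq_pow_mul_and_not_dvd hn.ne' ℓ hℓ.ne_one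
  have hc : ∀ j, (ℓ ^ j).Coprime m := fun j => ((hℓ.coprime_iff_not_dvd.2 hm)).pow_left j
  have hA : ∀ j, FLTAgent.Alg.coeffSeq N g (ℓ ^ j * m) = qCoeff g (ℓ ^ j) * qCoeff g m :=
    fun j => hg.qCoeff_mul_of_coprime _ _ (hc j)
  rw [show ℓ ^ r * m * ℓ = ℓ ^ (r + 1) * m from by rw [pow_succ]; ring, hA, hA]
  cases r with
  | zero => simp only [pow_zero, pow_one, zero_add, hg.qCoeff_one]; ring
  | succ r => rw [hg.qCoeff_prime_pow_of_dvd ℓ r hℓ hℓN]; ring

theorem exists_eigenvalue (hg : g.IsNormalizedEigenform) (t : TFull N) : ∃ c : ℂ, t.1 g = c • g := by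
  obtain ⟨t, ht⟩ := t
  refine Algebra.adjoin_induction (p := fun t _ => ∃ c : ℂ, t g = c • g) ?_ ?_ ?_ ?_ ht
  · rintro t (⟨ℓ, hℓ, hℓN, -, rfl⟩ | ⟨q, hqN, hq, -, rfl⟩)
    · exact ⟨_, heckeTLin_eigenform hg hℓ hℓN⟩
    · exact ⟨_, heckeULin_eigenform hg hq hqN⟩
  · intro m
    refine ⟨(m : ℂ), ?_⟩
    rw [eq_intCast, Module.End.intCast_apply, Int.cast_smul_eq_zsmul]
  · rintro x y - - ⟨a, ha⟩ ⟨b, hb⟩
    exact ⟨a + b, by rw [LinearMap.add_apply, ha, hb, add_smul]⟩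
  · rintro x y - - ⟨a, ha⟩ ⟨b, hb⟩
    exact ⟨b * a, by rw [Module.End.mul_apply, hb, map_smul, ha, smul_smul]⟩

/-- The character `t ↦ a₁(t g)` with values in the algebraic integers. -/
theorem exists_eigenCharacter (hg : g.IsNormalizedEigenform) :
    ∃ χ : TFull N →+* integralClosure ℤ ℂ,
      ∀ (ℓ : ℕ) (hℓ : ℓ.Prime) (hℓN : ¬ ℓ ∣ N),
        (χ (CuspForm.heckeAlgebra.T hℓ hℓN (Set.notMem_empty _)) : ℂ) = qCoeff g ℓ := by
  haveI := finite_TFull N
  have hg0 : g ≠ 0 := fun h => by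
    have h1 := congrFun (congrArg (FLTAgent.Alg.coeffSeq N) h) 1
    rw [map_zero, Pi.zero_apply] at h1
    exact one_ne_zero (hg.qCoeff_one.symm.trans h1)
  choose c hc using exists_eigenvalue hg
  have huniq : ∀ (t : TFull N) (a : ℂ), t.1 g = a • g → c t = a := fun t a h =>
    smul_left_injective ℂ hg0 ((hc t).symm.trans h)
  let χ0 : TFull N →+* ℂ :=
    { toFun := c
      map_one' := huniq _ _ (by simp)
      map_mul' := fun x y => huniq _ _ (by
        change x.1 (y.1 g) = _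
        rw [hc y, map_smul, hc x, smul_smul, mul_comm])
      map_zero' := huniq _ _ (by simp)
      map_add' := fun x y => huniq _ _ (by
        change x.1 g + y.1 g = _
        rw [hc x, hc y, add_smul]) }
  have hint : ∀ t, χ0 t ∈ integralClosure ℤ ℂ := fun t =>
    IsIntegral.map χ0.toIntAlgHom (Algebra.IsIntegral.isIntegral t)
  refine ⟨RingHom.codRestrict χ0 (integralClosure ℤ ℂ) hint, fun ℓ hℓ hℓN => ?_⟩
  exact huniq _ _ (heckeTLin_eigenform hg hℓ hℓN)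

end FLTAgent.Attach

end
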