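import Fermat.Agent.Attach.Residual
import Fermat.Agent.Attach.EigenCharacter

/-!
The residual representation attached to a normalized eigenform.
-/

set_option autoImplicit false
set_option linter.style.haveILetI false
set_option linter.unusedSectionVars false

noncomputable section

namespace FLTAgent.Attach

open Polynomial

/-- The trivial representation (for the junk level `N = 0`). -/
def trivialRep (k : Type) [Field k] : ResidualGaloisRep k :=
  residualOfMat (fun _ => 1) rfl (fun _ _ => (mul_one _).symm) ⟨⊥, inferInstance, fun _ _ => rfl⟩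

theorem exists_attached {N : ℕ} (hD : ∀ [NeZero N], Nonempty (HeckeLattice N))
    (hG : ∀ [NeZero N], GaloisInputs N) {g : CuspForm (CongruenceSubgroup.Gamma0 N) 2}
    (hg : g.IsNormalizedEigenform) {p : ℕ} (hp : p.Prime) {k : Type} [Field k] [CharP k p]
    (φ : integralClosure ℤ ℂ →+* k) :
    ∃ ρ : ResidualGaloisRep k, ρ.IsAttachedTo g φ ∧
      ∀ ℓ : ℕ, ℓ.Prime → ¬ ℓ ∣ N * p → ρ.IsUnramifiedAt ℓ := by
  rcases Nat.eq_zero_or_pos N with hN | hN
  · subst hN
    exact ⟨trivialRep k, fun ℓ _ h => absurd (dvd_zero ℓ) h,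
      fun ℓ _ h => absurd (by rw [zero_mul]; exact dvd_zero ℓ) h⟩
  haveI : NeZero N := ⟨hN.ne'⟩
  obtain ⟨D⟩ := hD
  obtain ⟨χ, hχ⟩ := exists_eigenCharacter hg
  obtain ⟨ρ, hρ, hρu⟩ := exists_residualRep D hG hp (φ.comp χ)
  refine ⟨ρ, fun ℓ hℓ hℓN hℓk A hA σ hσ => ?_, fun q hq hqNp =>
    hρu q hq (fun h => hqNp (dvd_mul_of_dvd_left h p)) (fun h => hqNp (h ▸ dvd_mul_left p N))⟩
  have hℓp : ℓ ≠ p := fun h => hℓk (by rw [h, CharP.cast_eq_zero])
  exact ⟨χ (CuspForm.heckeAlgebra.T hℓ hℓN (Set.notMem_empty _)), hχ ℓ hℓ hℓN,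
    hρ ℓ hℓ hℓN hℓp A hA σ hσ⟩

end FLTAgent.Attach

end
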