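import Fermat.Prelude.Thm_IsLocalRing_isAdicComplete_of_module_finite
import Fermat.Prelude.Thm_Algebra_finite_maximalSpectrum_and_bijective_localization_of_module_finite
import Mathlib

/-!
Integers of finite extensions of complete discretely valued fields, and extension of characters
along integral extensions.
-/

set_option autoImplicit false
set_option linter.style.haveILetI false
set_option linter.unusedSectionVars false

noncomputable section

namespace FLTAgent.Attach

open IsLocalRing

theorem isTorsionFree_of_injective {R S : Type} [CommRing R] [CommRing S] [IsDomain S] [Algebra R S]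
    (h : Function.Injective (algebraMap R S)) : Module.IsTorsionFree R S := by
  refine ⟨fun r hr a b hab => ?_⟩
  simp only [Algebra.smul_def] at hab
  rcases subsingleton_or_nontrivial R with hR | hR
  · exact absurd (h.eq_iff.1 (show algebraMap R S 0 = algebraMap R S 1 from
      congrArg _ (Subsingleton.elim _ _))) (fun h01 => zero_ne_one (α := S) (by simpa using congrArg (algebraMap R S) h01))
  · exact mul_left_cancel₀ ((map_ne_zero_iff _ h).2 hr.ne_zero) hab

/-- Characters with values in an algebraically closed field extend along integral extensions. -/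
theorem exists_extension {R S M : Type} [CommRing R] [CommRing S] [Module.Finite ℤ S] [Field M]
    [IsAlgClosed M] (ι : R →+* S) (hι : Function.Injective ι) (g : R →+* M) :
    ∃ g' : S →+* M, g'.comp ι = g := by
  letI : Algebra R S := ι.toAlgebra
  haveI : Algebra.IsIntegral R S :=
    ⟨fun x => (Algebra.IsIntegral.isIntegral (R := ℤ) x).tower_top⟩
  haveI : (RingHom.ker g).IsPrime := RingHom.ker_isPrime g
  obtain ⟨Q, -, hQp, hQc⟩ := Ideal.exists_ideal_over_prime_of_isIntegral (RingHom.ker g) (⊥ : Ideal S)
    (fun x hx => by
      rw [Ideal.mem_comap, Ideal.mem_bot] at hx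
      rw [RingHom.mem_ker, hι (hx.trans ι.map_zero.symm), map_zero])
  haveI := hQp
  haveI : Q.LiesOver (RingHom.ker g) := ⟨hQc.symm⟩
  haveI : IsDomain (R ⧸ RingHom.ker g) := Ideal.Quotient.isDomain _
  haveI : IsDomain (S ⧸ Q) := Ideal.Quotient.isDomain _
  letI : Algebra (R ⧸ RingHom.ker g) M := (RingHom.kerLift g).toAlgebra
  haveI : Module.IsTorsionFree (R ⧸ RingHom.ker g) M :=
    isTorsionFree_of_injective (RingHom.kerLift_injective g)
  haveI : Module.IsTorsionFree (R ⧸ RingHom.ker g) (S ⧸ Q) := by
    apply isTorsionFree_of_injective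
    rw [injective_iff_map_eq_zero]
    intro a ha
    obtain ⟨x, rfl⟩ := Ideal.Quotient.mk_surjective a
    rw [Ideal.Quotient.eq_zero_iff_mem, ← hQc, Ideal.mem_comap]
    exact Ideal.Quotient.eq_zero_iff_mem.1 ha
  haveI : Algebra.IsIntegral (R ⧸ RingHom.ker g) (S ⧸ Q) := by
    refine ⟨fun a => ?_⟩
    obtain ⟨x, rfl⟩ := Ideal.Quotient.mk_surjective a
    exact ((Algebra.IsIntegral.isIntegral (R := ℤ) x).map (Ideal.Quotient.mk Q).toIntAlgHom).tower_top
  haveI : Algebra.IsAlgebraic (R ⧸ RingHom.ker g) (S ⧸ Q) := Algebra.IsIntegral.isAlgebraic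
  let L : (S ⧸ Q) →ₐ[R ⧸ RingHom.ker g] M := IsAlgClosed.lift
  refine ⟨L.toRingHom.comp (Ideal.Quotient.mk Q), RingHom.ext fun x => ?_⟩
  exact L.commutes (Ideal.Quotient.mk (RingHom.ker g) x)

/-- A domain which is finite over a complete Noetherian local ring is local. -/
theorem isLocalRing_of_module_finite (O A : Type) [CommRing O] [IsLocalRing O] [IsNoetherianRing O]
    [IsAdicComplete (maximalIdeal O) O] [CommRing A] [IsDomain A] [Algebra O A] [Module.Finite O A] :
    IsLocalRing A := by
  classical
  obtain ⟨-, hbij, -, -⟩ :=
    Algebra.finite_maximalSpectrum_and_bijective_localization_of_module_finite (𝒪 := O) A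
  obtain ⟨P, hP⟩ := Ideal.exists_maximal A
  refine IsLocalRing.of_unique_max_ideal ⟨P, hP, fun Q hQ => ?_⟩
  by_contra hne
  let I : MaximalSpectrum A := ⟨P, hP⟩
  let J : MaximalSpectrum A := ⟨Q, hQ⟩
  have hIJ : I ≠ J := fun h => hne (congrArg MaximalSpectrum.asIdeal h).symm
  obtain ⟨a, ha⟩ := hbij.2 (Pi.single I 1)
  obtain ⟨b, hb⟩ := hbij.2 (Pi.single J 1)
  have hab : a * b = 0 := hbij.1 (by
    rw [map_mul, ha, hb, map_zero]
    funext K
    by_cases hK : K = I
    · subst hK
      rw [Pi.mul_apply, Pi.single_eq_of_ne hIJ, mul_zero, Pi.zero_apply]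
    · rw [Pi.mul_apply, Pi.single_eq_of_ne hK, zero_mul, Pi.zero_apply])
  rcases mul_eq_zero.1 hab with h | h
  · have := congrFun (ha.symm.trans (by rw [h, map_zero] :
      RingHom.pi (fun I : MaximalSpectrum A => algebraMap A (Localization.AtPrime I.asIdeal)) a = 0)) I
    rw [Pi.single_eq_same, Pi.zero_apply] at this
    exact one_ne_zero this
  · have := congrFun (hb.symm.trans (by rw [h, map_zero] :
      RingHom.pi (fun I : MaximalSpectrum A => algebraMap A (Localization.AtPrime I.asIdeal)) b = 0)) J
    rw [Pi.single_eq_same, Pi.zero_apply] at this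
    exact one_ne_zero this

section Closure

variable (O : Type) [CommRing O] [IsDomain O] [IsDiscreteValuationRing O]
  [IsAdicComplete (maximalIdeal O) O] [CharZero O]
  (L : IntermediateField (FractionRing O) (AlgebraicClosure (FractionRing O)))
  [FiniteDimensional (FractionRing O) L]

theorem closure_finite : Module.Finite O (integralClosure O L) :=
  IsIntegralClosure.finite O (FractionRing O) L (integralClosure O L)

theorem closure_injective : Function.Injective (algebraMap O (integralClosure O L)) := by
  intro a b h
  have h' : algebraMap O L a = algebraMap O L b := congrArg Subtype.val h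
  rw [IsScalarTower.algebraMap_apply O (FractionRing O) L,
    IsScalarTower.algebraMap_apply O (FractionRing O) L] at h'
  exact IsFractionRing.injective O (FractionRing O) ((algebraMap (FractionRing O) L).injective h')

theorem closure_charZero : CharZero (integralClosure O L) :=
  charZero_of_injective_ringHom (closure_injective O L)

theorem closure_isLocalRing : IsLocalRing (integralClosure O L) :=
  haveI := closure_finite O L
  isLocalRing_of_module_finite O _

theorem closure_isLocalHom : IsLocalHom (algebraMap O (integralClosure O L)) := by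
  haveI := closure_finite O L
  exact (algebraMap_isIntegral_iff.2 (inferInstance : Algebra.IsIntegral O (integralClosure O L))).isLocalHom
    (closure_injective O L)

theorem closure_isDVR : IsDiscreteValuationRing (integralClosure O L) := by
  haveI := closure_finite O L
  haveI := closure_isLocalRing O L
  haveI := closure_isLocalHom O L
  haveI : IsDedekindDomain (integralClosure O L) :=
    IsIntegralClosure.isDedekindDomain O (FractionRing O) L _
  obtain ⟨ϖ, hϖ⟩ := IsDiscreteValuationRing.exists_irreducible O
  have hnf : ¬ IsField (integralClosure O L) := fun hf => by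
    letI := hf.toField
    have hu : IsUnit (algebraMap O (integralClosure O L) ϖ) :=
      isUnit_iff_ne_zero.2 ((map_ne_zero_iff _ (closure_injective O L)).2 hϖ.ne_zero)
    exact hϖ.not_isUnit (isUnit_of_map_unit (algebraMap O (integralClosure O L)) ϖ hu)
  exact ((IsDiscreteValuationRing.TFAE (integralClosure O L) hnf).out 0 2).mpr ‹IsDedekindDomain (integralClosure O L)›

end Closure

end FLTAgent.Attach

end
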