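import Fermat.Agent.Attach.Dichotomy
import Fermat.Agent.Attach.Integers

/-!
The representation attached to a point of a Hecke algebra with values in a complete DVR.
-/

set_option autoImplicit false
set_option linter.style.haveILetI false
set_option linter.unusedSectionVars false

noncomputable section

namespace FLTAgent.Attach

open IsLocalRing Polynomial

theorem exists_galoisRep_of_point {N : ℕ} [NeZero N] (D : HeckeLattice N) (G : GaloisInputs N)
    {p : ℕ} (hp : p.Prime) (S : Set ℕ)
    (O : Type) [CommRing O] [IsDomain O] [IsDiscreteValuationRing O]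
    [IsAdicComplete (maximalIdeal O) O] [Finite (ResidueField O)] [CharZero O]
    (hpO : (p : O) ∈ maximalIdeal O) (χ : CuspForm.heckeAlgebra N 2 S →+* O) :
    ∃ (O' : Type) (_ : CommRing O') (_ : IsDomain O') (_ : IsDiscreteValuationRing O')
      (_ : IsAdicComplete (maximalIdeal O') O')
      (_ : Finite (ResidueField O')) (_ : CharZero O')
      (_ : Algebra O O') (_ : Module.Finite O O') (_ : IsLocalHom (algebraMap O O')),
    Function.Injective (algebraMap O O') ∧
    ∃ ρ : GaloisRepAdic O',
      (∀ (ℓ : ℕ) (hℓ : ℓ.Prime) (hℓN : ¬ ℓ ∣ N) (hℓS : ℓ ∉ S), ℓ ≠ p →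
        ∀ A : ValuationSubring (AlgebraicClosure ℚ), A.LiesOverPrime ℓ →
          ∀ σ : AlgebraicClosure ℚ ≃ₐ[ℚ] AlgebraicClosure ℚ, A.IsFrobeniusAt σ ℓ →
            LinearMap.charpoly (ρ.ρ σ) =
              X ^ 2 - C (algebraMap O O' (χ (CuspForm.heckeAlgebra.T hℓ hℓN hℓS))) * X
                + C ((ℓ : O'))) ∧
      (∀ q : ℕ, q.Prime → ¬ q ∣ N → q ≠ p → ρ.IsUnramifiedAt q) := by
  classical
  haveI := finite_TFull N
  let K := FractionRing O
  let Ω := AlgebraicClosure K
  let inc : CuspForm.heckeAlgebra N 2 S →+* TFull N :=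
    (Subalgebra.inclusion (CuspForm.heckeAlgebra_mono (Set.empty_subset S))).toRingHom
  obtain ⟨g, hg⟩ := exists_extension inc (Subalgebra.inclusion_injective _)
    ((algebraMap O Ω).comp χ)
  obtain ⟨k, gen, hgen⟩ := Module.Finite.exists_fin (R := ℤ) (M := TFull N)
  let L : IntermediateField K Ω := IntermediateField.adjoin K (Set.range fun i => g (gen i))
  haveI : FiniteDimensional K L :=
    IntermediateField.finiteDimensional_adjoin fun x _ => Algebra.IsIntegral.isIntegral x
  have hmem : ∀ t : TFull N, g t ∈ L := by
    intro t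
    have ht : t ∈ Submodule.span ℤ (Set.range gen) := by rw [hgen]; trivial
    induction ht using Submodule.span_induction with
    | mem x hx =>
      obtain ⟨i, rfl⟩ := hx
      exact IntermediateField.subset_adjoin K _ ⟨i, rfl⟩
    | zero => rw [map_zero]; exact L.zero_mem
    | add x y _ _ hx hy => rw [map_add]; exact L.add_mem hx hy
    | smul z x _ hx => rw [map_zsmul]; exact zsmul_mem hx z
  let O' := integralClosure O L
  haveI := closure_finite O L
  haveI : CharZero O' := closure_charZero O L
  haveI := closure_isLocalRing O L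
  haveI := closure_isLocalHom O L
  haveI := closure_isDVR O L
  haveI : IsAdicComplete (maximalIdeal O') O' :=
    IsLocalRing.isAdicComplete_of_module_finite (𝒪 := O)
  haveI : Finite (ResidueField O') := IsLocalRing.ResidueField.finite_of_finite (R := O) inferInstance
  have hmem' : ∀ t : TFull N, g.codRestrict L hmem t ∈ integralClosure O L := fun t =>
    (map_isIntegral_int (g.codRestrict L hmem) (Algebra.IsIntegral.isIntegral t)).tower_top
  let f : TFull N →+* O' := (g.codRestrict L hmem).codRestrict (integralClosure O L) hmem'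
  have hf : ∀ t, f (inc t) = algebraMap O O' (χ t) := fun t => by
    apply Subtype.ext
    apply Subtype.ext
    change g (inc t) = ((algebraMap O L (χ t) : L) : Ω)
    rw [show g (inc t) = algebraMap O Ω (χ t) from RingHom.congr_fun hg t]
    rfl
  have hpO' : (p : O') ∈ maximalIdeal O' := by
    rw [← map_natCast (algebraMap O O')]
    exact map_nonunit (algebraMap O O') _ hpO
  obtain ⟨ρ, hρ, hρ'⟩ := exists_galoisRepAdic hp hpO' D G f
  refine ⟨O', inferInstance, inferInstance, inferInstance, inferInstance, inferInstance,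
    inferInstance, inferInstance, inferInstance, inferInstance, closure_injective O L, ρ,
    fun ℓ hℓ hℓN hℓS hℓp A hA σ hσ => ?_, hρ'⟩
  rw [← hf]
  exact hρ ℓ hℓ hℓN hℓp A hA σ hσ

end FLTAgent.Attach

end
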