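import Fermat.Prelude.Def_EllipticCurve_FrobeniusTrace
import Fermat.Agent.Alg.Frobenius
import Mathlib

/-!
The mod-`n` cyclotomic character on `Gal(ℚ̄/ℚ)`: values at Frobenius elements and on inertia.
-/

set_option autoImplicit false
set_option linter.style.haveILetI false

noncomputable section

namespace FLTAgent.Attach

abbrev GalQ : Type := AlgebraicClosure ℚ ≃ₐ[ℚ] AlgebraicClosure ℚ

theorem natCard_roots (n : ℕ) [NeZero n] :
    Nat.card (rootsOfUnity n (AlgebraicClosure ℚ)) = n :=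
  HasEnoughRootsOfUnity.natCard_rootsOfUnity (AlgebraicClosure ℚ) n

/-- The mod `n` cyclotomic character. -/
def cyc (n : ℕ) [NeZero n] (σ : GalQ) : ZMod n :=
  ((modularCyclotomicCharacter (AlgebraicClosure ℚ) (natCard_roots n) σ.toRingEquiv : (ZMod n)ˣ) : ZMod n)

theorem cyc_one (n : ℕ) [NeZero n] : cyc n 1 = 1 := by
  have h : (1 : GalQ).toRingEquiv = 1 := rfl
  rw [cyc, h, map_one, Units.val_one]

theorem cyc_mul (n : ℕ) [NeZero n] (σ τ : GalQ) : cyc n (σ * τ) = cyc n σ * cyc n τ := by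
  have h : (σ * τ).toRingEquiv = σ.toRingEquiv * τ.toRingEquiv := rfl
  rw [cyc, h, map_mul, Units.val_mul]; rfl

theorem cyc_spec {n : ℕ} [NeZero n] (σ : GalQ) {z : AlgebraicClosure ℚ} (hz : z ^ n = 1) :
    σ z = z ^ (cyc n σ).val :=
  modularCyclotomicCharacter.spec (AlgebraicClosure ℚ) (natCard_roots n) σ.toRingEquiv (rootsOfUnity.mkOfPowEq z hz).2

theorem cyc_unique {n : ℕ} [NeZero n] (σ : GalQ) (c : ZMod n)
    (h : ∀ z : AlgebraicClosure ℚ, z ^ n = 1 → σ z = z ^ c.val) : cyc n σ = c := by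
  refine (modularCyclotomicCharacter.unique (AlgebraicClosure ℚ) (natCard_roots n) σ.toRingEquiv fun t ht => ?_).symm
  exact h _ (by simpa [← Units.val_pow_eq_pow_val] using congrArg Units.val ((mem_rootsOfUnity _ _).1 ht))

theorem cyc_cast {m n : ℕ} [NeZero m] [NeZero n] (h : m ∣ n) (σ : GalQ) :
    ZMod.castHom h (ZMod m) (cyc n σ) = cyc m σ := by
  refine (cyc_unique σ _ fun z hz => ?_).symm
  have hz' : z ^ n = 1 := by obtain ⟨k, rfl⟩ := h; rw [pow_mul, hz, one_pow]
  rw [cyc_spec σ hz', ZMod.castHom_apply, ZMod.cast_eq_val, ZMod.val_natCast,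
    ← pow_mod_orderOf z (cyc n σ).val]
  conv_rhs => rw [← pow_mod_orderOf z _, Nat.mod_mod_of_dvd _ (orderOf_dvd_of_pow_eq_one hz)]

theorem exists_cyc_level (n : ℕ) [NeZero n] :
    ∃ L : IntermediateField ℚ (AlgebraicClosure ℚ), FiniteDimensional ℚ L ∧
      ∀ σ : GalQ, (∀ x ∈ L, σ x = x) → cyc n σ = 1 := by
  classical
  let s : Set (AlgebraicClosure ℚ) := {z | z ^ n = 1}
  haveI := FLTAgent.Alg.qb_isAlgebraic
  have hfin : s.Finite := by
    refine ((Polynomial.nthRoots n (1 : AlgebraicClosure ℚ)).toFinset.finite_toSet).subset ?_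
    intro z hz
    rw [Finset.mem_coe, Multiset.mem_toFinset, Polynomial.mem_nthRoots (Nat.pos_of_ne_zero (NeZero.ne n))]
    exact hz
  haveI : Finite s := hfin.to_subtype
  refine ⟨IntermediateField.adjoin ℚ s,
    IntermediateField.finiteDimensional_adjoin (fun z _ => Algebra.IsIntegral.isIntegral z), ?_⟩
  intro σ hσ
  refine cyc_unique σ 1 fun z hz => ?_
  rw [hσ z (IntermediateField.subset_adjoin ℚ s hz)]
  rcases Nat.lt_or_ge 1 n with h | h
  · haveI : Fact (1 < n) := ⟨h⟩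
    rw [ZMod.val_one, pow_one]
  · obtain rfl : n = 1 := le_antisymm h (Nat.one_le_iff_ne_zero.2 (NeZero.ne n))
    rw [pow_one] at hz
    rw [hz, one_pow]

variable {A : ValuationSubring (AlgebraicClosure ℚ)} {ℓ : ℕ}

theorem residue_natCast_self (hA : A.LiesOverPrime ℓ) :
    (ℓ : IsLocalRing.ResidueField A) = 0 := by
  obtain ⟨h, hm⟩ := A.mem_nonunits_iff_exists_mem_maximalIdeal.1 hA
  rw [← map_natCast (IsLocalRing.residue A), IsLocalRing.residue_eq_zero_iff]
  have he : (⟨(ℓ : AlgebraicClosure ℚ), h⟩ : A) = (ℓ : A) := Subtype.ext (map_natCast A.subtype ℓ).symm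
  rwa [he] at hm

theorem root_mem {n : ℕ} (hn : 0 < n) {z : AlgebraicClosure ℚ} (hz : z ^ n = 1) : z ∈ A := by
  rcases A.mem_or_inv_mem z with h | h
  · exact h
  · have : z = z⁻¹ ^ (n - 1) := by
      have hz0 : z ≠ 0 := by rintro rfl; rw [zero_pow hn.ne'] at hz; exact zero_ne_one hz
      rw [inv_pow]
      apply eq_inv_of_mul_eq_one_left
      rw [← pow_succ', Nat.sub_add_cancel hn, hz]
    rw [this]
    exact pow_mem h _

theorem residue_injective_of_pow {n : ℕ} (hn : 0 < n) (hℓ : ℓ.Prime) (hℓn : ¬ ℓ ∣ n)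
    (hA : A.LiesOverPrime ℓ) {z w : A}
    (hz : (z : AlgebraicClosure ℚ) ^ n = 1) (hw : (w : AlgebraicClosure ℚ) ^ n = 1)
    (h : IsLocalRing.residue A z = IsLocalRing.residue A w) : z = w := by
  let η : A := z * w ^ (n - 1)
  have hη : η ^ n = 1 := by
    apply Subtype.ext
    simp [η, mul_pow, hz]
    rw [← pow_mul, mul_comm, pow_mul, hw, one_pow]
  have hres : IsLocalRing.residue A η = 1 := by
    have hw' : IsLocalRing.residue A w ^ n = 1 := by
      rw [← map_pow, show w ^ n = 1 from Subtype.ext (by simpa using hw), map_one]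
    simp only [η, map_mul, map_pow, h]
    rw [← pow_succ', Nat.sub_add_cancel hn, hw']
  by_contra hne
  have hη1 : η ≠ 1 := by
    intro h1
    apply hne
    calc z = z * w ^ n := by
          rw [show w ^ n = 1 from Subtype.ext (by simpa using hw), mul_one]
      _ = η * w := by simp only [η]; rw [mul_assoc, ← pow_succ, Nat.sub_add_cancel hn]
      _ = w := by rw [h1, one_mul]
  have hsum : ∑ i ∈ Finset.range n, η ^ i = 0 := by
    have := geom_sum_mul η n
    rw [hη, sub_self] at this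
    rcases mul_eq_zero.1 this with h0 | h0
    · exact h0
    · exact absurd (sub_eq_zero.1 h0) hη1
  have h0 := congrArg (IsLocalRing.residue A) hsum
  simp [map_sum, map_pow, hres] at h0
  obtain ⟨a, b, hab⟩ := (hℓ.coprime_iff_not_dvd.2 hℓn).isCoprime
  have h1 : ((a * ℓ + b * n : ℤ) : IsLocalRing.ResidueField A) = 1 := by rw [hab]; simp
  push_cast at h1
  rw [residue_natCast_self hA, h0] at h1
  simp at h1

theorem cyc_frobenius {n : ℕ} [NeZero n] (hℓ : ℓ.Prime) (hℓn : ¬ ℓ ∣ n) (hA : A.LiesOverPrime ℓ)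
    {σ : GalQ} (hσ : A.IsFrobeniusAt σ ℓ) : cyc n σ = (ℓ : ZMod n) := by
  refine cyc_unique σ _ fun z hz => ?_
  have hn : 0 < n := Nat.pos_of_ne_zero (NeZero.ne n)
  let zA : A := ⟨z, root_mem hn hz⟩
  let d : A.decompositionSubgroup ℚ := ⟨σ, hσ.mem_decompositionSubgroup⟩
  have h := hσ.smul_residue_eq (IsLocalRing.residue A zA)
  rw [← IsLocalRing.ResidueField.residue_smul, ← map_pow] at h
  have hd : ((d • zA : A) : AlgebraicClosure ℚ) = σ z := rfl
  have h2 := residue_injective_of_pow hn hℓ hℓn hA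
    (by rw [hd, ← map_pow, hz, map_one])
    (by rw [SubmonoidClass.coe_pow, ← pow_mul, mul_comm, pow_mul, show (zA : AlgebraicClosure ℚ) ^ n = 1 from hz, one_pow]) h
  have h3 : σ z = z ^ ℓ := by rw [← hd, h2]; rfl
  rw [h3, ZMod.val_natCast, pow_eq_pow_mod ℓ hz]

theorem inertia_smul_residue {σ : GalQ} (hσ : σ ∈ A.inertiaSubgroupIn ℚ) :
    ∃ h : σ ∈ A.decompositionSubgroup ℚ, ∀ x : IsLocalRing.ResidueField A,
      (⟨σ, h⟩ : A.decompositionSubgroup ℚ) • x = x := by
  obtain ⟨d, hd, rfl⟩ := hσ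
  exact ⟨d.2, fun x => by
    have := MonoidHom.mem_ker.1 hd
    exact DFunLike.congr_fun this x⟩

theorem cyc_inertia {n : ℕ} [NeZero n] (hℓ : ℓ.Prime) (hℓn : ¬ ℓ ∣ n) (hA : A.LiesOverPrime ℓ)
    {σ : GalQ} (hσ : σ ∈ A.inertiaSubgroupIn ℚ) : cyc n σ = 1 := by
  have hn : 0 < n := Nat.pos_of_ne_zero (NeZero.ne n)
  refine cyc_unique σ _ fun z hz => ?_
  obtain ⟨hd', hres⟩ := inertia_smul_residue hσ
  let zA : A := ⟨z, root_mem hn hz⟩
  let d : A.decompositionSubgroup ℚ := ⟨σ, hd'⟩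
  have h := hres (IsLocalRing.residue A zA)
  rw [← IsLocalRing.ResidueField.residue_smul] at h
  have hd : ((d • zA : A) : AlgebraicClosure ℚ) = σ z := rfl
  have h2 := residue_injective_of_pow hn hℓ hℓn hA (by rw [hd, ← map_pow, hz, map_one])
    (show (zA : AlgebraicClosure ℚ) ^ n = 1 from hz) h
  have h3 : σ z = z := by rw [← hd, h2]
  rw [h3]
  rcases Nat.lt_or_ge 1 n with h | h
  · haveI : Fact (1 < n) := ⟨h⟩
    rw [ZMod.val_one, pow_one]
  · obtain rfl : n = 1 := le_antisymm h (Nat.one_le_iff_ne_zero.2 (NeZero.ne n))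
    rw [pow_one] at hz
    rw [hz, one_pow]

end FLTAgent.Attach

end
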