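import Fermat.Prelude.Def_ModularCurve_HeckeModule
import Fermat.Prelude.Def_CuspForm_HeckeEvalForms
import Mathlib

/-!
What the construction of Galois representations needs to know about `J₀(N)`.

* `HeckeLattice N`: a lattice `Λ` (to be: integral parabolic homomorphisms on `Γ₀(N)`, i.e. the first
  cohomology of the modular curve) with Hecke operators for all primes, whose complexification is
  two copies of the weight two cusp forms, and which models all torsion of `J₀(N)(ℚ̄)` Hecke-linearly.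
* `GaloisInputs N`: Galois-theoretic facts about `J₀(N)(ℚ̄)`; no statement about `Λ`.
-/

set_option autoImplicit false

noncomputable section

namespace FLTAgent.Attach

open CongruenceSubgroup ModularCurve AlgebraicCurve
open scoped TensorProduct

variable (N : ℕ) [NeZero N]

/-- The action of a prime's Hecke operator (`T_ℓ` or `U_ℓ`) on a pair of cusp forms. -/
def pairOp (ℓ : Nat.Primes) :
    Module.End ℂ (CuspForm (Gamma0 N) 2 × CuspForm (Gamma0 N) 2) :=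
  LinearMap.prodMap (CuspForm.heckeFormsGen N 2 ℓ).1 (CuspForm.heckeFormsGen N 2 ℓ).1

/-- A lattice computing the torsion of `J₀(N)` together with its Hecke action. -/
structure HeckeLattice : Type 1 where
  Lam : Type
  [instAddCommGroup : AddCommGroup Lam]
  [instFree : Module.Free ℤ Lam]
  [instFinite : Module.Finite ℤ Lam]
  /-- Hecke operators, `T_ℓ` for `ℓ ∤ N` and `U_ℓ` for `ℓ ∣ N`. -/
  T : Nat.Primes → Module.End ℤ Lam
  /-- Eichler–Shimura. -/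
  periods : (ℂ ⊗[ℤ] Lam) ≃ₗ[ℂ] (CuspForm (Gamma0 N) 2 × CuspForm (Gamma0 N) 2)
  periods_T : ∀ (ℓ : Nat.Primes) (x : ℂ ⊗[ℤ] Lam),
    periods ((T ℓ).baseChange ℂ x) = pairOp N ℓ (periods x)
  /-- `tors n` identifies `Λ/nΛ` with the `n`-torsion (`λ ↦ λ/n`). -/
  tors : ℕ → Lam →+ JZero N
  nsmul_eq_zero_iff : ∀ n : ℕ, 0 < n → ∀ x : JZero N, n • x = 0 ↔ ∃ v, tors n v = x
  tors_eq_zero_iff : ∀ n : ℕ, 0 < n → ∀ v, tors n v = 0 ↔ ∃ w, v = (n : ℤ) • w
  tors_mul : ∀ n m : ℕ, 0 < n → 0 < m → ∀ v, m • tors (n * m) v = tors n v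
  tors_T : ∀ n : ℕ, 0 < n → ∀ (ℓ : Nat.Primes) (v : Lam),
    tors n (T ℓ v) = heckeOperatorBar N ℓ (tors n v)

attribute [instance] HeckeLattice.instAddCommGroup HeckeLattice.instFree HeckeLattice.instFinite

/-- Galois-theoretic inputs. -/
structure GaloisInputs : Prop where
  smul_hecke : ∀ (σ : AlgebraicClosure ℚ ≃ₐ[ℚ] AlgebraicClosure ℚ) (ℓ : Nat.Primes) (x : JZero N),
    σ • heckeOperatorBar N ℓ x = heckeOperatorBar N ℓ (σ • x)
  exists_level : ∀ x : JZero N, ∃ L : IntermediateField ℚ (AlgebraicClosure ℚ),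
    FiniteDimensional ℚ L ∧
      ∀ σ : AlgebraicClosure ℚ ≃ₐ[ℚ] AlgebraicClosure ℚ, (∀ y ∈ L, σ y = y) → σ • x = x
  frobenius_quadratic : ∀ (ℓ : ℕ) (hℓ : ℓ.Prime), ¬ ℓ ∣ N →
    ∀ A : ValuationSubring (AlgebraicClosure ℚ), A.LiesOverPrime ℓ →
      ∀ σ : AlgebraicClosure ℚ ≃ₐ[ℚ] AlgebraicClosure ℚ, A.IsFrobeniusAt σ ℓ →
        ∀ x : JZero N, (∃ n : ℕ, 0 < n ∧ ¬ ℓ ∣ n ∧ n • x = 0) →
          σ • σ • x - heckeOperatorBar N ⟨ℓ, hℓ⟩ (σ • x) + ℓ • x = 0
  inertia_trivial : ∀ (ℓ : ℕ), ℓ.Prime → ¬ ℓ ∣ N →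
    ∀ A : ValuationSubring (AlgebraicClosure ℚ), A.LiesOverPrime ℓ →
      ∀ σ ∈ A.inertiaSubgroupIn ℚ,
        ∀ x : JZero N, (∃ n : ℕ, 0 < n ∧ ¬ ℓ ∣ n ∧ n • x = 0) → σ • x = x

end FLTAgent.Attach

end
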