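import Fermat.Agent.Attach.Dichotomy

/-!
Descent of two-dimensional representations over a finite field to a subfield containing all
traces and determinants (up to semisimplification).
-/

set_option autoImplicit false
set_option linter.style.haveILetI false
set_option linter.unusedSectionVars false

noncomputable section

namespace FLTAgent.Attach

open scoped Matrix

namespace Descent

variable {F : Type} [Field F] (F0 : Subfield F) {Γ : Type} [Group Γ]

/-- `r0` is a model of `r` over `F0`, up to semisimplification. -/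
def IsModel (r : Γ → Deform.Mt F) (r0 : Γ → Deform.Mt F0) : Prop :=
  r0 1 = 1 ∧ (∀ σ τ, r0 (σ * τ) = r0 σ * r0 τ) ∧ (∀ σ, r σ = 1 → r0 σ = 1) ∧
    ∀ σ, ((r0 σ).trace : F) = (r σ).trace ∧ ((r0 σ).det : F) = (r σ).det

theorem companion (r : Γ → Deform.Mt F) (h1 : r 1 = 1) (_hmul : ∀ σ τ, r (σ * τ) = r σ * r τ)
    (s d : F) (hs : s ∈ F0) (hd : d ∈ F0) (X Y : Γ → F) (hX : ∀ σ, X σ ∈ F0) (hY : ∀ σ, Y σ ∈ F0)
    (hone : ∀ σ, r σ = 1 → X σ = 1 ∧ Y σ = 0)
    (hlawX : ∀ σ τ, X (σ * τ) = X σ * X τ - d * Y σ * Y τ)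
    (hlawY : ∀ σ τ, Y (σ * τ) = X σ * Y τ + Y σ * X τ + s * Y σ * Y τ)
    (htr : ∀ σ, 2 * X σ + s * Y σ = (r σ).trace)
    (hdet : ∀ σ, X σ ^ 2 + s * X σ * Y σ + d * Y σ ^ 2 = (r σ).det) :
    ∃ r0 : Γ → Deform.Mt F0, IsModel F0 r r0 := by
  let S : F0 := ⟨s, hs⟩
  let D : F0 := ⟨d, hd⟩
  refine ⟨fun σ => !![(⟨X σ, hX σ⟩ : F0), -(D * ⟨Y σ, hY σ⟩); ⟨Y σ, hY σ⟩,
    ⟨X σ, hX σ⟩ + S * ⟨Y σ, hY σ⟩], ?_, fun σ τ => ?_, fun σ hσ => ?_, fun σ => ⟨?_, ?_⟩⟩
  · obtain ⟨hX1, hY1⟩ := hone 1 h1
    refine Matrix.ext fun i j => Subtype.ext ?_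
    fin_cases i <;> fin_cases j <;> simp [S, D, hX1, hY1]
  · refine Matrix.ext fun i j => Subtype.ext ?_
    fin_cases i <;> fin_cases j <;>
      simp [S, D, Matrix.mul_apply, Fin.sum_univ_two, hlawX σ τ, hlawY σ τ] <;> ring
  · obtain ⟨hX1, hY1⟩ := hone σ hσ
    refine Matrix.ext fun i j => Subtype.ext ?_
    fin_cases i <;> fin_cases j <;> simp [S, D, hX1, hY1]
  · simp [S, D, Matrix.trace, Fin.sum_univ_two]
    have := htr σ
    simp only [Matrix.trace, Fin.sum_univ_two, Matrix.diag_apply] at this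
    linear_combination this
  · simp [S, D, Matrix.det_fin_two]
    have := hdet σ
    rw [Matrix.det_fin_two] at this
    linear_combination this

variable [Finite F]

theorem of_eigenvector (r : Γ → Deform.Mt F) (h1 : r 1 = 1)
    (hmul : ∀ σ τ, r (σ * τ) = r σ * r τ) (htr : ∀ σ, (r σ).trace ∈ F0)
    (hdet : ∀ σ, (r σ).det ∈ F0) (v : Fin 2 → F) (hv : v ≠ 0)
    (h : ∀ σ, cross (r σ *ᵥ v) v = 0) : ∃ r0 : Γ → Deform.Mt F0, IsModel F0 r r0 := by
  classical
  obtain ⟨i, hi⟩ : ∃ i, v i ≠ 0 := by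
    by_contra hcon
    push Not at hcon
    exact hv (funext hcon)
  let ψ : Γ → F := fun σ => (r σ *ᵥ v) i / v i
  have hψ : ∀ σ, r σ *ᵥ v = ψ σ • v := by
    intro σ
    have hc := h σ
    simp only [cross] at hc
    funext j
    simp only [ψ, Pi.smul_apply, smul_eq_mul]
    rw [div_mul_eq_mul_div, eq_div_iff hi]
    fin_cases i <;> fin_cases j <;> simp only [Fin.zero_eta, Fin.mk_one] <;> first
      | rfl
      | linear_combination hc
      | linear_combination -hc
  have hψv : ∀ {a b : F}, a • v = b • v → a = b := fun {a b} hab => smul_left_injective F hv hab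
  have hψmul : ∀ σ τ, ψ (σ * τ) = ψ σ * ψ τ := fun σ τ => hψv (by
    rw [← hψ, hmul, ← Matrix.mulVec_mulVec, hψ τ, Matrix.mulVec_smul, hψ σ, smul_smul, mul_comm])
  have hψone : ∀ σ, r σ = 1 → ψ σ = 1 := fun σ hσ => hψv (by
    rw [← hψ, hσ, Matrix.one_mulVec, one_smul])
  have hquad : ∀ σ, ψ σ ^ 2 = (r σ).trace * ψ σ - (r σ).det := fun σ => hψv (by
    have e := congrArg (· *ᵥ v) (sq_fin_two (r σ))
    simp only [← Matrix.mulVec_mulVec, hψ, Matrix.mulVec_smul, Matrix.sub_mulVec,
      Matrix.smul_mulVec, Matrix.one_mulVec, smul_smul, ← sub_smul] at e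
    rw [sq]; exact e)
  by_cases hall : ∀ σ, ψ σ ∈ F0
  · have hψ0 : ∀ σ, ψ σ ≠ 0 := fun σ h0 => one_ne_zero (α := F) (by
      rw [← hψone 1 h1, ← mul_inv_cancel σ, hψmul, h0, zero_mul])
    have hψ' : ∀ σ, ((r σ).trace - ψ σ) * ψ σ = (r σ).det := fun σ => by
      linear_combination -(hquad σ)
    have hψ'mul : ∀ σ τ, (r (σ * τ)).trace - ψ (σ * τ) =
        ((r σ).trace - ψ σ) * ((r τ).trace - ψ τ) := fun σ τ => by
      refine mul_right_cancel₀ (hψ0 (σ * τ)) ?_
      rw [hψ', hmul, Matrix.det_mul, ← hψ', ← hψ', hψmul]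
      ring
    refine ⟨fun σ => Matrix.diagonal ![(⟨ψ σ, hall σ⟩ : F0), ⟨_, sub_mem (htr σ) (hall σ)⟩],
      ?_, fun σ τ => ?_, fun σ hσ => ?_, fun σ => ⟨?_, ?_⟩⟩
    · dsimp only
      refine Matrix.ext fun a b => Subtype.ext ?_
      fin_cases a <;> fin_cases b <;> simp [hψone 1 h1, h1, Matrix.trace_one]
      norm_num
    · dsimp only
      rw [Matrix.diagonal_mul_diagonal]
      congr 1
      funext a
      apply Subtype.ext
      fin_cases a
      · simp [hψmul]
      · simp [hψ'mul]
    · refine Matrix.ext fun a b => Subtype.ext ?_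
      fin_cases a <;> fin_cases b <;> simp [hψone σ hσ, hσ, Matrix.trace_one]
      norm_num
    · simp [Matrix.trace, Fin.sum_univ_two]
    · simp [Matrix.det_fin_two]
      have := hψ' σ
      rw [Matrix.det_fin_two] at this
      linear_combination this
  · push Not at hall
    obtain ⟨g, hg⟩ := hall
    set s := (r g).trace with hs
    set d := (r g).det with hd
    have hα : ψ g ^ 2 = s * ψ g - d := hquad g
    set α := ψ g with hαdef
    have hD : s ^ 2 - 4 * d ≠ 0 := by
      intro h0
      apply hg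
      by_cases h2 : (2 : F) = 0
      · haveI : CharP F 2 := CharTwo.of_one_ne_zero_of_two_eq_zero one_ne_zero h2
        haveI : Finite F0 := Finite.of_injective _ Subtype.coe_injective
        have hF0 : ringChar F0 = 2 := by
          haveI : CharP F0 2 := (RingHom.charP_iff F0.subtype Subtype.coe_injective 2).2 inferInstance
          exact ringChar.eq F0 2
        obtain ⟨y, hy⟩ := FiniteField.isSquare_of_char_two hF0 (⟨d, hdet g⟩ : F0)
        have hy' : d = (y : F) * y := congrArg Subtype.val hy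
        have hs0 : s ^ 2 = 0 := by linear_combination h0 + 2 * d * h2
        rw [sq_eq_zero_iff] at hs0
        have e : (α - (y : F)) ^ 2 = 0 := by
          linear_combination hα + α * hs0 - hy' + (-α * (y : F)) * h2
        rw [sq_eq_zero_iff, sub_eq_zero] at e
        rw [e]
        exact y.2
      · have h20 : (2 * α - s) ^ 2 = 0 := by linear_combination 4 * hα + h0
        rw [sq_eq_zero_iff, sub_eq_zero] at h20
        rw [show α = s / 2 from by rw [← h20, mul_div_cancel_left₀ _ h2]]
        exact div_mem (htr g) (ofNat_mem F0 2)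
    let D := s ^ 2 - 4 * d
    let Y : Γ → F := fun σ => (2 * (r (g * σ)).trace - s * (r σ).trace) / D
    let X : Γ → F := fun σ =>
      (-(s * (r (g * σ)).trace) - (r σ).trace * (2 * d - s ^ 2)) / D
    have hX : ∀ σ, X σ ∈ F0 := fun σ =>
      div_mem (sub_mem (neg_mem (mul_mem (htr g) (htr _)))
        (mul_mem (htr σ) (sub_mem (mul_mem (ofNat_mem F0 2) (hdet g)) (pow_mem (htr g) 2))))
        (sub_mem (pow_mem (htr g) 2) (mul_mem (ofNat_mem F0 4) (hdet g)))
    have hY : ∀ σ, Y σ ∈ F0 := fun σ =>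
      div_mem (sub_mem (mul_mem (ofNat_mem F0 2) (htr _)) (mul_mem (htr g) (htr σ)))
        (sub_mem (pow_mem (htr g) 2) (mul_mem (ofNat_mem F0 4) (hdet g)))
    have hψ0 : ∀ σ, ψ σ ≠ 0 := fun σ h0 => one_ne_zero (α := F) (by
      rw [← hψone 1 h1, ← mul_inv_cancel σ, hψmul, h0, zero_mul])
    -- `t(gσ) = αψ + βψ'`
    have ht2 : ∀ σ, (r (g * σ)).trace = α * ψ σ + (s - α) * ((r σ).trace - ψ σ) := by
      intro σ
      refine mul_right_cancel₀ (hψ0 (g * σ)) ?_
      have e := hquad (g * σ)
      have e' := hquad σ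
      rw [hmul, Matrix.det_mul, ← hmul, ← hd, hψmul, ← hαdef] at e
      rw [hψmul, ← hαdef]
      linear_combination -e + (r σ).det * hα + α * (s - α) * e'
    have hrepr : ∀ σ, ψ σ = X σ + Y σ * α ∧ (r σ).trace - ψ σ = X σ + Y σ * (s - α) := by
      intro σ
      have e1 : (X σ + Y σ * α) * D = ψ σ * D := by
        simp only [X, Y, add_mul, mul_right_comm _ α D, div_mul_cancel₀ _ hD, D]
        rw [ht2]
        linear_combination (4 * ψ σ - 2 * (r σ).trace) * hα
      have e2 : X σ + Y σ * α = ψ σ := mul_right_cancel₀ hD e1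
      refine ⟨e2.symm, mul_right_cancel₀ hD ?_⟩
      have e3 : (2 * X σ + s * Y σ) * D = (r σ).trace * D := by
        have hXD : X σ * D = -(s * (r (g * σ)).trace) - (r σ).trace * (2 * d - s ^ 2) :=
          div_mul_cancel₀ _ hD
        have hYD : Y σ * D = 2 * (r (g * σ)).trace - s * (r σ).trace := div_mul_cancel₀ _ hD
        simp only [D] at hXD hYD ⊢
        linear_combination 2 * hXD + s * hYD
      linear_combination -e3 + e1
    refine companion F0 r h1 hmul s d (htr g) (hdet g) X Y hX hY ?_ ?_ ?_ ?_ ?_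
    · intro σ hσ
      simp only [X, Y, hmul, hσ, mul_one, ← hs, Matrix.trace_one, Fintype.card_fin]
      constructor
      · rw [div_eq_one_iff_eq hD]
        push_cast
        ring
      · rw [div_eq_zero_iff]
        left
        push_cast
        ring
    · intro σ τ
      have huniq : ∀ a b c e : F, a ∈ F0 → b ∈ F0 → c ∈ F0 → e ∈ F0 → a + b * α = c + e * α →
          a = c ∧ b = e := by
        intro a b c e ha hb hc he hh
        have : b = e := by
          by_contra hne
          apply hg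
          rw [show α = (c - a) / (b - e) from by
            rw [eq_div_iff (sub_ne_zero.2 hne)]; linear_combination hh]
          exact div_mem (sub_mem hc ha) (sub_mem hb he)
        subst this
        exact ⟨by linear_combination hh, rfl⟩
      refine (huniq _ (Y (σ * τ)) _ (X σ * Y τ + Y σ * X τ + s * Y σ * Y τ) (hX _) (hY _)
        (sub_mem (mul_mem (hX σ) (hX τ)) (mul_mem (mul_mem (hdet g) (hY σ)) (hY τ)))
        (add_mem (add_mem (mul_mem (hX σ) (hY τ)) (mul_mem (hY σ) (hX τ)))
          (mul_mem (mul_mem (htr g) (hY σ)) (hY τ))) ?_).1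
      rw [← (hrepr (σ * τ)).1, hψmul, (hrepr σ).1, (hrepr τ).1]
      linear_combination Y σ * Y τ * hα
    · intro σ τ
      by_contra hne
      apply hg
      have hh : X (σ * τ) + Y (σ * τ) * α = (X σ * X τ - d * Y σ * Y τ) +
          (X σ * Y τ + Y σ * X τ + s * Y σ * Y τ) * α := by
        rw [← (hrepr (σ * τ)).1, hψmul, (hrepr σ).1, (hrepr τ).1]
        linear_combination Y σ * Y τ * hα
      rw [show α = ((X σ * X τ - d * Y σ * Y τ) - X (σ * τ)) /
          (Y (σ * τ) - (X σ * Y τ + Y σ * X τ + s * Y σ * Y τ)) from by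
        rw [eq_div_iff (sub_ne_zero.2 hne)]; linear_combination hh]
      exact div_mem (sub_mem (sub_mem (mul_mem (hX σ) (hX τ)) (mul_mem (mul_mem (hdet g) (hY σ)) (hY τ)))
        (hX _)) (sub_mem (hY _) (add_mem (add_mem (mul_mem (hX σ) (hY τ)) (mul_mem (hY σ) (hX τ)))
          (mul_mem (mul_mem (htr g) (hY σ)) (hY τ))))
    · intro σ
      linear_combination -(hrepr σ).1 - (hrepr σ).2
    · intro σ
      obtain ⟨e1, e2⟩ := hrepr σ
      linear_combination -((X σ + Y σ * (s - α)) * e1) - ψ σ * e2 - hquad σ + Y σ ^ 2 * hα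

theorem of_irreducible (r : Γ → Deform.Mt F) (h1 : r 1 = 1)
    (hmul : ∀ σ τ, r (σ * τ) = r σ * r τ) (htr : ∀ σ, (r σ).trace ∈ F0)
    (hdet : ∀ σ, (r σ).det ∈ F0)
    (hirr : ∀ v : Fin 2 → F, v ≠ 0 → ∃ σ, cross (r σ *ᵥ v) v ≠ 0) :
    ∃ r0 : Γ → Deform.Mt F0, IsModel F0 r r0 := by
  classical
  let A : Subalgebra F0 (Deform.Mt F) := Algebra.adjoin F0 (Set.range r)
  have hAspan : ∀ a ∈ A, a ∈ Submodule.span F0 (Set.range r) := by
    intro a ha
    have : Subalgebra.toSubmodule A = Submodule.span F0 (Set.range r) := by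
      rw [Algebra.adjoin_eq_span]
      congr 1
      refine Set.Subset.antisymm (fun x hx => ?_) Submonoid.subset_closure
      induction hx using Submonoid.closure_induction with
      | mem x hx => exact hx
      | one => exact ⟨1, h1⟩
      | mul x y _ _ hx hy =>
        obtain ⟨σ, rfl⟩ := hx
        obtain ⟨τ, rfl⟩ := hy
        exact ⟨σ * τ, hmul σ τ⟩
    rw [← this]
    exact ha
  have hT : ∀ a ∈ A, a.trace ∈ F0 := by
    intro a ha
    have h' := hAspan a ha
    clear ha
    induction h' using Submodule.span_induction with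
    | mem x hx => obtain ⟨σ, rfl⟩ := hx; exact htr σ
    | zero => rw [Matrix.trace_zero]; exact zero_mem _
    | add x y _ _ hx hy => rw [Matrix.trace_add]; exact add_mem hx hy
    | smul c x _ hx => rw [Matrix.trace_smul, Subfield.smul_def]; exact mul_mem c.2 hx
  have hrA : ∀ σ, r σ ∈ A := fun σ => Algebra.subset_adjoin ⟨σ, rfl⟩
  by_cases hsing : ∃ u ∈ A, u ≠ 0 ∧ u.det = 0 ∧ u.trace ≠ 0
  · obtain ⟨u, huA, hu0, hud, hut⟩ := hsing
    let s : F0 := ⟨u.trace, hT u huA⟩
    let e : Deform.Mt F := u.trace⁻¹ • u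
    have heA : e ∈ A := by
      have : e = s⁻¹ • u := by ext i j; simp [e, s, Subfield.smul_def]
      rw [this]
      exact A.smul_mem huA _
    have hee : e * e = e := by
      simp only [e, smul_mul_smul_comm, sq_fin_two u, hud, zero_smul, sub_zero, smul_smul]
      congr 1
      field_simp
    have hetr : e.trace = 1 := by
      simp only [e, Matrix.trace_smul, smul_eq_mul, inv_mul_cancel₀ hut]
    obtain ⟨j, hj⟩ : ∃ j, (fun i => e i j) ≠ 0 := by
      by_contra hcon
      push Not at hcon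
      rw [show e = 0 from Matrix.ext fun i j => congrFun (hcon j) i, Matrix.trace_zero] at hetr
      exact zero_ne_one hetr
    obtain ⟨k, hk⟩ : ∃ k, (fun i => (1 - e) i k) ≠ 0 := by
      by_contra hcon
      push Not at hcon
      have : 1 - e = 0 := Matrix.ext fun i j => congrFun (hcon j) i
      rw [sub_eq_zero] at this
      rw [← this, Matrix.trace_one, Fintype.card_fin] at hetr
      push_cast at hetr
      exact one_ne_zero (α := F) (by linear_combination hetr)
    set v : Fin 2 → F := fun i => e i j with hvdef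
    set w : Fin 2 → F := fun i => (1 - e) i k with hwdef
    have hev : e *ᵥ v = v := funext fun i => by
      have := congrFun (congrFun hee i) j
      rwa [Matrix.mul_apply] at this
    have hew : e *ᵥ w = 0 := funext fun i => by
      have : (e * (1 - e)) i k = 0 := by rw [mul_sub, mul_one, hee, sub_self]; rfl
      rwa [Matrix.mul_apply] at this
    let Q : Deform.Mt F := Matrix.of fun i => ![v i, w i]
    have hQ : Q.det ≠ 0 := by
      intro h0
      obtain ⟨c, hc0, hc⟩ := Matrix.exists_mulVec_eq_zero_iff.2 h0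
      have hcomb : c 0 • v + c 1 • w = 0 := by
        funext i
        have := congrFun hc i
        simp [Q, Matrix.mulVec, dotProduct, Fin.sum_univ_two] at this
        simpa [mul_comm] using this
      have h2 : c 0 • v = 0 := by
        have := congrArg (e *ᵥ ·) hcomb
        simpa [Matrix.mulVec_add, Matrix.mulVec_smul, hev, hew] using this
      have hc00 : c 0 = 0 := (smul_eq_zero.1 h2).resolve_right hj
      rw [hc00, zero_smul, zero_add] at hcomb
      exact hc0 (funext fun i => by
        fin_cases i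
        · exact hc00
        · exact (smul_eq_zero.1 hcomb).resolve_right hk)
    have hQu : IsUnit Q.det := hQ.isUnit
    let c : Deform.Mt F → Deform.Mt F := fun a => Q⁻¹ * a * Q
    have hQa : ∀ a, Q * c a = a * Q := fun a => by
      simp only [c]
      rw [← mul_assoc, ← mul_assoc, Matrix.mul_nonsing_inv _ hQu, one_mul]
    have hcmul : ∀ a b, c (a * b) = c a * c b := fun a b => by
      simp only [c]
      rw [mul_assoc (Q⁻¹ * a) Q, ← mul_assoc Q (Q⁻¹ * b) Q, ← mul_assoc Q Q⁻¹ b,
        Matrix.mul_nonsing_inv _ hQu, one_mul]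
      simp only [mul_assoc]
    have hce : c e = !![1, 0; 0, 0] := by
      have : e * Q = Q * !![1, 0; 0, 0] := by
        ext i l
        have e1 := congrFun hev i
        have e2 := congrFun hew i
        simp only [Matrix.mulVec, dotProduct, Fin.sum_univ_two, Pi.zero_apply] at e1 e2
        fin_cases l <;> simp [Matrix.mul_apply, Fin.sum_univ_two, Q, e1, e2]
      simp only [c]
      rw [mul_assoc, this, ← mul_assoc, Matrix.nonsing_inv_mul _ hQu, one_mul]
    have hctr : ∀ a, (c a).trace = a.trace := fun a => by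
      simp only [c]
      rw [Matrix.trace_mul_comm, ← mul_assoc, Matrix.mul_nonsing_inv _ hQu, one_mul]
    have hcdet : ∀ a, (c a).det = a.det := fun a => Matrix.det_conj' ((Matrix.isUnit_iff_isUnit_det Q).2 hQu) a
    have hcsub : ∀ a b, c (a - b) = c a - c b := fun a b => by simp only [c, mul_sub, sub_mul]
    have hc1 : c 1 = 1 := by simp only [c, mul_one]; exact Matrix.nonsing_inv_mul _ hQu
    have h00 : ∀ a ∈ A, c a 0 0 ∈ F0 := fun a ha => by
      have := hT _ (mul_mem heA ha)
      rw [← hctr, hcmul, hce] at this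
      simp only [Matrix.trace, Matrix.diag_apply, Matrix.mul_apply, Fin.sum_univ_two] at this
      simpa using this
    have h11 : ∀ a ∈ A, c a 1 1 ∈ F0 := fun a ha => by
      have := sub_mem (hT a ha) (h00 a ha)
      rw [← hctr a] at this
      simpa [Matrix.trace, Fin.sum_univ_two] using this
    have hprod : ∀ a ∈ A, ∀ b ∈ A, c a 0 1 * c b 1 0 ∈ F0 := fun a ha b hb => by
      have := hT _ (mul_mem (mul_mem (mul_mem heA ha) (sub_mem (one_mem A) heA)) hb)
      rw [← hctr, hcmul, hcmul, hcmul, hcsub, hc1, hce] at this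
      simp only [Matrix.trace, Matrix.diag_apply, Matrix.mul_apply, Fin.sum_univ_two] at this
      simpa using this
    obtain ⟨g1, hg1⟩ : ∃ g, c (r g) 0 1 ≠ 0 := by
      obtain ⟨g, hg⟩ := hirr w hk
      refine ⟨g, fun h0 => hg ?_⟩
      have e : r g *ᵥ w = c (r g) 1 1 • w := funext fun i => by
        have := congrFun (congrFun (hQa (r g)) i) 1
        simp [Matrix.mul_apply, Fin.sum_univ_two, Q, h0] at this
        simp [Matrix.mulVec, dotProduct, Fin.sum_univ_two, ← this, mul_comm]
      simp [cross, e]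
      ring
    obtain ⟨g2, hg2⟩ : ∃ g, c (r g) 1 0 ≠ 0 := by
      obtain ⟨g, hg⟩ := hirr v hj
      refine ⟨g, fun h0 => hg ?_⟩
      have e : r g *ᵥ v = c (r g) 0 0 • v := funext fun i => by
        have := congrFun (congrFun (hQa (r g)) i) 0
        simp [Matrix.mul_apply, Fin.sum_univ_two, Q, h0] at this
        simp [Matrix.mulVec, dotProduct, Fin.sum_univ_two, ← this, mul_comm]
      simp [cross, e]
      ring
    set b := c (r g1) 0 1 with hbdef
    have hb1 : ∀ σ, c (r σ) 0 1 / b ∈ F0 := fun σ => by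
      rw [show c (r σ) 0 1 / b = (c (r σ) 0 1 * c (r g2) 1 0) / (b * c (r g2) 1 0) from
        (mul_div_mul_right _ _ hg2).symm]
      exact div_mem (hprod _ (hrA σ) _ (hrA g2)) (hprod _ (hrA g1) _ (hrA g2))
    have hb2 : ∀ σ, b * c (r σ) 1 0 ∈ F0 := fun σ => hprod _ (hrA g1) _ (hrA σ)
    refine ⟨fun σ => !![(⟨_, h00 _ (hrA σ)⟩ : F0), ⟨_, hb1 σ⟩; ⟨_, hb2 σ⟩, ⟨_, h11 _ (hrA σ)⟩],
      ?_, fun σ τ => ?_, fun σ hσ => ?_, fun σ => ⟨?_, ?_⟩⟩
    · refine Matrix.ext fun i l => Subtype.ext ?_
      fin_cases i <;> fin_cases l <;> simp [h1, hc1]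
    · refine Matrix.ext fun i l => Subtype.ext ?_
      fin_cases i <;> fin_cases l <;>
        simp [hmul, hcmul, Matrix.mul_apply, Fin.sum_univ_two] <;> field_simp
    · refine Matrix.ext fun i l => Subtype.ext ?_
      fin_cases i <;> fin_cases l <;> simp [hσ, hc1]
    · rw [← hctr (r σ)]
      simp [Matrix.trace, Fin.sum_univ_two]
    · rw [← hcdet (r σ)]
      simp [Matrix.det_fin_two]
      field_simp
  · -- all singular elements are nilpotent: there are none, and `A` is a field
    push Not at hsing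
    have hdiv : ∀ u ∈ A, u.det = 0 → u = 0 := by
      intro u hu hud
      by_contra hu0
      have hut := hsing u hu hu0 hud
      have hU2 : u * u = 0 := by rw [sq_fin_two, hud, hut, zero_smul, zero_smul, sub_zero]
      obtain ⟨j, hj⟩ : ∃ j, (fun i => u i j) ≠ 0 := by
        by_contra hcon
        push Not at hcon
        exact hu0 (Matrix.ext fun i j => congrFun (hcon j) i)
      obtain ⟨σ, hσ⟩ := hirr _ hj
      apply hσ (cross_of_sq_zero hU2 ?_ hut j)
      by_contra hne
      have hm : u * r σ ≠ 0 := fun h0 => hne (by rw [h0, Matrix.trace_zero])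
      exact hne (hsing _ (mul_mem hu (hrA σ)) hm (by rw [Matrix.det_mul, hud, zero_mul]))
    haveI : Finite A := Finite.of_injective _ Subtype.coe_injective
    haveI : NoZeroDivisors A := ⟨fun {a b} hab => by
      by_cases ha : (a : Deform.Mt F).det = 0
      · exact Or.inl (Subtype.ext (hdiv _ a.2 ha))
      · right
        have hb : (a : Deform.Mt F) * b = 0 := congrArg Subtype.val hab
        have := congrArg ((a : Deform.Mt F)⁻¹ * ·) hb
        simp only [← mul_assoc, Matrix.nonsing_inv_mul _ (Ne.isUnit ha), one_mul, mul_zero] at this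
        exact Subtype.ext this⟩
    haveI : IsDomain A := NoZeroDivisors.to_isDomain A
    have hcomm : ∀ a b : A, a * b = b * a := (Finite.isDomain_to_isField A).mul_comm
    have hc : ∀ σ τ, r σ * r τ = r τ * r σ := fun σ τ =>
      congrArg Subtype.val (hcomm ⟨_, hrA σ⟩ ⟨_, hrA τ⟩)
    obtain ⟨g, hγ⟩ : ∃ g, r g 1 0 ≠ 0 := by
      obtain ⟨g, hg⟩ := hirr ![1, 0] (fun h => one_ne_zero (α := F) (congrFun h 0))
      exact ⟨g, fun h0 => hg (by simp [cross, Matrix.mulVec, dotProduct, Fin.sum_univ_two, h0])⟩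
    set M := r g with hM
    set s := M.trace with hs
    set d := M.det with hd
    let Y : Γ → F := fun σ => r σ 1 0 / M 1 0
    let X : Γ → F := fun σ => r σ 0 0 - Y σ * M 0 0
    have hrep : ∀ σ, r σ = X σ • 1 + Y σ • M := by
      intro σ
      have e00 := congrFun (congrFun (hc g σ) 0) 0
      have e10 := congrFun (congrFun (hc g σ) 1) 0
      simp only [Matrix.mul_apply, Fin.sum_univ_two, ← hM] at e00 e10
      ext i l
      fin_cases i <;> fin_cases l <;> simp [X, Y] <;> field_simp
      · linear_combination -e00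
      · linear_combination -e10
    have hpresv : ∀ v : Fin 2 → F, ∀ a : F, M *ᵥ v = a • v → ∀ σ, cross (r σ *ᵥ v) v = 0 := by
      intro v a hva σ
      rw [hrep σ, Matrix.add_mulVec, Matrix.smul_mulVec, Matrix.smul_mulVec, Matrix.one_mulVec, hva]
      simp [cross]
      ring
    have hD : s ^ 2 - 4 * d ≠ 0 := by
      intro h0
      obtain ⟨a, ha2, hsa⟩ : ∃ a : F, a * a = d ∧ s = 2 * a := by
        by_cases h2 : (2 : F) = 0
        · haveI : CharP F 2 := CharTwo.of_one_ne_zero_of_two_eq_zero one_ne_zero h2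
          obtain ⟨y, hy⟩ := FiniteField.isSquare_of_char_two (ringChar.eq F 2) d
          have hs0 : s ^ 2 = 0 := by linear_combination h0 + 2 * d * h2
          rw [sq_eq_zero_iff] at hs0
          exact ⟨y, hy.symm, by rw [hs0, h2, zero_mul]⟩
        · refine ⟨s / 2, ?_, by rw [mul_div_cancel₀ _ h2]⟩
          field_simp
          linear_combination h0
      let v : Fin 2 → F := ![M 0 0 - a, M 1 0]
      have hv : v ≠ 0 := fun h => hγ (congrFun h 1)
      obtain ⟨σ, hσ⟩ := hirr v hv
      refine hσ (hpresv v a ?_ σ)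
      have hs' : M 0 0 + M 1 1 = 2 * a := by
        rw [← hsa, hs]; simp [Matrix.trace, Fin.sum_univ_two]
      have hd' : M 0 0 * M 1 1 - M 0 1 * M 1 0 = a * a := by
        rw [ha2, hd, Matrix.det_fin_two]
      funext i
      fin_cases i <;> simp [v, Matrix.mulVec, dotProduct, Fin.sum_univ_two]
      · linear_combination -hd' + M 0 0 * hs'
      · linear_combination M 1 0 * hs'
    have hM2 : M * M = s • M - d • 1 := sq_fin_two M
    have htr1 : ∀ σ, (r σ).trace = 2 * X σ + s * Y σ := fun σ => by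
      rw [hrep σ, Matrix.trace_add, Matrix.trace_smul, Matrix.trace_smul, Matrix.trace_one,
        Fintype.card_fin, smul_eq_mul, smul_eq_mul, ← hs]
      push_cast; ring
    have htr2 : ∀ σ, (r (g * σ)).trace = s * X σ + (s ^ 2 - 2 * d) * Y σ := fun σ => by
      rw [hmul, ← hM, hrep σ, mul_add, mul_smul_comm, mul_smul_comm, mul_one, hM2, Matrix.trace_add,
        Matrix.trace_smul, Matrix.trace_smul, Matrix.trace_sub, Matrix.trace_smul, Matrix.trace_smul,
        Matrix.trace_one, Fintype.card_fin, smul_eq_mul, smul_eq_mul, smul_eq_mul, smul_eq_mul, ← hs]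
      push_cast; ring
    have hD0 : s ^ 2 - 4 * d ∈ F0 :=
      sub_mem (pow_mem (htr g) 2) (mul_mem (ofNat_mem F0 4) (hdet g))
    have hY : ∀ σ, Y σ ∈ F0 := fun σ => by
      rw [show Y σ = (2 * (r (g * σ)).trace - s * (r σ).trace) / (s ^ 2 - 4 * d) from by
        rw [eq_div_iff hD, htr2, htr1]; ring]
      exact div_mem (sub_mem (mul_mem (ofNat_mem F0 2) (htr _)) (mul_mem (htr g) (htr σ))) hD0
    have hX : ∀ σ, X σ ∈ F0 := fun σ => by
      rw [show X σ = (-(s * (r (g * σ)).trace) - (r σ).trace * (2 * d - s ^ 2)) / (s ^ 2 - 4 * d) from by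
        rw [eq_div_iff hD, htr2, htr1]; ring]
      exact div_mem (sub_mem (neg_mem (mul_mem (htr g) (htr _)))
        (mul_mem (htr σ) (sub_mem (mul_mem (ofNat_mem F0 2) (hdet g)) (pow_mem (htr g) 2)))) hD0
    have hYone : ∀ σ, r σ = 1 → X σ = 1 ∧ Y σ = 0 := fun σ hσ => by simp [X, Y, hσ]
    have hlaw : ∀ σ τ, r (σ * τ) = (X σ * X τ - d * Y σ * Y τ) • 1 +
        (X σ * Y τ + Y σ * X τ + s * Y σ * Y τ) • M := by
      intro σ τ
      rw [hmul, hrep σ, hrep τ]
      simp only [add_mul, mul_add, smul_mul_assoc, mul_smul_comm, one_mul, mul_one, hM2]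
      ext i l
      simp only [Matrix.add_apply, Matrix.smul_apply, Matrix.sub_apply, smul_eq_mul]
      ring
    have hYlaw : ∀ σ τ, Y (σ * τ) = X σ * Y τ + Y σ * X τ + s * Y σ * Y τ := by
      intro σ τ
      have := congrFun (congrFun (hlaw σ τ) 1) 0
      simp at this
      simp only [Y] at this ⊢
      rw [this]
      field_simp
    refine companion F0 r h1 hmul s d (htr g) (hdet g) X Y hX hY hYone (fun σ τ => ?_) hYlaw
      (fun σ => (htr1 σ).symm) (fun σ => ?_)
    · have := congrFun (congrFun (hlaw σ τ) 0) 0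
      simp at this
      change r (σ * τ) 0 0 - Y (σ * τ) * M 0 0 = _
      rw [this, hYlaw]
      ring
    · rw [hrep σ, Matrix.det_fin_two]
      simp [hs, hd, Matrix.det_fin_two, Matrix.trace, Fin.sum_univ_two]
      ring

theorem exists_model (r : Γ → Deform.Mt F) (h1 : r 1 = 1)
    (hmul : ∀ σ τ, r (σ * τ) = r σ * r τ) (htr : ∀ σ, (r σ).trace ∈ F0)
    (hdet : ∀ σ, (r σ).det ∈ F0) : ∃ r0 : Γ → Deform.Mt F0, IsModel F0 r r0 := by
  by_cases h : ∃ v : Fin 2 → F, v ≠ 0 ∧ ∀ σ, cross (r σ *ᵥ v) v = 0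
  · obtain ⟨v, hv, hv'⟩ := h
    exact of_eigenvector F0 r h1 hmul htr hdet v hv hv'
  · push Not at h
    exact of_irreducible F0 r h1 hmul htr hdet h

end Descent

end FLTAgent.Attach

end
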