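import Fermat.Agent.Attach.Eigen
import Fermat.Agent.Chebotarev.Density

/-!
From an action satisfying the Eichler–Shimura quadratic relation at good Frobenius elements to a
two-dimensional representation with the expected characteristic polynomials: either the
determinant already is the cyclotomic character, or there is an invariant line with character `ψ`,
and then `ψ ⊕ c/ψ` works.
-/

set_option autoImplicit false
set_option linter.style.haveILetI false
set_option linter.unusedSectionVars false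

noncomputable section

namespace FLTAgent.Attach

open IsLocalRing Polynomial
open scoped Matrix

section Algebra

variable {O : Type} [CommRing O]

theorem sq_fin_two (M : Deform.Mt O) : M * M = M.trace • M - M.det • 1 := by
  ext i j
  fin_cases i <;> fin_cases j <;>
    simp [Matrix.mul_apply, Fin.sum_univ_two, Matrix.trace, Matrix.det_fin_two] <;> ring

variable [IsDomain O]

theorem quadratic_dichotomy {M : Deform.Mt O} {a c : O} (h : M * M + c • 1 = a • M) :
    (M.trace = a ∧ M.det = c) ∨ ∃ s : O, M = s • 1 := by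
  have h00 := congrFun (congrFun h 0) 0
  have h01 := congrFun (congrFun h 0) 1
  have h10 := congrFun (congrFun h 1) 0
  have h11 := congrFun (congrFun h 1) 1
  simp [Matrix.mul_apply, Fin.sum_univ_two] at h00 h01 h10 h11
  have e1 : (M.trace - a) * M 0 1 = 0 := by
    simp only [Matrix.trace, Fin.sum_univ_two, Matrix.diag_apply]; linear_combination h01
  have e2 : (M.trace - a) * M 1 0 = 0 := by
    simp only [Matrix.trace, Fin.sum_univ_two, Matrix.diag_apply]; linear_combination h10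
  have e3 : (M.trace - a) * (M 0 0 - M 1 1) = 0 := by
    simp only [Matrix.trace, Fin.sum_univ_two, Matrix.diag_apply]; linear_combination h00 - h11
  rcases eq_or_ne (M.trace - a) 0 with h0 | h0
  · refine Or.inl ⟨sub_eq_zero.1 h0, ?_⟩
    rw [sub_eq_zero] at h0
    rw [Matrix.det_fin_two]
    simp [Matrix.trace, Fin.sum_univ_two] at h0
    linear_combination M 0 0 * h0 - h00
  · refine Or.inr ⟨M 0 0, ?_⟩
    have f1 := (mul_eq_zero.1 e1).resolve_left h0
    have f2 := (mul_eq_zero.1 e2).resolve_left h0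
    have f3 := sub_eq_zero.1 ((mul_eq_zero.1 e3).resolve_left h0)
    ext i j
    fin_cases i <;> fin_cases j <;> simp [f1, f2, f3]

/-- `w` is parallel to `v`. -/
def cross (w v : Fin 2 → O) : O := w 0 * v 1 - w 1 * v 0

theorem cross_of_sq_zero {U h : Deform.Mt O} (hU : U * U = 0) (hUh : (U * h).trace = 0)
    (htr : U.trace = 0) (j : Fin 2) :
    cross (h *ᵥ (fun i => U i j)) (fun i => U i j) = 0 := by
  have h00 := congrFun (congrFun hU 0) 0
  simp [Matrix.mul_apply, Fin.sum_univ_two] at h00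
  simp [Matrix.trace, Fin.sum_univ_two, Matrix.mul_apply] at hUh htr
  simp only [cross, Matrix.mulVec, dotProduct, Fin.sum_univ_two]
  fin_cases j <;> simp
  · linear_combination U 1 0 * hUh - h 1 0 * h00 - h 1 1 * U 1 0 * htr
  · linear_combination (-U 0 1) * hUh + (h 0 0 * U 0 1 + h 0 1 * (U 1 1 - U 0 0)) * htr + h 0 1 * h00

end Algebra

variable {N : ℕ} [NeZero N] {O : Type} [CommRing O] [IsDomain O] [IsDiscreteValuationRing O]
  [IsAdicComplete (maximalIdeal O) O] [CharZero O] {p : ℕ} (hp : p.Prime)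
  (hpO : (p : O) ∈ maximalIdeal O)

/-- The quotient map modulo `m ^ n`. -/
abbrev modPow (n : ℕ) : O →+* O ⧸ (maximalIdeal O ^ n) := Ideal.Quotient.mk _

theorem map_eq_one_of_cont {r : GalQ → Deform.Mt O} {n : ℕ} {σ : GalQ}
    (h : ∀ i j, r σ i j - (1 : Deform.Mt O) i j ∈ maximalIdeal O ^ n) :
    (modPow n).mapMatrix (r σ) = 1 := by
  rw [← map_one (modPow (O := O) n).mapMatrix]
  ext i j
  exact (Ideal.Quotient.mk_eq_mk_iff_sub_mem _ _).2 (h i j)

include hp hpO in
/-- `(det - c) (tr² - 4 det) = 0` everywhere. -/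
theorem det_sub_mul_disc (S : Finset ℕ) (r : GalQ → Deform.Mt O) (h1 : r 1 = 1)
    (hmul : ∀ σ τ, r (σ * τ) = r σ * r τ) (hc : Deform.MatCont r) (hpS : p ∈ S)
    (hfrob : ∀ ℓ : ℕ, ℓ.Prime → ℓ ∉ S →
      ∀ A : ValuationSubring (AlgebraicClosure ℚ), A.LiesOverPrime ℓ →
        ∀ σ : GalQ, A.IsFrobeniusAt σ ℓ → ∃ a : O, r σ * r σ + (ℓ : O) • 1 = a • r σ)
    (σ : GalQ) :
    ((r σ).det - cycR hp hpO σ) * ((r σ).trace ^ 2 - 4 * (r σ).det) = 0 := by
  refine eq_zero_of_forall_mem_pow fun n => ?_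
  obtain ⟨L1, hL1, hr⟩ := hc n
  obtain ⟨L2, hL2, hcy⟩ := cycR_level hp hpO n
  haveI := hL1; haveI := hL2
  obtain ⟨ℓ, A, τ, k, hℓ, hℓS, hA, hτ, hagree⟩ :=
    FLTAgent.Chebotarev.exists_frobenius_pow (L1 ⊔ L2) σ S
  set g : GalQ := σ⁻¹ * τ ^ k with hg
  have hfix : ∀ y ∈ L1 ⊔ L2, g y = y := fun y hy => by
    rw [hg, AlgEquiv.mul_apply, hagree y hy]
    exact σ.symm_apply_apply y
  have hτk : τ ^ k = σ * g := by rw [hg, mul_inv_cancel_left]
  let q : O →+* O ⧸ (maximalIdeal O ^ n) := modPow n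
  have hrg : q.mapMatrix (r g) = 1 :=
    map_eq_one_of_cont (hr g fun y hy => hfix y (le_sup_left (a := L1) hy))
  have hcg : q (cycR hp hpO g) = 1 := by
    rw [← map_one q]
    exact (Ideal.Quotient.mk_eq_mk_iff_sub_mem _ _).2
      (hcy g fun y hy => hfix y (le_sup_right (a := L1) hy))
  have hr' : q.mapMatrix (r (τ ^ k)) = q.mapMatrix (r σ) := by
    rw [hτk, hmul, map_mul, hrg, mul_one]
  have hc' : q (cycR hp hpO (τ ^ k)) = q (cycR hp hpO σ) := by
    rw [hτk, cycR_mul, map_mul, hcg, mul_one]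
  have hpow : ∀ j, r (τ ^ j) = r τ ^ j ∧ cycR hp hpO (τ ^ j) = (ℓ : O) ^ j := by
    intro j
    induction j with
    | zero => simp [h1, cycR_one]
    | succ j ih =>
      rw [pow_succ, hmul, cycR_mul, ih.1, ih.2, pow_succ, pow_succ,
        cycR_frobenius hp hpO hℓ (fun h => hℓS (by rw [h]; exact hpS)) hA hτ]
      exact ⟨rfl, rfl⟩
  have hzero : ((r (τ ^ k)).det - cycR hp hpO (τ ^ k)) *
      ((r (τ ^ k)).trace ^ 2 - 4 * (r (τ ^ k)).det) = 0 := by
    obtain ⟨a, ha⟩ := hfrob ℓ hℓ hℓS A hA τ hτ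
    rw [(hpow k).1, (hpow k).2]
    rcases quadratic_dichotomy ha with ⟨-, hd⟩ | ⟨s, hs⟩
    · rw [Matrix.det_pow, hd, sub_self, zero_mul]
    · rw [hs, _root_.smul_pow, one_pow, Matrix.det_fin_two]
      simp [Matrix.trace]
      ring_nf
      simp
  have htrq : ∀ M : Deform.Mt O, q M.trace = (q.mapMatrix M).trace := fun M => by
    simp [Matrix.trace]
  have := congrArg q hzero
  simp only [map_mul, map_sub, map_pow, map_ofNat, map_zero, RingHom.map_det,
    htrq, hr', hc'] at this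
  rw [← Ideal.Quotient.eq_zero_iff_mem]
  simpa only [map_mul, map_sub, map_pow, map_ofNat, RingHom.map_det, ← htrq] using this

include hp hpO in
/-- If the determinant is not the cyclotomic character, there is a common eigenvector. -/
theorem exists_common_eigenvector (r : GalQ → Deform.Mt O) (h1 : r 1 = 1)
    (hmul : ∀ σ τ, r (σ * τ) = r σ * r τ)
    (hkey : ∀ σ, ((r σ).det - cycR hp hpO σ) * ((r σ).trace ^ 2 - 4 * (r σ).det) = 0)
    (g₀ : GalQ) (hg₀ : (r g₀).det ≠ cycR hp hpO g₀) :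
    ∃ v : Fin 2 → O, v ≠ 0 ∧ ∀ σ, cross (r σ *ᵥ v) v = 0 := by
  classical
  set c := cycR hp hpO with hc
  have hdisc : ∀ σ, (r σ).det ≠ c σ → (r σ).trace ^ 2 = 4 * (r σ).det := fun σ h =>
    sub_eq_zero.1 ((mul_eq_zero.1 (hkey σ)).resolve_left (sub_ne_zero.2 h))
  have hdet_mul : ∀ σ τ, (r (σ * τ)).det = (r σ).det * (r τ).det := fun σ τ => by
    rw [hmul, Matrix.det_mul]
  have hunit : ∀ σ, IsUnit (r σ).det := fun σ =>
    IsUnit.of_mul_eq_one (r σ⁻¹).det (by rw [← hdet_mul, mul_inv_cancel, h1, Matrix.det_one])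
  by_cases hscalar : ∀ σ, (r σ).det ≠ c σ → ∃ s : O, r σ = s • 1
  · refine ⟨![1, 0], fun h => one_ne_zero (α := O) (congrFun h 0), fun σ => ?_⟩
    have hall : ∃ s : O, r σ = s • 1 := by
      by_cases hσ : (r σ).det = c σ
      · obtain ⟨s, hs⟩ := hscalar g₀ hg₀
        obtain ⟨s', hs'⟩ := hscalar (g₀ * σ) (by
          rw [hdet_mul, hc, cycR_mul, ← hc, hσ]
          exact fun h => hg₀ (mul_right_cancel₀ (isUnit_cycR hp hpO σ).ne_zero h))
        rw [hmul, hs, smul_mul_assoc, one_mul] at hs'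
        have hs0 : IsUnit s := by
          have := hunit g₀
          rw [hs, Matrix.det_smul, Matrix.det_one, mul_one, Fintype.card_fin] at this
          exact (isUnit_pow_iff two_ne_zero).1 this
        exact ⟨(hs0.unit⁻¹ : Oˣ) * s', by rw [mul_smul, ← hs', smul_smul, hs0.val_inv_mul, one_smul]⟩
      · exact hscalar σ hσ
    obtain ⟨s, hs⟩ := hall
    simp [cross, hs, Matrix.smul_mulVec]
  · push Not at hscalar
    obtain ⟨g, hg, hgs⟩ := hscalar
    set t := (r g).trace with ht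
    set U : Deform.Mt O := (2 : O) • r g - t • 1 with hUdef
    have htd := hdisc g hg
    have ht0 : t ≠ 0 := fun h => by
      rw [← ht, h, zero_pow two_ne_zero, eq_comm, mul_eq_zero] at htd
      exact htd.elim (by norm_num) (hunit g).ne_zero
    have hU2 : U * U = 0 := by
      simp only [hUdef, sub_mul, mul_sub, smul_mul_assoc, mul_smul_comm, one_mul, mul_one,
        smul_sub, smul_smul, sq_fin_two (r g), ← ht]
      rw [show t * t = 4 * (r g).det from by rw [← sq, htd]]
      ext i j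
      fin_cases i <;> fin_cases j <;> simp <;> ring
    have hUtr : U.trace = 0 := by
      simp [hUdef, Matrix.trace_sub, Matrix.trace_smul, ← ht, Matrix.trace_one]
      ring
    have hU0 : U ≠ 0 := fun h => by
      rw [hUdef] at h
      have h01 := congrFun (congrFun h 0) 1
      have h10 := congrFun (congrFun h 1) 0
      have h00 := congrFun (congrFun h 0) 0
      have h11 := congrFun (congrFun h 1) 1
      simp at h01 h10 h00 h11
      refine hgs (r g 0 0) (Matrix.ext fun i j => ?_)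
      fin_cases i <;> fin_cases j <;> simp [h01, h10]
      exact mul_left_cancel₀ (two_ne_zero (α := O)) (by linear_combination h11 - h00)
    have hQ : ∀ σ, (U * r σ).trace = 0 := by
      intro σ
      set T := (r σ).trace with hT
      set Q := (U * r σ).trace with hQ'
      set d := (r σ).det with hd
      have hpowU : ∀ m : ℕ, ((2 : O) • r g) ^ (m + 1) = t ^ (m + 1) • 1 + ((m + 1 : ℕ) * t ^ m : O) • U := by
        intro m
        have h2 : (2 : O) • r g = t • 1 + U := by rw [hUdef]; abel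
        induction m with
        | zero => rw [pow_one, h2]; simp
        | succ m ih =>
          rw [pow_succ, ih, h2]
          simp only [mul_add, add_mul, smul_mul_assoc, mul_smul_comm, one_mul, mul_one, hU2,
            smul_zero, add_zero]
          push_cast
          ext i j
          simp only [Matrix.add_apply, Matrix.smul_apply, smul_eq_mul]
          ring
      have hP : ∀ m : ℕ, (r (g ^ (m + 1) * σ)).det ≠ c (g ^ (m + 1) * σ) →
          (t * T + (m + 1 : ℕ) * Q) ^ 2 - 4 * t ^ 2 * d = 0 := by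
        intro m hm
        have hrpow : ∀ j, r (g ^ j) = r g ^ j := by
          intro j
          induction j with
          | zero => simp [h1]
          | succ j ih => rw [pow_succ, hmul, ih, pow_succ]
        have h := hdisc _ hm
        rw [hmul, hrpow, Matrix.det_mul, Matrix.det_pow] at h
        have h2 : (2 : O) ^ (m + 1) * (r g ^ (m + 1) * r σ).trace =
            t ^ (m + 1) * T + ((m + 1 : ℕ) * t ^ m : O) * Q := by
          rw [← smul_eq_mul, ← Matrix.trace_smul, ← smul_mul_assoc, ← _root_.smul_pow, hpowU, add_mul,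
            smul_mul_assoc, smul_mul_assoc, one_mul, Matrix.trace_add, Matrix.trace_smul,
            Matrix.trace_smul, smul_eq_mul, smul_eq_mul]
        have h3 : (t ^ m) ^ 2 * ((t * T + (m + 1 : ℕ) * Q) ^ 2 - 4 * t ^ 2 * d) = 0 := by
          have h4 : (t * t) ^ (m + 1) = (2 * 2 * (r g).det) ^ (m + 1) := by
            rw [← sq, htd]; ring_nf
          have h5 := congrArg (· ^ 2) h2
          simp only [mul_pow, h] at h5
          rw [mul_pow, mul_pow, mul_pow] at h4
          linear_combination -h5 - 4 * d * h4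
        exact (mul_eq_zero.1 h3).resolve_left (pow_ne_zero 2 (pow_ne_zero m ht0))
      have hgood : ∀ j : ℕ, ∃ m, (2 * j ≤ m ∧ m ≤ 2 * j + 1) ∧
          (r (g ^ (m + 1) * σ)).det ≠ c (g ^ (m + 1) * σ) := by
        intro j
        by_cases hj : (r (g ^ (2 * j + 1) * σ)).det = c (g ^ (2 * j + 1) * σ)
        · refine ⟨2 * j + 1, ⟨by omega, le_rfl⟩, ?_⟩
          rw [pow_succ' g (2 * j + 1), mul_assoc, hdet_mul, hc, cycR_mul, ← hc, hj]
          exact fun h => hg (mul_right_cancel₀ (isUnit_cycR hp hpO _).ne_zero h)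
        · exact ⟨2 * j, ⟨le_rfl, by omega⟩, hj⟩
      obtain ⟨a, ⟨ha, ha'⟩, hga⟩ := hgood 0
      obtain ⟨b, ⟨hb, hb'⟩, hgb⟩ := hgood 1
      obtain ⟨e, ⟨he, he'⟩, hge⟩ := hgood 2
      have Pa := hP a hga
      have Pb := hP b hgb
      have Pe := hP e hge
      have hne : ∀ {x y : ℕ}, x ≠ y → ((x + 1 : ℕ) : O) - ((y + 1 : ℕ) : O) ≠ 0 := fun h h' => by
        rw [sub_eq_zero, Nat.cast_inj] at h'
        omega
      have e1 : Q ^ 2 * (((a + 1 : ℕ) : O) + ((b + 1 : ℕ) : O)) + 2 * t * T * Q = 0 := by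
        refine (mul_eq_zero.1 (?_ : (((a + 1 : ℕ) : O) - ((b + 1 : ℕ) : O)) * _ = 0)).resolve_left
          (hne (by omega))
        linear_combination Pa - Pb
      have e2 : Q ^ 2 * (((b + 1 : ℕ) : O) + ((e + 1 : ℕ) : O)) + 2 * t * T * Q = 0 := by
        refine (mul_eq_zero.1 (?_ : (((b + 1 : ℕ) : O) - ((e + 1 : ℕ) : O)) * _ = 0)).resolve_left
          (hne (by omega))
        linear_combination Pb - Pe
      have e3 : (((a + 1 : ℕ) : O) - ((e + 1 : ℕ) : O)) * Q ^ 2 = 0 := by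
        linear_combination e1 - e2
      exact (pow_eq_zero_iff two_ne_zero).1 ((mul_eq_zero.1 e3).resolve_left (hne (by omega)))
    obtain ⟨j, hj⟩ : ∃ j, (fun i => U i j) ≠ 0 := by
      by_contra hcon
      push Not at hcon
      exact hU0 (Matrix.ext fun i j => congrFun (hcon j) i)
    exact ⟨_, hj, fun σ => cross_of_sq_zero hU2 (hQ σ) hUtr j⟩

theorem exists_eigen_character (r : GalQ → Deform.Mt O) {v : Fin 2 → O} (hv : v ≠ 0)
    (h : ∀ σ, cross (r σ *ᵥ v) v = 0) :
    ∃ (w : Fin 2 → O) (i : Fin 2), w i = 1 ∧ ∀ σ, r σ *ᵥ w = (r σ *ᵥ w) i • w := by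
  classical
  rcases ValuationRing.dvd_total (v 0) (v 1) with ⟨u, hu⟩ | ⟨u, hu⟩
  · refine ⟨![1, u], 0, rfl, fun σ => ?_⟩
    have hv0 : v 0 ≠ 0 := fun h0 => hv (funext fun i => by fin_cases i <;> simp [h0, hu])
    have e : cross (r σ *ᵥ ![1, u]) ![1, u] = 0 := by
      refine (mul_eq_zero.1 (?_ : (v 0) ^ 2 * _ = 0)).resolve_left (pow_ne_zero 2 hv0)
      have := h σ
      simp only [cross, Matrix.mulVec, dotProduct, Fin.sum_univ_two, hu, Matrix.cons_val_zero, Matrix.cons_val_one, Matrix.cons_val_fin_one] at this ⊢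
      linear_combination this
    simp [cross] at e
    funext i
    fin_cases i <;> simp
    linear_combination -e
  · refine ⟨![u, 1], 1, rfl, fun σ => ?_⟩
    have hv1 : v 1 ≠ 0 := fun h0 => hv (funext fun i => by fin_cases i <;> simp [h0, hu])
    have e : cross (r σ *ᵥ ![u, 1]) ![u, 1] = 0 := by
      refine (mul_eq_zero.1 (?_ : (v 1) ^ 2 * _ = 0)).resolve_left (pow_ne_zero 2 hv1)
      have := h σ
      simp only [cross, Matrix.mulVec, dotProduct, Fin.sum_univ_two, hu, Matrix.cons_val_zero, Matrix.cons_val_one, Matrix.cons_val_fin_one] at this ⊢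
      linear_combination this
    simp [cross] at e
    funext i
    fin_cases i <;> simp
    linear_combination e

include hp hpO in
/-- The representation attached to a character of the full Hecke algebra. -/
theorem exists_galoisRepAdic (D : HeckeLattice N) (G : GaloisInputs N) (f : TFull N →+* O) :
    ∃ ρ : GaloisRepAdic O,
      (∀ (ℓ : ℕ) (hℓ : ℓ.Prime) (hℓN : ¬ ℓ ∣ N), ℓ ≠ p →
        ∀ A : ValuationSubring (AlgebraicClosure ℚ), A.LiesOverPrime ℓ →
          ∀ σ : GalQ, A.IsFrobeniusAt σ ℓ →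
            LinearMap.charpoly (ρ.ρ σ) =
              X ^ 2 - C (f (CuspForm.heckeAlgebra.T hℓ hℓN (Set.notMem_empty _))) * X + C (ℓ : O)) ∧
      (∀ q : ℕ, q.Prime → ¬ q ∣ N → q ≠ p → ρ.IsUnramifiedAt q) := by
  classical
  obtain ⟨r, h1, hmul, hcont, hfr, hin⟩ := D.exists_eigenRep hp hpO G f
  have hnat : ∀ ℓ : ℕ, (ℓ : Deform.Mt O) = (ℓ : O) • 1 := fun ℓ => by
    rw [← nsmul_one ℓ, Nat.cast_smul_eq_nsmul]
  suffices H : ∃ r' : GalQ → Deform.Mt O, r' 1 = 1 ∧ (∀ σ τ, r' (σ * τ) = r' σ * r' τ) ∧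
      Deform.MatCont r' ∧
      (∀ (ℓ : ℕ) (hℓ : ℓ.Prime) (hℓN : ¬ ℓ ∣ N), ℓ ≠ p →
        ∀ A : ValuationSubring (AlgebraicClosure ℚ), A.LiesOverPrime ℓ →
          ∀ σ : GalQ, A.IsFrobeniusAt σ ℓ →
            (r' σ).trace = f (CuspForm.heckeAlgebra.T hℓ hℓN (Set.notMem_empty _)) ∧
              (r' σ).det = (ℓ : O)) ∧
      (∀ q : ℕ, q.Prime → ¬ q ∣ N → q ≠ p →
        ∀ A : ValuationSubring (AlgebraicClosure ℚ), A.LiesOverPrime q →
          ∀ σ ∈ A.inertiaSubgroupIn ℚ, r' σ = 1) by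
    obtain ⟨r', e1, e2, e3, e4, e5⟩ := H
    refine ⟨Deform.ofMat r' e1 e2 e3, fun ℓ hℓ hℓN hℓp A hA σ hσ => ?_, fun q hq hqN hqp A hA σ hσ => ?_⟩
    · obtain ⟨b, hb⟩ := Deform.repMat_ofMat r' e1 e2 e3
      rw [← LinearMap.charpoly_toMatrix (f := (Deform.ofMat r' e1 e2 e3).ρ σ) b, hb,
        Matrix.charpoly_fin_two, (e4 ℓ hℓ hℓN hℓp A hA σ hσ).1, (e4 ℓ hℓ hℓN hℓp A hA σ hσ).2]
    · obtain ⟨b, hb⟩ := Deform.repMat_ofMat r' e1 e2 e3
      refine (LinearMap.toMatrix b b).injective ?_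
      rw [hb, e5 q hq hqN hqp A hA σ hσ, LinearMap.toMatrix_one]
  by_cases hdet : ∀ σ, (r σ).det = cycR hp hpO σ
  · refine ⟨r, h1, hmul, hcont, fun ℓ hℓ hℓN hℓp A hA σ hσ => ?_, hin⟩
    have hd : (r σ).det = (ℓ : O) := by rw [hdet, cycR_frobenius hp hpO hℓ hℓp hA hσ]
    refine ⟨?_, hd⟩
    have h := hfr ℓ hℓ hℓN hℓp A hA σ hσ
    rw [hnat, sq_fin_two, hd, sub_add_cancel] at h
    by_contra hne
    have h0 : r σ = 0 := smul_right_injective _ (sub_ne_zero.2 hne)
      (show _ • r σ = _ • (0 : Deform.Mt O) by rw [smul_zero, sub_smul, h, sub_self])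
    rw [h0, Matrix.det_zero] at hd
    exact hℓ.ne_zero (Nat.cast_eq_zero.1 hd.symm)
  · push Not at hdet
    obtain ⟨g₀, hg₀⟩ := hdet
    have hkey := det_sub_mul_disc hp hpO (insert p N.primeFactors) r h1 hmul hcont
      (Finset.mem_insert_self _ _) (fun ℓ hℓ hℓS A hA σ hσ => by
        rw [Finset.mem_insert, not_or] at hℓS
        have hℓN : ¬ ℓ ∣ N := fun h => hℓS.2 (Nat.mem_primeFactors.2 ⟨hℓ, h, NeZero.ne N⟩)
        exact ⟨_, hnat ℓ ▸ hfr ℓ hℓ hℓN hℓS.1 A hA σ hσ⟩)
    obtain ⟨v, hv, hvσ⟩ := exists_common_eigenvector hp hpO r h1 hmul hkey g₀ hg₀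
    obtain ⟨w, i, hwi, hw⟩ := exists_eigen_character r hv hvσ
    let ψ : GalQ → O := fun σ => (r σ *ᵥ w) i
    have hψ1 : ψ 1 = 1 := by simp only [ψ, h1, Matrix.one_mulVec, hwi]
    have hψmul : ∀ σ τ, ψ (σ * τ) = ψ σ * ψ τ := fun σ τ => by
      change (r (σ * τ) *ᵥ w) i = (r σ *ᵥ w) i * (r τ *ᵥ w) i
      rw [hmul, ← Matrix.mulVec_mulVec]
      conv_lhs => rw [hw τ]
      rw [Matrix.mulVec_smul, Pi.smul_apply, smul_eq_mul, mul_comm]
    have hψinv : ∀ σ, ψ σ * ψ σ⁻¹ = 1 := fun σ => by rw [← hψmul, mul_inv_cancel, hψ1]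
    have hψcont : ∀ n (σ : GalQ), (modPow n).mapMatrix (r σ) = 1 → modPow n (ψ σ) = 1 := by
      intro n σ h
      have e := RingHom.map_mulVec (modPow (O := O) n) (r σ) w i
      rw [show (r σ).map (modPow (O := O) n) = 1 from h, Matrix.one_mulVec] at e
      rw [e, Function.comp_apply, hwi, map_one]
    refine ⟨fun σ => Matrix.diagonal ![ψ σ, cycR hp hpO σ * ψ σ⁻¹], ?_, fun σ τ => ?_, fun n => ?_,
      fun ℓ hℓ hℓN hℓp A hA σ hσ => ?_, fun q hq hqN hqp A hA σ hσ => ?_⟩
    · dsimp only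
      rw [← Matrix.diagonal_one]
      congr 1
      funext j
      fin_cases j <;> simp [hψ1, cycR_one]
    · dsimp only
      rw [Matrix.diagonal_mul_diagonal]
      congr 1
      funext j
      fin_cases j <;> simp [hψmul, cycR_mul]
      ring
    · obtain ⟨L1, hL1, hr⟩ := hcont n
      obtain ⟨L2, hL2, hcy⟩ := cycR_level hp hpO n
      haveI := hL1; haveI := hL2
      refine ⟨L1 ⊔ L2, inferInstance, fun σ hσ a b => ?_⟩
      have hq1 := hψcont n σ (map_eq_one_of_cont (hr σ fun y hy => hσ y (le_sup_left (a := L1) hy)))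
      have hq2 := hψcont n σ⁻¹ (map_eq_one_of_cont (hr σ⁻¹ fun y hy => by
        conv_lhs => rw [← hσ y (le_sup_left (a := L1) hy)]
        exact σ.symm_apply_apply y))
      have hq3 : modPow n (cycR hp hpO σ) = 1 := by
        rw [← map_one (modPow (O := O) n)]
        exact (Ideal.Quotient.mk_eq_mk_iff_sub_mem _ _).2
          (hcy σ fun y hy => hσ y (le_sup_right (a := L1) hy))
      rw [← Ideal.Quotient.eq_zero_iff_mem, map_sub]
      fin_cases a <;> fin_cases b <;> simp [hq1, hq2, hq3]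
    · have h := congrArg (· *ᵥ w) (hfr ℓ hℓ hℓN hℓp A hA σ hσ)
      have hψσ : r σ *ᵥ w = ψ σ • w := hw σ
      simp only [hnat, Matrix.add_mulVec, ← Matrix.mulVec_mulVec, hψσ, Matrix.mulVec_smul,
        Matrix.smul_mulVec, Matrix.one_mulVec, smul_smul] at h
      have hi := congrFun h i
      simp only [Pi.add_apply, Pi.smul_apply, smul_eq_mul, hwi, mul_one] at hi
      constructor
      · simp [Matrix.trace, Fin.sum_univ_two, cycR_frobenius hp hpO hℓ hℓp hA hσ]
        linear_combination ψ σ⁻¹ * hi + (f (CuspForm.heckeAlgebra.T hℓ hℓN (Set.notMem_empty _)) - ψ σ) * hψinv σ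
      · simp [Matrix.det_fin_two, cycR_frobenius hp hpO hℓ hℓp hA hσ]
        linear_combination (ℓ : O) * hψinv σ
    · dsimp only
      have hr1 := hin q hq hqN hqp A hA σ hσ
      have hψσ : ψ σ = 1 := by simp only [ψ, hr1, Matrix.one_mulVec, hwi]
      have hψσ' : ψ σ⁻¹ = 1 := by
        have h := hψinv σ
        rwa [hψσ, one_mul] at h
      rw [← Matrix.diagonal_one]
      congr 1
      funext j
      fin_cases j <;> simp [hψσ, hψσ', cycR_inertia hp hpO hq hqp hA hσ]

end FLTAgent.Attach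

end
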