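import Fermat.Agent.Attach.Tate
import Fermat.Agent.Alg.IntegralForms
import Fermat.Agent.ModFun.Integral
import Fermat.Agent.Deform.Mat

/-!
The eigen part of the Tate module attached to a character of the Hecke algebra: it is free of
rank two, and it carries a Galois action with the Eichler–Shimura relation.
-/

set_option autoImplicit false
set_option linter.style.haveILetI false
set_option linter.unusedSectionVars false

noncomputable section

namespace FLTAgent.Attach

open IsLocalRing CongruenceSubgroup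
open scoped TensorProduct Matrix

variable {N : ℕ} [NeZero N]

/-- The full Hecke algebra of level `N`. -/
abbrev TFull (N : ℕ) [NeZero N] : Type := CuspForm.heckeAlgebra N 2 (∅ : Set ℕ)

theorem hasIntegralBasis (N : ℕ) [NeZero N] : CuspForm.HasIntegralBasis N := by
  have h := FLTAgent.ModFun.hasIntegralStructure N 2
  rw [CuspForm.HasIntegralStructure, eq_top_iff] at h
  refine eq_top_iff.2 (h.trans (Submodule.span_le.2 ?_))
  rw [FLTAgent.Alg.intLattice_eq_intForms]
  intro f hf
  refine Submodule.subset_span fun n => ?_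
  obtain ⟨m, hm⟩ := hf n
  exact Subring.mem_bot.2 ⟨m, hm.symm⟩

theorem finite_TFull (N : ℕ) [NeZero N] : Module.Finite ℤ (TFull N) :=
  FLTAgent.Alg.heckeAlgebra_finite (hasIntegralBasis N)

/-- An eigenform is determined by its first coefficient. -/
theorem eq_zero_of_coeff_one (χ : TFull N →+* ℂ) {v : S2 N}
    (hv : ∀ t : TFull N, t.1 v = χ t • v) (h1 : FLTAgent.Alg.coeffSeq N v 1 = 0) : v = 0 := by
  apply FLTAgent.Alg.coeffSeq_injective
  rw [map_zero]
  funext n
  rw [Pi.zero_apply]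
  induction n using Nat.strong_induction_on with
  | _ n ih =>
    rcases Nat.lt_or_ge n 2 with hn | hn
    · interval_cases n
      · exact FLTAgent.Alg.coeffSeq_zero_coeff v
      · exact h1
    · have hl : (Nat.minFac n).Prime := Nat.minFac_prime (by omega)
      obtain ⟨m, hm⟩ : Nat.minFac n ∣ n := Nat.minFac_dvd n
      generalize hℓ : Nat.minFac n = ℓ at hl hm
      subst hm
      have hmpos : 0 < m := Nat.pos_of_ne_zero fun h => by simp [h] at hn
      have hlt : m < ℓ * m := lt_mul_left hmpos hl.one_lt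
      by_cases hN : ℓ ∣ N
      · have h := congrArg (fun w => FLTAgent.Alg.coeffSeq N w m)
          (hv (CuspForm.heckeAlgebra.U hl hN (Set.notMem_empty _)))
        simp only [CuspForm.heckeAlgebra.coe_U, FLTAgent.Alg.coeff_heckeU hl hN, map_smul,
          Pi.smul_apply, ih m hlt, smul_zero] at h
        rw [mul_comm]; exact h
      · have h := congrArg (fun w => FLTAgent.Alg.coeffSeq N w m)
          (hv (CuspForm.heckeAlgebra.T hl hN (Set.notMem_empty _)))
        simp only [CuspForm.heckeAlgebra.coe_T, FLTAgent.Alg.coeff_heckeT hl hN, map_smul,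
          Pi.smul_apply, ih m hlt, smul_zero] at h
        rw [mul_comm]
        split_ifs at h with hd
        · rwa [ih (m / ℓ) ((Nat.div_le_self m ℓ).trans_lt hlt), mul_zero, add_zero] at h
        · rwa [add_zero] at h

/-- Multiplicity one for the full Hecke algebra. -/
theorem exists_eigenline (χ : TFull N →+* ℂ) :
    ∃ v : S2 N, v ≠ 0 ∧ (∀ t : TFull N, t.1 v = χ t • v) ∧
      ∀ w : S2 N, (∀ t : TFull N, t.1 w = χ t • w) → ∃ c : ℂ, w = c • v := by
  obtain ⟨v, hv0, hv⟩ := FLTAgent.Alg.exists_eigenvector (hasIntegralBasis N) χ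
  refine ⟨v, hv0, hv, fun w hw => ⟨FLTAgent.Alg.coeffSeq N w 1 / FLTAgent.Alg.coeffSeq N v 1, ?_⟩⟩
  have h1 : FLTAgent.Alg.coeffSeq N v 1 ≠ 0 := fun h => hv0 (eq_zero_of_coeff_one χ hv h)
  rw [← sub_eq_zero]
  refine eq_zero_of_coeff_one χ (fun t => ?_) ?_
  · rw [map_sub, map_smul, hw t, hv t, smul_sub, smul_comm]
  · rw [map_sub, map_smul, Pi.sub_apply, Pi.smul_apply, smul_eq_mul, div_mul_cancel₀ _ h1, sub_self]

/-! ### frames of saturated submodules -/

theorem exists_frame {R : Type} [CommRing R] [IsDomain R] [IsPrincipalIdealRing R]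
    {ι : Type} [Fintype ι] [DecidableEq ι] (E : Submodule R (ι → R))
    (hsat : ∀ (c : R) (x : ι → R), c ≠ 0 → c • x ∈ E → x ∈ E) :
    ∃ (W : Matrix ι (Fin (Module.finrank R E)) R) (P : Matrix (Fin (Module.finrank R E)) ι R),
      P * W = 1 ∧ ∀ x, x ∈ E ↔ W *ᵥ (P *ᵥ x) = x := by
  classical
  haveI : Module.IsTorsionFree R ((ι → R) ⧸ E) := by
    refine ⟨fun r hr => ?_⟩
    intro a b hab
    obtain ⟨x, rfl⟩ := Submodule.mkQ_surjective E a
    obtain ⟨y, rfl⟩ := Submodule.mkQ_surjective E b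
    simp only [Submodule.mkQ_apply, ← Submodule.Quotient.mk_smul, Submodule.Quotient.eq,
      ← smul_sub] at hab ⊢
    exact hsat r _ hr.ne_zero hab
  haveI : Module.Free R ((ι → R) ⧸ E) := Module.free_of_finite_type_torsion_free'
  obtain ⟨s, hs⟩ := Module.projective_lifting_property E.mkQ
    (LinearMap.id : ((ι → R) ⧸ E) →ₗ[R] _) (Submodule.mkQ_surjective E)
  let retr : (ι → R) →ₗ[R] E := (LinearMap.id - s ∘ₗ E.mkQ).codRestrict E fun x => by
    rw [← Submodule.Quotient.mk_eq_zero]
    change E.mkQ (x - s (E.mkQ x)) = 0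
    rw [map_sub, show E.mkQ (s (E.mkQ x)) = E.mkQ x from LinearMap.congr_fun hs _, sub_self]
  have hretr : ∀ x : E, retr x = x := fun x => Subtype.ext <| by
    change (x : ι → R) - s (E.mkQ x) = x
    rw [show E.mkQ (x : ι → R) = 0 from (Submodule.Quotient.mk_eq_zero E).2 x.2, map_zero, sub_zero]
  let b : Module.Basis (Fin (Module.finrank R E)) R E := Module.finBasis R E
  let w : (Fin (Module.finrank R E) → R) →ₗ[R] (ι → R) := E.subtype ∘ₗ b.equivFun.symm.toLinearMap
  let π : (ι → R) →ₗ[R] (Fin (Module.finrank R E) → R) := b.equivFun.toLinearMap ∘ₗ retr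
  refine ⟨LinearMap.toMatrix' w, LinearMap.toMatrix' π, ?_, fun x => ?_⟩
  · rw [← LinearMap.toMatrix'_comp, ← LinearMap.toMatrix'_id]
    congr 1
    refine LinearMap.ext fun y => ?_
    change b.equivFun (retr (b.equivFun.symm y : ι → R)) = y
    rw [hretr, LinearEquiv.apply_symm_apply]
  · rw [LinearMap.toMatrix'_mulVec, LinearMap.toMatrix'_mulVec]
    change x ∈ E ↔ ((b.equivFun.symm (b.equivFun (retr x)) : E) : ι → R) = x
    rw [LinearEquiv.symm_apply_apply]
    exact ⟨fun h => congrArg Subtype.val (hretr ⟨x, h⟩), fun h => h ▸ (retr x).2⟩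

theorem finrank_eq_of_frame {K : Type} [Field K] {ι : Type} [Fintype ι] {d : ℕ}
    (E : Submodule K (ι → K)) (W : Matrix ι (Fin d) K) (P : Matrix (Fin d) ι K) (hPW : P * W = 1)
    (h1 : ∀ y, W *ᵥ y ∈ E) (h2 : ∀ x ∈ E, W *ᵥ (P *ᵥ x) = x) : Module.finrank K E = d := by
  have hrange : LinearMap.range W.mulVecLin = E :=
    le_antisymm (by rintro _ ⟨y, rfl⟩; exact h1 y) fun x hx => ⟨P *ᵥ x, h2 x hx⟩
  rw [← hrange, LinearMap.finrank_range_of_inj, Module.finrank_fin_fun]
  intro x y h
  have := congrArg (P *ᵥ ·) h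
  simpa [Matrix.mulVec_mulVec, hPW] using this

theorem functional_mulVec {F K : Type} [Field F] [Field K] [Algebra F K] (L : K →ₗ[F] F)
    {m n : Type} [Fintype n] (M : Matrix m n F) (x : n → K) :
    (fun i => L ((M.map (algebraMap F K) *ᵥ x) i)) = M *ᵥ (fun j => L (x j)) := by
  funext i
  simp only [Matrix.mulVec, dotProduct, Matrix.map_apply, map_sum, ← Algebra.smul_def, map_smul,
    smul_eq_mul]

namespace HeckeLattice

variable (D : HeckeLattice N)

/-- The common eigenvectors of the Hecke operators with eigenvalues given by `f`. -/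
def eigSub {R : Type} [CommRing R] (f : TFull N →+* R) : Submodule R (D.Idx → R) where
  carrier := {x | ∀ t : TFull N, D.mat (D.act t) *ᵥ x = f t • x}
  add_mem' := fun {x y} hx hy t => by rw [Matrix.mulVec_add, hx t, hy t, smul_add]
  zero_mem' := fun t => by rw [Matrix.mulVec_zero, smul_zero]
  smul_mem' := fun c x hx t => by rw [Matrix.mulVec_smul, hx t, smul_comm]

theorem mat_map {R R' : Type} [CommRing R] [CommRing R'] (φ : R →+* R') (u : Module.End ℤ D.Lam) :
    (D.mat u : Matrix D.Idx D.Idx R).map φ = (D.mat u : Matrix D.Idx D.Idx R') := by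
  classical
  ext i j
  simp [mat, LinearMap.toMatrixAlgEquiv_apply]

theorem mulVec_frame_mem {R R' : Type} [CommRing R] [CommRing R'] (φ : R →+* R')
    (f : TFull N →+* R) {d : ℕ} {W : Matrix D.Idx (Fin d) R}
    (hW : ∀ y, W *ᵥ y ∈ D.eigSub f) (y : Fin d → R') :
    W.map φ *ᵥ y ∈ D.eigSub (φ.comp f) := by
  intro t
  have h : (D.mat (D.act t) : Matrix D.Idx D.Idx R) * W = f t • W := by
    classical
    refine Matrix.ext_of_mulVec_single fun j => ?_
    rw [← Matrix.mulVec_mulVec, hW (Pi.single j 1) t, Matrix.smul_mulVec]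
  have h' := congrArg (fun M : Matrix D.Idx (Fin d) R => M.map φ) h
  simp only [Matrix.map_mul, D.mat_map φ] at h'
  rw [Matrix.mulVec_mulVec, h', ← Matrix.smul_mulVec]
  congr 1
  ext i j
  simp

theorem eigSub_saturated {R : Type} [CommRing R] [IsDomain R] (f : TFull N →+* R) (c : R)
    (x : D.Idx → R) (hc : c ≠ 0) (hx : c • x ∈ D.eigSub f) : x ∈ D.eigSub f := by
  intro t
  have := hx t
  rw [Matrix.mulVec_smul, smul_comm] at this
  exact smul_right_injective _ hc this

theorem finrank_eigSub_comp {F K : Type} [Field F] [Field K] (φ : F →+* K) (f : TFull N →+* F) :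
    Module.finrank K (D.eigSub (φ.comp f)) = Module.finrank F (D.eigSub f) := by
  classical
  letI : Algebra F K := φ.toAlgebra
  obtain ⟨W, P, hPW, hE⟩ := exists_frame (D.eigSub f) (D.eigSub_saturated f)
  have hW : ∀ y, W *ᵥ y ∈ D.eigSub f := fun y => (hE _).2 (by
    rw [Matrix.mulVec_mulVec y P W, hPW, Matrix.one_mulVec])
  refine finrank_eq_of_frame _ (W.map φ) (P.map φ) ?_ (D.mulVec_frame_mem φ f hW) fun x hx => ?_
  · rw [← Matrix.map_mul, hPW, Matrix.map_one φ φ.map_zero φ.map_one]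
  funext i
  rw [← sub_eq_zero, ← Module.forall_dual_apply_eq_zero_iff F]
  intro L
  have hy : (fun j => L (x j)) ∈ D.eigSub f := by
    intro t
    rw [← functional_mulVec (K := K) L]
    rw [D.mat_map (algebraMap F K), hx t]
    funext j
    simp only [Pi.smul_apply, RingHom.comp_apply]
    rw [show φ (f t) • x j = f t • x j from (Algebra.smul_def (f t) (x j)).symm, map_smul]
  have h := congrFun ((hE _).1 hy) i
  rw [← functional_mulVec (K := K) L, ← functional_mulVec (K := K) L] at h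
  rw [map_sub, sub_eq_zero]
  exact h

theorem finrank_eigSub_fraction {O K : Type} [CommRing O] [IsDomain O] [IsPrincipalIdealRing O]
    [Field K] [Algebra O K] [IsFractionRing O K] (f : TFull N →+* O) :
    Module.finrank K (D.eigSub ((algebraMap O K).comp f)) = Module.finrank O (D.eigSub f) := by
  classical
  obtain ⟨W, P, hPW, hE⟩ := exists_frame (D.eigSub f) (D.eigSub_saturated f)
  set φ := algebraMap O K
  have hW : ∀ y, W *ᵥ y ∈ D.eigSub f := fun y => (hE _).2 (by
    rw [Matrix.mulVec_mulVec y P W, hPW, Matrix.one_mulVec])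
  refine finrank_eq_of_frame _ (W.map φ) (P.map φ) ?_ (D.mulVec_frame_mem φ f hW) fun x hx => ?_
  · rw [← Matrix.map_mul, hPW, Matrix.map_one φ φ.map_zero φ.map_one]
  obtain ⟨⟨b, hb⟩, hint⟩ := IsLocalization.exist_integer_multiples_of_finite (nonZeroDivisors O) x
  choose y hy using hint
  replace hy : φ ∘ y = φ b • x := funext fun j => (hy j).trans (Algebra.smul_def b (x j))
  have hy' : y ∈ D.eigSub f := by
    intro t
    funext i
    apply IsFractionRing.injective O K
    refine (RingHom.map_mulVec φ _ y i).trans ?_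
    rw [D.mat_map φ, hy, Matrix.mulVec_smul, hx t, Pi.smul_apply (f t), smul_eq_mul, map_mul,
      show φ (y i) = (φ b • x) i from congrFun hy i]
    simp only [Pi.smul_apply, smul_eq_mul, RingHom.comp_apply]
    ring
  have h := (hE _).1 hy'
  have h2 : W.map φ *ᵥ (P.map φ *ᵥ (φ ∘ y)) = φ ∘ y := by
    funext i
    have := congrArg φ (congrFun h i)
    rw [RingHom.map_mulVec] at this
    rw [← show φ ∘ (P *ᵥ y) = P.map φ *ᵥ (φ ∘ y) from funext fun j => RingHom.map_mulVec φ P y j]
    exact this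
  rw [hy, Matrix.mulVec_smul, Matrix.mulVec_smul] at h2
  exact smul_right_injective (D.Idx → K)
    ((map_ne_zero_iff φ (IsFractionRing.injective O K)).2 (nonZeroDivisors.ne_zero hb)) h2

theorem finrank_eigSub_complex (χ : TFull N →+* ℂ) : Module.finrank ℂ (D.eigSub χ) = 2 := by
  classical
  obtain ⟨v, hv0, hv, huniq⟩ := exists_eigenline χ
  let b := Module.Free.chooseBasis ℤ D.Lam
  let L : (S2 N × S2 N) ≃ₗ[ℂ] (D.Idx → ℂ) := D.periods.symm ≪≫ₗ (b.baseChange ℂ).equivFun
  have hkey : ∀ (t : TFull N) (y : S2 N × S2 N),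
      D.mat (D.act t) *ᵥ L y = L (pairMap t.1 y) := by
    intro t y
    obtain ⟨z, rfl⟩ : ∃ z, D.periods z = y := ⟨_, D.periods.apply_symm_apply y⟩
    rw [← D.act_models t z]
    simp only [L, LinearEquiv.trans_apply, LinearEquiv.symm_apply_apply, Module.Basis.equivFun_apply]
    rw [← LinearMap.toMatrix_mulVec_repr (b.baseChange ℂ) (b.baseChange ℂ)]
    congr 1
    ext i j
    rw [LinearMap.toMatrix_apply, Module.Basis.baseChange_apply, LinearMap.baseChange_tmul,
      Module.Basis.baseChange_repr_tmul]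
    simp [mat, LinearMap.toMatrixAlgEquiv_apply, b]
  let J : (ℂ × ℂ) →ₗ[ℂ] (D.Idx → ℂ) := L.toLinearMap ∘ₗ
    LinearMap.prodMap (LinearMap.toSpanSingleton ℂ (S2 N) v) (LinearMap.toSpanSingleton ℂ (S2 N) v)
  have hrange : LinearMap.range J = D.eigSub χ := by
    refine le_antisymm ?_ fun x hx => ?_
    · rintro _ ⟨⟨a, c⟩, rfl⟩ t
      change D.mat (D.act t) *ᵥ L (a • v, c • v) = χ t • L (a • v, c • v)
      rw [hkey, ← map_smul]
      congr 1
      simp only [pairMap, LinearMap.prodMap_apply, Prod.smul_mk, map_smul, hv, smul_smul, mul_comm]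
    · obtain ⟨⟨w₁, w₂⟩, rfl⟩ := L.surjective x
      have h : ∀ t : TFull N, pairMap t.1 (w₁, w₂) = χ t • (w₁, w₂) := fun t =>
        L.injective (by rw [← hkey, hx t, map_smul])
      obtain ⟨a, ha⟩ := huniq w₁ fun t => congrArg Prod.fst (h t)
      obtain ⟨c, hc⟩ := huniq w₂ fun t => congrArg Prod.snd (h t)
      exact ⟨(a, c), by rw [ha, hc]; rfl⟩
  rw [← hrange, LinearMap.finrank_range_of_inj, Module.finrank_prod, Module.finrank_self]
  intro x y h
  have h' := L.injective h
  exact Prod.ext (smul_left_injective ℂ hv0 (congrArg Prod.fst h'))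
    (smul_left_injective ℂ hv0 (congrArg Prod.snd h'))

theorem finrank_eigSub_field {K : Type} [Field K] [CharZero K] (f : TFull N →+* K) :
    Module.finrank K (D.eigSub f) = 2 := by
  haveI := finite_TFull N
  let F := algebraicClosure ℚ K
  haveI : Algebra.IsAlgebraic ℚ F := algebraicClosure.isAlgebraic ℚ K
  have hmem : ∀ t : TFull N, f t ∈ F := fun t => by
    rw [mem_algebraicClosure_iff]
    exact ((map_isIntegral_int f (Algebra.IsIntegral.isIntegral t)).tower_top (A := ℚ)).isAlgebraic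
  let f₀ : TFull N →+* F := f.codRestrict F hmem
  let ι : F →ₐ[ℚ] ℂ := IsAlgClosed.lift
  have h1 := D.finrank_eigSub_comp (algebraMap F K) f₀
  have h2 := D.finrank_eigSub_comp ι.toRingHom f₀
  rw [D.finrank_eigSub_complex] at h2
  rw [← h2] at h1
  exact h1

theorem finrank_eigSub {O : Type} [CommRing O] [IsDomain O] [IsPrincipalIdealRing O] [CharZero O]
    (f : TFull N →+* O) : Module.finrank O (D.eigSub f) = 2 := by
  rw [← D.finrank_eigSub_fraction (K := FractionRing O) f]
  exact D.finrank_eigSub_field _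

/-! ### the Galois action on the eigen part -/

open scoped Classical in
include D in
theorem exists_eigenRep {O : Type} [CommRing O] [IsDomain O] [IsDiscreteValuationRing O]
    [IsAdicComplete (maximalIdeal O) O] [CharZero O] {p : ℕ} (hp : p.Prime)
    (hpO : (p : O) ∈ maximalIdeal O) (G : GaloisInputs N) (f : TFull N →+* O) :
    ∃ r : GalQ → Deform.Mt O, r 1 = 1 ∧ (∀ σ τ, r (σ * τ) = r σ * r τ) ∧ Deform.MatCont r ∧
      (∀ (ℓ : ℕ) (hℓ : ℓ.Prime) (hℓN : ¬ ℓ ∣ N), ℓ ≠ p →
        ∀ A : ValuationSubring (AlgebraicClosure ℚ), A.LiesOverPrime ℓ →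
          ∀ σ : GalQ, A.IsFrobeniusAt σ ℓ →
            r σ * r σ + (ℓ : Deform.Mt O) =
              f (CuspForm.heckeAlgebra.T hℓ hℓN (Set.notMem_empty _)) • r σ) ∧
      (∀ q : ℕ, q.Prime → ¬ q ∣ N → q ≠ p →
        ∀ A : ValuationSubring (AlgebraicClosure ℚ), A.LiesOverPrime q →
          ∀ σ ∈ A.inertiaSubgroupIn ℚ, r σ = 1) := by
  obtain ⟨W, P, hPW, hE⟩ :
      ∃ (W : Matrix D.Idx (Fin 2) O) (P : Matrix (Fin 2) D.Idx O),
        P * W = 1 ∧ ∀ x, x ∈ D.eigSub f ↔ W *ᵥ (P *ᵥ x) = x := by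
    have h := exists_frame (D.eigSub f) (D.eigSub_saturated f)
    rwa [D.finrank_eigSub f] at h
  have hW : ∀ y, W *ᵥ y ∈ D.eigSub f := fun y => (hE _).2 (by
    rw [Matrix.mulVec_mulVec y P W, hPW, Matrix.one_mulVec])
  have hTW : ∀ t : TFull N, (D.mat (D.act t) : Matrix D.Idx D.Idx O) * W = f t • W := fun t =>
    Matrix.ext_of_mulVec_single fun j => by
      rw [← Matrix.mulVec_mulVec, hW (Pi.single j 1) t, Matrix.smul_mulVec]
  set M := D.galMat hp hpO with hM
  have hMW : ∀ σ, W * (P * (M σ * W)) = M σ * W := by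
    intro σ
    refine Matrix.ext_of_mulVec_single fun j => ?_
    rw [← Matrix.mulVec_mulVec, ← Matrix.mulVec_mulVec (Pi.single j 1) P, (hE _).1]
    · intro t
      rw [Matrix.mulVec_mulVec, ← Matrix.mul_assoc, ← D.galMat_comm hp hpO G σ (D.act_mem t),
        Matrix.mul_assoc, hTW, Matrix.mul_smul, Matrix.smul_mulVec]
  refine ⟨fun σ => P * (M σ * W), ?_, fun σ τ => ?_, fun n => ?_, ?_, ?_⟩
  · dsimp only
    rw [hM, D.galMat_one, Matrix.one_mul, hPW]
  · dsimp only
    rw [hM, D.galMat_mul, Matrix.mul_assoc (D.galMat hp hpO σ)]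
    nth_rw 1 [← hMW τ]
    simp only [Matrix.mul_assoc]
    rfl
  · obtain ⟨L, hL, hlev⟩ := D.galMat_level hp hpO G n
    refine ⟨L, hL, fun σ hσ i j => ?_⟩
    have h : P * (M σ * W) - 1 = P * ((M σ - 1) * W) := by
      rw [Matrix.sub_mul, Matrix.one_mul, Matrix.mul_sub, hPW]
    rw [← Matrix.sub_apply, h]
    simp only [Matrix.mul_apply]
    exact Ideal.sum_mem _ fun a _ => Ideal.mul_mem_left _ _
      (Ideal.sum_mem _ fun c _ => Ideal.mul_mem_right _ _ (hlev σ hσ a c))
  · intro ℓ hℓ hℓN hℓp A hA σ hσ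
    have hfr := D.galMat_frobenius hp hpO G hℓ hℓN hℓp hA hσ
    rw [← D.act_T hℓ hℓN] at hfr
    rw [Matrix.mul_assoc P (M σ * W), Matrix.mul_assoc (M σ) W, hMW σ, ← Matrix.mul_assoc (M σ)]
    have h : (M σ * M σ + (ℓ : Matrix D.Idx D.Idx O)) * W =
        f (CuspForm.heckeAlgebra.T hℓ hℓN (Set.notMem_empty _)) • (M σ * W) := by
      rw [hM, hfr, ← D.galMat_comm hp hpO G σ (D.act_mem _), Matrix.mul_assoc, hTW, Matrix.mul_smul]
    rw [← Matrix.mul_smul, ← h, Matrix.add_mul, Matrix.mul_add]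
    congr 1
    rw [← nsmul_one ℓ, ← nsmul_one ℓ, Matrix.smul_mul, Matrix.one_mul, Matrix.mul_smul, hPW]
  · intro q hq hqN hqp A hA σ hσ
    dsimp only
    rw [hM, D.galMat_inertia hp hpO G hq hqN hqp hA hσ, Matrix.one_mul, hPW]

end HeckeLattice

end FLTAgent.Attach

end
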