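import Fermat.Agent.Attach.Attached
import Fermat.Agent.Torsion.Count
import Fermat.Agent.Local.Frey
import Fermat.Prelude.Def_FreyPackage_EigenformResidualAttachment

/-!
Residual attachment for a Frey package.
-/

set_option autoImplicit false
set_option linter.style.haveILetI false
set_option linter.unusedSectionVars false

noncomputable section

namespace FLTAgent.Attach

open WeierstrassCurve WeierstrassCurve.Affine.Point Polynomial
open scoped WeierstrassCurve.Affine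

/-- A finite extension of `ℚ` over which all `n`-torsion of the Frey curve is rational. -/
theorem exists_frey_level (P : FreyPackage) (n : ℕ) (hn : n ≠ 0) :
    ∃ L : IntermediateField ℚ (AlgebraicClosure ℚ), FiniteDimensional ℚ L ∧
      ∀ σ : GalQ, (∀ x ∈ L, σ x = x) →
        galoisRepModuleEnd (S := ℚ) (K := AlgebraicClosure ℚ) P.freyCurve n σ = 1 := by
  classical
  haveI : IsGalois ℚ (AlgebraicClosure ℚ) := FLTAgent.Alg.qb_isGalois
  haveI : (P.freyCurve⁄(AlgebraicClosure ℚ)).IsElliptic := by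
    constructor
    rw [isUnit_iff_ne_zero, FLTAgent.Local.freyCurve_eq]
    simp [WeierstrassCurve.baseChange, WeierstrassCurve.map_Δ,
      FLTAgent.Local.freyCurveInt_Δ_ne_zero P]
  let crd : (P.freyCurve⁄(AlgebraicClosure ℚ)).Point →
      AlgebraicClosure ℚ × AlgebraicClosure ℚ := fun Q =>
    match Q with
    | 0 => (0, 0)
    | .some x y _ => (x, y)
  haveI hfin : Finite (Submodule.torsionBy ℤ (P.freyCurve⁄(AlgebraicClosure ℚ)).Point (n : ℤ)) :=
    FLTAgent.Torsion.finite_torsionBy (P.freyCurve⁄(AlgebraicClosure ℚ)) n hn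
  let S : Set (AlgebraicClosure ℚ) :=
    Set.range (fun x : Submodule.torsionBy ℤ (P.freyCurve⁄(AlgebraicClosure ℚ)).Point (n : ℤ) =>
      (crd x.1).1) ∪
    Set.range (fun x : Submodule.torsionBy ℤ (P.freyCurve⁄(AlgebraicClosure ℚ)).Point (n : ℤ) =>
      (crd x.1).2)
  haveI : Finite S := (Set.finite_range _).union (Set.finite_range _)
  refine ⟨IntermediateField.adjoin ℚ S,
    IntermediateField.finiteDimensional_adjoin fun x _ => Algebra.IsIntegral.isIntegral x,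
    fun σ hσ => LinearMap.ext fun x => Subtype.ext ?_⟩
  have h1 : σ (crd x.1).1 = (crd x.1).1 :=
    hσ _ (IntermediateField.subset_adjoin ℚ S (Or.inl ⟨x, rfl⟩))
  have h2 : σ (crd x.1).2 = (crd x.1).2 :=
    hσ _ (IntermediateField.subset_adjoin ℚ S (Or.inr ⟨x, rfl⟩))
  obtain ⟨Q, hQ⟩ := x
  change σ • Q = Q
  rcases Q with _ | ⟨a, b, hns⟩
  · rfl
  · show Affine.Point.map σ.toAlgHom (Affine.Point.some a b hns) = _
    rw [Affine.Point.map_some, Affine.Point.some.injEq]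
    exact ⟨h1, h2⟩

theorem eigenformResidualAttachmentAt (P : FreyPackage) (M : ℕ) (_hM : 0 < M)
    (hD : ∀ [NeZero M], Nonempty (HeckeLattice M)) (hG : ∀ [NeZero M], GaloisInputs M) :
    P.EigenformResidualAttachmentAt M := by
  classical
  haveI : IsGalois ℚ (AlgebraicClosure ℚ) := FLTAgent.Alg.qb_isGalois
  intro g hg 𝔪 h𝔪 hp𝔪
  haveI := h𝔪
  haveI : Fact P.p.Prime := ⟨P.pp⟩
  let K := integralClosure ℤ ℂ ⧸ 𝔪
  letI : Field K := Ideal.Quotient.field 𝔪
  haveI : CharP K P.p := by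
    have h0 : ((P.p : ℕ) : K) = 0 := by
      rw [← map_natCast (Ideal.Quotient.mk 𝔪)]
      exact Ideal.Quotient.eq_zero_iff_mem.2 hp𝔪
    exact (CharP.charP_iff_prime_eq_zero P.pp).2 h0
  letI : Algebra (ZMod P.p) K := ZMod.algebra K P.p
  let ψ : integralClosure ℤ ℂ →+* K := Ideal.Quotient.mk 𝔪
  obtain ⟨ρ, hρ, -⟩ := exists_attached (fun {_} => hD) (fun {_} => hG) hg P.pp ψ
  obtain ⟨L₁, hL₁, h₁⟩ := exists_frey_level P P.p P.pp.ne_zero
  obtain ⟨L₂, hL₂, h₂⟩ := ρ.factorsThroughFiniteLevel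
  haveI := hL₁; haveI := hL₂
  let F := IntermediateField.normalClosure ℚ ↥(L₁ ⊔ L₂) (AlgebraicClosure ℚ)
  haveI : FiniteDimensional ℚ F := normalClosure.is_finiteDimensional ℚ _ _
  haveI : NumberField F := { }
  haveI : Normal ℚ F := normalClosure.normal ℚ _ _
  haveI : IsGalois ℚ F := { }
  have hker : ∀ σ : GalQ,
      σ ∈ (AlgEquiv.restrictNormalHom (F := ℚ) (K₁ := AlgebraicClosure ℚ) F).ker →
        ∀ x ∈ L₁ ⊔ L₂, σ x = x := by
    intro σ hσ x hx
    have hxF : x ∈ F := (IntermediateField.le_normalClosure (L₁ ⊔ L₂)) hx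
    have h := AlgEquiv.restrictNormal_commutes σ F ⟨x, hxF⟩
    rw [MonoidHom.mem_ker] at hσ
    change algebraMap F (AlgebraicClosure ℚ)
      ((AlgEquiv.restrictNormalHom F σ) ⟨x, hxF⟩) = σ x at h
    rw [hσ] at h
    exact h.symm
  have hcp : ∀ ℓ : ℕ, ℓ.Prime → ¬ ℓ ∣ M → ℓ ≠ P.p →
      ∀ A : ValuationSubring (AlgebraicClosure ℚ), A.LiesOverPrime ℓ →
        ∀ τ : GalQ, A.IsFrobeniusAt τ ℓ →
          ∃ a : integralClosure ℤ ℂ, (a : ℂ) = ModularFormClass.qCoeff g ℓ ∧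
            LinearMap.trace K ρ.V (ρ.ρ τ) = ψ a ∧ LinearMap.det (ρ.ρ τ) = (ℓ : K) := by
    intro ℓ hℓ hℓM hℓp A hA τ hτ
    have hℓK : (ℓ : K) ≠ 0 := by
      rw [Ne, CharP.cast_eq_zero_iff K P.p]
      exact fun h => hℓp ((Nat.prime_dvd_prime_iff_eq P.pp hℓ).1 h).symm
    obtain ⟨a, ha, hc⟩ := hρ ℓ hℓ hℓM hℓK A hA τ hτ
    let b := Module.finBasisOfFinrankEq K ρ.V ρ.finrank_eq
    rw [← LinearMap.charpoly_toMatrix (f := ρ.ρ τ) b] at hc
    obtain ⟨ht, hd⟩ := trace_det_of_charpoly hc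
    exact ⟨a, ha, by rw [LinearMap.trace_eq_matrix_trace K b, ht],
      by rw [← LinearMap.det_toMatrix b, hd]⟩
  refine ⟨K, inferInstance, inferInstance, ρ.V, inferInstance, inferInstance, ρ.ρ, ψ,
    F, inferInstance, inferInstance, inferInstance, inferInstance, inferInstance,
    le_of_eq Ideal.mk_ker.symm, ρ.finrank_eq, fun σ hσ => ?_, ?_, ?_⟩
  · exact Subgroup.mem_inf.2
      ⟨MonoidHom.mem_ker.2 (h₁ σ fun x hx => hker σ hσ x (le_sup_left (a := L₁) hx)),
       MonoidHom.mem_ker.2 (h₂ σ fun x hx => hker σ hσ x (le_sup_right (a := L₁) hx))⟩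
  · intro ℓ hℓ hℓM hℓp A hA τ hτ
    obtain ⟨a, ha, ht, -⟩ := hcp ℓ hℓ hℓM hℓp A hA τ hτ
    exact ⟨a, ha, ht⟩
  · intro ℓ hℓ hℓM hℓp A hA τ hτ
    obtain ⟨a, -, -, hd⟩ := hcp ℓ hℓ hℓM hℓp A hA τ hτ
    exact hd

end FLTAgent.Attach

end
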