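import Fermat.Agent.Attach.Defs
import Fermat.Agent.Attach.Cyclotomic

/-!
The Hecke algebra of cusp forms acting on a `HeckeLattice`, and its compatibility with Galois.
-/

set_option autoImplicit false
set_option linter.style.haveILetI false
set_option linter.unusedSectionVars false

noncomputable section

namespace FLTAgent.Attach

open CongruenceSubgroup ModularCurve
open scoped TensorProduct

variable {N : ℕ} [NeZero N]

abbrev S2 (N : ℕ) : Type := CuspForm (Gamma0 N) 2

/-- `t × t` -/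
def pairMap (t : Module.End ℂ (S2 N)) : Module.End ℂ (S2 N × S2 N) := LinearMap.prodMap t t

namespace HeckeLattice

variable (D : HeckeLattice N)

/-- `λ ↦ 1 ⊗ λ` -/
def incl : D.Lam →ₗ[ℤ] ℂ ⊗[ℤ] D.Lam := TensorProduct.mk ℤ ℂ D.Lam 1

theorem incl_injective : Function.Injective D.incl := by
  classical
  let b := Module.Free.chooseBasis ℤ D.Lam
  intro v w h
  apply b.repr.injective
  ext i
  have h1 := congrArg (fun z => (b.baseChange ℂ).repr z i) h
  change (b.baseChange ℂ).repr ((1 : ℂ) ⊗ₜ[ℤ] v) i = (b.baseChange ℂ).repr ((1 : ℂ) ⊗ₜ[ℤ] w) i at h1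
  rw [Module.Basis.baseChange_repr_tmul, Module.Basis.baseChange_repr_tmul] at h1
  simpa using h1

/-- `u` models the Hecke operator `t`. -/
def Models (u : Module.End ℤ D.Lam) (t : Module.End ℂ (S2 N)) : Prop :=
  ∀ x, D.periods (u.baseChange ℂ x) = pairMap t (D.periods x)

theorem models_unique {u u' : Module.End ℤ D.Lam} {t : Module.End ℂ (S2 N)}
    (h : D.Models u t) (h' : D.Models u' t) : u = u' := by
  refine LinearMap.ext fun v => D.incl_injective ?_
  have := D.periods.injective ((h (D.incl v)).trans (h' (D.incl v)).symm)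
  change u.baseChange ℂ ((1 : ℂ) ⊗ₜ[ℤ] v) = u'.baseChange ℂ ((1 : ℂ) ⊗ₜ[ℤ] v) at this
  rwa [LinearMap.baseChange_tmul, LinearMap.baseChange_tmul] at this

theorem models_add {u u' : Module.End ℤ D.Lam} {t t' : Module.End ℂ (S2 N)}
    (h : D.Models u t) (h' : D.Models u' t') : D.Models (u + u') (t + t') := by
  intro x
  rw [LinearMap.baseChange_add, LinearMap.add_apply, map_add, h, h']
  simp [pairMap]

theorem models_mul {u u' : Module.End ℤ D.Lam} {t t' : Module.End ℂ (S2 N)}
    (h : D.Models u t) (h' : D.Models u' t') : D.Models (u * u') (t * t') := by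
  intro x
  rw [Module.End.mul_eq_comp, LinearMap.baseChange_comp, LinearMap.comp_apply, h, h']
  simp [pairMap]

theorem models_int (m : ℤ) : D.Models (m : Module.End ℤ D.Lam)
    (m : Module.End ℂ (S2 N)) := by
  intro x
  have hm : ((m : Module.End ℤ D.Lam)).baseChange ℂ x = (m : ℂ) • x := by
    induction x using TensorProduct.induction_on with
    | zero => simp
    | tmul c v =>
      rw [LinearMap.baseChange_tmul, Module.End.intCast_apply, TensorProduct.tmul_smul,
        TensorProduct.smul_tmul', TensorProduct.smul_tmul', zsmul_eq_mul, smul_eq_mul]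
    | add x y hx hy => rw [map_add, hx, hy, smul_add]
  rw [hm, map_smul]
  ext <;> simp [pairMap, ← Int.cast_smul_eq_zsmul ℂ]

theorem exists_models (t : CuspForm.heckeAlgebra N 2 (∅ : Set ℕ)) :
    ∃ u : Module.End ℤ D.Lam, u ∈ Algebra.adjoin ℤ (Set.range D.T) ∧ D.Models u t.1 := by
  obtain ⟨t, ht⟩ := t
  refine Algebra.adjoin_induction
    (p := fun t _ => ∃ u : Module.End ℤ D.Lam, u ∈ Algebra.adjoin ℤ (Set.range D.T) ∧ D.Models u t)
    ?_ ?_ ?_ ?_ ht
  · rintro t (⟨ℓ, hℓ, hℓN, -, rfl⟩ | ⟨q, hqN, hq, -, rfl⟩)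
    · refine ⟨D.T ⟨ℓ, hℓ⟩, Algebra.subset_adjoin ⟨_, rfl⟩, fun x => ?_⟩
      refine (D.periods_T (⟨ℓ, hℓ⟩ : Nat.Primes) x).trans ?_
      simp only [pairOp, CuspForm.heckeFormsGen_of_not_dvd (ℓ := (⟨ℓ, hℓ⟩ : Nat.Primes)) hℓN]
      rfl
    · refine ⟨D.T ⟨q, hq⟩, Algebra.subset_adjoin ⟨_, rfl⟩, fun x => ?_⟩
      refine (D.periods_T (⟨q, hq⟩ : Nat.Primes) x).trans ?_
      simp only [pairOp, CuspForm.heckeFormsGen_of_dvd (q := (⟨q, hq⟩ : Nat.Primes)) hqN]
      rfl
  · intro m
    refine ⟨(m : Module.End ℤ D.Lam), intCast_mem _ m, ?_⟩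
    rw [eq_intCast]
    exact D.models_int m
  · rintro x y - - ⟨u, hu, h⟩ ⟨u', hu', h'⟩
    exact ⟨u + u', add_mem hu hu', D.models_add h h'⟩
  · rintro x y - - ⟨u, hu, h⟩ ⟨u', hu', h'⟩
    exact ⟨u * u', mul_mem hu hu', D.models_mul h h'⟩

/-- The action of the full Hecke algebra on `Λ`. -/
def act : CuspForm.heckeAlgebra N 2 (∅ : Set ℕ) →+* Module.End ℤ D.Lam where
  toFun t := (D.exists_models t).choose
  map_one' := D.models_unique (D.exists_models 1).choose_spec.2
    (by simpa using D.models_int 1)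
  map_mul' x y := D.models_unique (D.exists_models _).choose_spec.2
    (D.models_mul (D.exists_models x).choose_spec.2 (D.exists_models y).choose_spec.2)
  map_zero' := D.models_unique (D.exists_models 0).choose_spec.2
    (by simpa using D.models_int 0)
  map_add' x y := D.models_unique (D.exists_models _).choose_spec.2
    (D.models_add (D.exists_models x).choose_spec.2 (D.exists_models y).choose_spec.2)

theorem act_models (t : CuspForm.heckeAlgebra N 2 (∅ : Set ℕ)) : D.Models (D.act t) t.1 :=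
  (D.exists_models t).choose_spec.2

theorem act_mem (t : CuspForm.heckeAlgebra N 2 (∅ : Set ℕ)) :
    D.act t ∈ Algebra.adjoin ℤ (Set.range D.T) :=
  (D.exists_models t).choose_spec.1

theorem act_injective : Function.Injective D.act := by
  rw [injective_iff_map_eq_zero]
  intro t ht
  apply Subtype.ext
  refine LinearMap.ext fun f => ?_
  have h := D.act_models t (D.periods.symm (f, 0))
  rw [ht, D.periods.apply_symm_apply, LinearMap.baseChange_zero, LinearMap.zero_apply, map_zero] at h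
  exact (congrArg Prod.fst h).symm

theorem act_gen (ℓ : Nat.Primes) : D.act (CuspForm.heckeFormsGen N 2 ℓ) = D.T ℓ :=
  D.models_unique (D.act_models _) (D.periods_T ℓ)

theorem act_T {ℓ : ℕ} (hℓ : ℓ.Prime) (hℓN : ¬ ℓ ∣ N) :
    D.act (CuspForm.heckeAlgebra.T hℓ hℓN (Set.notMem_empty _)) = D.T ⟨ℓ, hℓ⟩ := by
  refine Eq.trans ?_ (D.act_gen (⟨ℓ, hℓ⟩ : Nat.Primes))
  rw [CuspForm.heckeFormsGen_of_not_dvd (ℓ := (⟨ℓ, hℓ⟩ : Nat.Primes)) hℓN]

/-- Restriction to the algebra away from `S`. -/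
def actS (S : Set ℕ) : CuspForm.heckeAlgebra N 2 S →+* Module.End ℤ D.Lam :=
  D.act.comp (Subalgebra.inclusion (CuspForm.heckeAlgebra_mono (Set.empty_subset S))).toRingHom

theorem actS_injective (S : Set ℕ) : Function.Injective (D.actS S) :=
  D.act_injective.comp (Subalgebra.inclusion_injective _)

theorem actS_T (S : Set ℕ) {ℓ : ℕ} (hℓ : ℓ.Prime) (hℓN : ¬ ℓ ∣ N) (hℓS : ℓ ∉ S) :
    D.actS S (CuspForm.heckeAlgebra.T hℓ hℓN hℓS) = D.T ⟨ℓ, hℓ⟩ := by
  rw [← D.act_T hℓ hℓN]
  rfl

theorem actS_mem (S : Set ℕ) (t : CuspForm.heckeAlgebra N 2 S) :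
    D.actS S t ∈ Algebra.adjoin ℤ (Set.range D.T) :=
  D.act_mem _

/-! ### torsion -/

variable {n : ℕ}

theorem nsmul_tors (hn : 0 < n) (v : D.Lam) : n • D.tors n v = 0 :=
  (D.nsmul_eq_zero_iff n hn _).2 ⟨v, rfl⟩

theorem nsmul_smul_tors (hn : 0 < n) (σ : GalQ) (v : D.Lam) : n • (σ • D.tors n v) = 0 := by
  have h : σ • (n • D.tors n v) = n • (σ • D.tors n v) :=
    map_nsmul (DistribSMul.toAddMonoidHom (JZero N) σ) n (D.tors n v)
  rw [← h, D.nsmul_tors hn]
  exact map_zero (DistribSMul.toAddMonoidHom (JZero N) σ)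

theorem exists_tors_eq_smul (hn : 0 < n) (σ : GalQ) (v : D.Lam) :
    ∃ w, D.tors n w = σ • D.tors n v := by
  obtain ⟨w, hw⟩ := (D.nsmul_eq_zero_iff n hn _).1 (D.nsmul_smul_tors hn σ v)
  exact ⟨w, hw⟩

theorem tors_eq_iff (hn : 0 < n) (v w : D.Lam) :
    D.tors n v = D.tors n w ↔ ∃ z, v - w = (n : ℤ) • z := by
  rw [← sub_eq_zero, ← map_sub]
  exact D.tors_eq_zero_iff n hn _

variable (n) in
/-- An integral linear map lifting the action of `σ` on `n`-torsion. -/
def lift (hn : 0 < n) (σ : GalQ) : Module.End ℤ D.Lam :=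
  (Module.Free.chooseBasis ℤ D.Lam).constr ℤ fun i =>
    (D.exists_tors_eq_smul hn σ (Module.Free.chooseBasis ℤ D.Lam i)).choose

theorem tors_lift (hn : 0 < n) (σ : GalQ) (v : D.Lam) :
    D.tors n (D.lift n hn σ v) = σ • D.tors n v := by
  let b := Module.Free.chooseBasis ℤ D.Lam
  have : ((D.tors n).comp (D.lift n hn σ).toAddMonoidHom).toIntLinearMap =
      ((DistribSMul.toAddMonoidHom (JZero N) σ).comp (D.tors n)).toIntLinearMap := by
    refine b.ext fun i => ?_
    change D.tors n (D.lift n hn σ (b i)) = σ • D.tors n (b i)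
    rw [lift, Module.Basis.constr_basis]
    exact (D.exists_tors_eq_smul hn σ (b i)).choose_spec
  exact LinearMap.congr_fun this v

theorem galois_hecke (G : GaloisInputs N) {u : Module.End ℤ D.Lam}
    (hu : u ∈ Algebra.adjoin ℤ (Set.range D.T)) (hn : 0 < n) (σ : GalQ) (v w : D.Lam)
    (h : D.tors n w = σ • D.tors n v) : D.tors n (u w) = σ • D.tors n (u v) := by
  revert v w
  refine Algebra.adjoin_induction
    (p := fun u _ => ∀ v w : D.Lam, D.tors n w = σ • D.tors n v →
      D.tors n (u w) = σ • D.tors n (u v)) ?_ ?_ ?_ ?_ hu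
  · rintro _ ⟨ℓ, rfl⟩ v w h
    rw [D.tors_T n hn, D.tors_T n hn, h, G.smul_hecke]
  · intro m v w h
    rw [eq_intCast, Module.End.intCast_apply, Module.End.intCast_apply, map_zsmul, map_zsmul, h]
    exact (map_zsmul (DistribSMul.toAddMonoidHom (JZero N) σ) m _).symm
  · intro x y _ _ hx hy v w h
    rw [LinearMap.add_apply, LinearMap.add_apply, map_add, map_add, smul_add, hx v w h, hy v w h]
  · intro x y _ _ hx hy v w h
    exact hx (y v) (y w) (hy v w h)

theorem exists_tors_level (G : GaloisInputs N) (hn : 0 < n) :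
    ∃ L : IntermediateField ℚ (AlgebraicClosure ℚ), FiniteDimensional ℚ L ∧
      ∀ σ : GalQ, (∀ y ∈ L, σ y = y) → ∀ v, σ • D.tors n v = D.tors n v := by
  classical
  let b := Module.Free.chooseBasis ℤ D.Lam
  choose L hL hfix using fun i => G.exists_level (D.tors n (b i))
  haveI : ∀ i, FiniteDimensional ℚ (L i) := hL
  refine ⟨⨆ i, L i, inferInstance, fun σ hσ v => ?_⟩
  have : ((DistribSMul.toAddMonoidHom (JZero N) σ).comp (D.tors n)).toIntLinearMap =
      (D.tors n).toIntLinearMap :=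
    b.ext fun i => hfix i σ fun y hy => hσ y ((le_iSup L i) hy)
  exact LinearMap.congr_fun this v

end HeckeLattice

end FLTAgent.Attach

end
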