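import Fermat.Agent.Attach.Defs
import Fermat.Agent.HeckeJ.API
import Fermat.Agent.JTors.Main
import Fermat.Agent.Reduction.API

/-!
The inputs of Area Attach: `exists_heckeLattice` (analytic theory of the Jacobian, Area JTors) and
`galoisInputs` (arithmetic of `X₀(N)`, Areas HeckeJ and Reduction).
Everything else in Area Attach takes them as hypotheses.
-/

set_option autoImplicit false

namespace FLTAgent.Attach

theorem exists_heckeLattice (N : ℕ) [NeZero N] : Nonempty (HeckeLattice N) :=
  FLTAgent.JTors.exists_heckeLattice' N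

theorem galoisInputs (N : ℕ) [NeZero N] : GaloisInputs N where
  smul_hecke := FLTAgent.HeckeJ.smul_hecke N
  exists_level := FLTAgent.HeckeJ.exists_level N
  frobenius_quadratic := fun _ hℓ hℓN A hA _ hσ _ hx => by
    obtain ⟨_, -, hm, hmx⟩ := hx
    exact FLTAgent.Reduction.frobenius_quadratic N hℓ hℓN A hA hσ hm hmx
  inertia_trivial := fun _ hℓ hℓN A hA _ hσ _ hx => by
    obtain ⟨_, -, hm, hmx⟩ := hx
    exact FLTAgent.Reduction.inertia_trivial N hℓ hℓN A hA hσ hm hmx

end FLTAgent.Attach
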