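import Fermat.Agent.Attach.Core
import Fermat.Prelude.Def_GaloisRep_Adic

/-!
The point-wise representation in the form used downstream.
-/

set_option autoImplicit false
set_option linter.style.haveILetI false

noncomputable section

namespace FLTAgent.Attach

open IsLocalRing Polynomial

theorem exists_galoisRep_of_point_of_mem {N : ℕ} [NeZero N] (D : HeckeLattice N) (G : GaloisInputs N)
    {p : ℕ} (hp : p.Prime) (S : Finset ℕ) (hpS : p ∈ S)
    (O : Type) [CommRing O] [IsDomain O] [IsDiscreteValuationRing O]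
    [IsAdicComplete (maximalIdeal O) O] [Finite (ResidueField O)] [CharZero O]
    (hpO : (p : O) ∈ maximalIdeal O) (χ : CuspForm.heckeAlgebra N 2 (↑S : Set ℕ) →+* O) :
    ∃ (O' : Type) (_ : CommRing O') (_ : IsDomain O') (_ : IsDiscreteValuationRing O')
      (_ : IsAdicComplete (maximalIdeal O') O')
      (_ : Finite (ResidueField O')) (_ : CharZero O')
      (_ : Algebra O O') (_ : Module.Finite O O') (_ : IsLocalHom (algebraMap O O')),
    Function.Injective (algebraMap O O') ∧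
    ∃ ρ : GaloisRepAdic O',
      (∀ (ℓ : ℕ) (hℓ : ℓ.Prime) (hℓN : ¬ ℓ ∣ N) (hℓS : ℓ ∉ (↑S : Set ℕ)),
        ∀ A : ValuationSubring (AlgebraicClosure ℚ), A.LiesOverPrime ℓ →
          ∀ σ : AlgebraicClosure ℚ ≃ₐ[ℚ] AlgebraicClosure ℚ, A.IsFrobeniusAt σ ℓ →
            LinearMap.charpoly (ρ.ρ σ) =
              X ^ 2 - C (algebraMap O O' (χ (CuspForm.heckeAlgebra.T hℓ hℓN hℓS))) * X
                + C ((ℓ : O'))) ∧
      (∀ q : ℕ, q.Prime → ¬ q ∣ N → q ≠ p → ρ.IsUnramifiedAt q) := by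
  obtain ⟨O', i1, i2, i3, i4, i5, i6, i7, i8, i9, hinj, ρ, h1, h2⟩ :=
    exists_galoisRep_of_point D G hp (↑S : Set ℕ) O hpO χ
  exact ⟨O', i1, i2, i3, i4, i5, i6, i7, i8, i9, hinj, ρ, fun ℓ hℓ hℓN hℓS =>
    h1 ℓ hℓ hℓN hℓS fun h => hℓS (Finset.mem_coe.2 (h ▸ hpS)), h2⟩

end FLTAgent.Attach

end
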