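import Fermat.Agent.Attach.Core
import Fermat.Agent.Attach.Descent

/-!
The residual representation attached to a character of the Hecke algebra with values in a field
of characteristic `p`.
-/

set_option autoImplicit false
set_option linter.style.haveILetI false
set_option linter.unusedSectionVars false

noncomputable section

namespace FLTAgent.Attach

open IsLocalRing Polynomial
open scoped TensorProduct

theorem trace_pow_mem {F : Type} [Field F] (F0 : Subfield F) (M : Deform.Mt F) (ht : M.trace ∈ F0)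
    (hd : M.det ∈ F0) : ∀ k : ℕ, (M ^ k).trace ∈ F0
  | 0 => by
    rw [pow_zero, Matrix.trace_one]
    exact natCast_mem F0 _
  | 1 => by rw [pow_one]; exact ht
  | k + 2 => by
    have : M ^ (k + 2) = M.trace • M ^ (k + 1) - M.det • M ^ k := by
      rw [pow_add M k 2, sq, sq_fin_two, mul_sub, mul_smul_comm, mul_smul_comm, mul_one, ← pow_succ]
    rw [this, Matrix.trace_sub, Matrix.trace_smul, Matrix.trace_smul]
    exact sub_mem (mul_mem ht (trace_pow_mem F0 M ht hd (k + 1)))
      (mul_mem hd (trace_pow_mem F0 M ht hd k))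

theorem trace_det_of_charpoly {F : Type} [Field F] {M : Deform.Mt F} {a c : F}
    (h : M.charpoly = X ^ 2 - C a * X + C c) : M.trace = a ∧ M.det = c := by
  rw [Matrix.charpoly_fin_two] at h
  have h1 := congrArg (fun P : F[X] => P.coeff 1) h
  have h0 := congrArg (fun P : F[X] => P.coeff 0) h
  simp [coeff_X_pow, coeff_C] at h1 h0
  exact ⟨h1, h0⟩

/-- A continuous matrix representation as a residual Galois representation. -/
def residualOfMat {k : Type} [Field k] (r : GalQ → Deform.Mt k) (h1 : r 1 = 1)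
    (hmul : ∀ σ τ, r (σ * τ) = r σ * r τ) (hlev : Deform.FinLevel r) : ResidualGaloisRep k where
  V := Fin 2 → k
  finrank_eq := Module.finrank_fin_fun k
  ρ := Deform.matEnd r h1 hmul
  factorsThroughFiniteLevel := by
    obtain ⟨L, hL, h⟩ := hlev
    exact ⟨L, hL, fun σ hσ => LinearMap.ext fun v => by simp [Deform.matEnd, h σ hσ]⟩

theorem residualOfMat_charpoly {k : Type} [Field k] (r : GalQ → Deform.Mt k) (h1 : r 1 = 1)
    (hmul : ∀ σ τ, r (σ * τ) = r σ * r τ) (hlev : Deform.FinLevel r) (σ : GalQ) :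
    LinearMap.charpoly ((residualOfMat r h1 hmul hlev).ρ σ) = (r σ).charpoly := by
  obtain ⟨b, hb⟩ := Deform.repMat_matEnd r h1 hmul
  have h := LinearMap.charpoly_toMatrix (f := Deform.matEnd r h1 hmul σ) b
  rw [hb] at h
  exact h.symm

theorem residualOfMat_eq_one {k : Type} [Field k] (r : GalQ → Deform.Mt k) (h1 : r 1 = 1)
    (hmul : ∀ σ τ, r (σ * τ) = r σ * r τ) (hlev : Deform.FinLevel r) {σ : GalQ} (h : r σ = 1) :
    (residualOfMat r h1 hmul hlev).ρ σ = 1 :=
  LinearMap.ext fun v => by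
    change Matrix.toLin' (r σ) v = v
    rw [h, Matrix.toLin'_one]
    rfl

theorem exists_adic_lift_domain {p : ℕ} [Fact p.Prime] {k : Type} [Field k] [CharP k p]
    (R : Type) [CommRing R] [IsDomain R] [Algebra ℤ_[p] R] [Module.Finite ℤ_[p] R]
    (hinj : Function.Injective (algebraMap ℤ_[p] R)) (Θ : R →+* k) :
    ∃ (O : Type) (_ : CommRing O) (_ : IsDomain O) (_ : IsDiscreteValuationRing O)
      (_ : IsAdicComplete (maximalIdeal O) O) (_ : Finite (ResidueField O)) (_ : CharZero O),
      (p : O) ∈ maximalIdeal O ∧ ∃ (f : R →+* O) (j : ResidueField O →+* AlgebraicClosure k),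
        ∀ t, j (residue O (f t)) = algebraMap k (AlgebraicClosure k) (Θ t) := by
  classical
  haveI : IsLocalRing R := isLocalRing_of_module_finite ℤ_[p] R
  haveI : Module.IsTorsionFree ℤ_[p] R := isTorsionFree_of_injective hinj
  haveI : Algebra.IsAlgebraic ℤ_[p] R := Algebra.IsIntegral.isAlgebraic
  have hprimes : ∀ P : Ideal R, P.IsPrime → (p : R) ∈ P → P = maximalIdeal R := by
    intro P hP hpP
    haveI := hP
    apply IsLocalRing.eq_maximalIdeal
    apply Ideal.isMaximal_of_isIntegral_of_isMaximal_comap (R := ℤ_[p])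
    have hle : maximalIdeal ℤ_[p] ≤ P.comap (algebraMap ℤ_[p] R) := by
      rw [PadicInt.maximalIdeal_eq_span_p, Ideal.span_singleton_le_iff_mem, Ideal.mem_comap, map_natCast]
      exact hpP
    rw [← (maximalIdeal.isMaximal ℤ_[p]).eq_of_le (Ideal.IsPrime.comap _).ne_top hle]
    infer_instance
  let K := FractionRing ℤ_[p]
  let Ω := AlgebraicClosure K
  haveI : Module.IsTorsionFree ℤ_[p] Ω := isTorsionFree_of_injective (by
    rw [IsScalarTower.algebraMap_eq ℤ_[p] K Ω]
    exact (algebraMap K Ω).injective.comp (IsFractionRing.injective ℤ_[p] K))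
  let g : R →ₐ[ℤ_[p]] Ω := IsAlgClosed.lift
  obtain ⟨n, gen, hgen⟩ := Module.Finite.exists_fin (R := ℤ_[p]) (M := R)
  let L : IntermediateField K Ω := IntermediateField.adjoin K (Set.range fun i => g (gen i))
  haveI : FiniteDimensional K L :=
    IntermediateField.finiteDimensional_adjoin fun x _ => Algebra.IsIntegral.isIntegral x
  have hmem : ∀ x, g x ∈ L := by
    intro x
    have hx : x ∈ Submodule.span ℤ_[p] (Set.range gen) := by rw [hgen]; trivial
    induction hx using Submodule.span_induction with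
    | mem x hx => obtain ⟨i, rfl⟩ := hx; exact IntermediateField.subset_adjoin K _ ⟨i, rfl⟩
    | zero => rw [map_zero]; exact L.zero_mem
    | add x y _ _ hx hy => rw [map_add]; exact L.add_mem hx hy
    | smul c x _ hx =>
      rw [map_smul, Algebra.smul_def, IsScalarTower.algebraMap_apply ℤ_[p] K Ω]
      exact L.mul_mem (L.algebraMap_mem _) hx
  let g' : R →+* L := g.toRingHom.codRestrict L hmem
  have hg' : ∀ c : ℤ_[p], g' (algebraMap ℤ_[p] R c) = algebraMap ℤ_[p] L c := fun c =>
    Subtype.ext ((g.commutes c).trans rfl)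
  let g'' : R →ₐ[ℤ_[p]] L := { g' with commutes' := hg' }
  let O := integralClosure ℤ_[p] L
  haveI := closure_finite ℤ_[p] L
  haveI : CharZero O := closure_charZero ℤ_[p] L
  haveI := closure_isLocalRing ℤ_[p] L
  haveI := closure_isLocalHom ℤ_[p] L
  haveI := closure_isDVR ℤ_[p] L
  haveI : IsAdicComplete (maximalIdeal O) O :=
    IsLocalRing.isAdicComplete_of_module_finite (𝒪 := ℤ_[p])
  haveI : Finite (ResidueField ℤ_[p]) := Finite.of_equiv _ PadicInt.residueField.toEquiv.symm
  haveI : Finite (ResidueField O) := IsLocalRing.ResidueField.finite_of_finite (R := ℤ_[p]) inferInstance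
  have hmem' : ∀ x, g' x ∈ integralClosure ℤ_[p] L := fun x =>
    (Algebra.IsIntegral.isIntegral (R := ℤ_[p]) x).map g''
  let f1 : R →+* O := g'.codRestrict (integralClosure ℤ_[p] L) hmem'
  have hpO : (p : O) ∈ maximalIdeal O := by
    rw [← map_natCast (algebraMap ℤ_[p] O)]
    exact map_nonunit (algebraMap ℤ_[p] O) _
      (by rw [PadicInt.maximalIdeal_eq_span_p]; exact Ideal.mem_span_singleton_self _)
  have hkΘ : RingHom.ker Θ = maximalIdeal R :=
    hprimes _ (RingHom.ker_isPrime Θ) (by rw [RingHom.mem_ker, map_natCast, CharP.cast_eq_zero])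
  let h : R →+* ResidueField O := (residue O).comp f1
  have hkh : RingHom.ker h = maximalIdeal R :=
    hprimes _ (RingHom.ker_isPrime h) (by
      rw [RingHom.mem_ker, RingHom.comp_apply, map_natCast, residue_eq_zero_iff]
      exact hpO)
  let hbar : ResidueField R →+* ResidueField O := Ideal.Quotient.lift _ h fun a ha =>
    RingHom.mem_ker.1 (hkh ▸ ha)
  let Θbar : ResidueField R →+* AlgebraicClosure k :=
    Ideal.Quotient.lift _ ((algebraMap k _).comp Θ) fun a ha => by
      have h0 : Θ a = 0 := by rw [← hkΘ] at ha; exact RingHom.mem_ker.1 ha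
      rw [RingHom.comp_apply, h0, map_zero]
  letI : Algebra (ResidueField R) (ResidueField O) := hbar.toAlgebra
  letI : Algebra (ResidueField R) (AlgebraicClosure k) := Θbar.toAlgebra
  haveI : Module.Finite (ResidueField R) (ResidueField O) := Module.Finite.of_finite
  haveI : Algebra.IsAlgebraic (ResidueField R) (ResidueField O) :=
    Algebra.IsAlgebraic.of_finite _ _
  let j : ResidueField O →ₐ[ResidueField R] AlgebraicClosure k := IsAlgClosed.lift
  exact ⟨O, inferInstance, inferInstance, inferInstance, inferInstance, inferInstance,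
    inferInstance, hpO, f1, j.toRingHom, fun x => j.commutes (residue R x)⟩

/-- The `p`-adic realisation of a mod `p` character. -/
theorem exists_adic_lift {T : Type} [CommRing T] [Module.Finite ℤ T] [Module.IsTorsionFree ℤ T]
    {p : ℕ} [Fact p.Prime] {k : Type} [Field k] [CharP k p] (θ : T →+* k) :
    ∃ (O : Type) (_ : CommRing O) (_ : IsDomain O) (_ : IsDiscreteValuationRing O)
      (_ : IsAdicComplete (maximalIdeal O) O) (_ : Finite (ResidueField O)) (_ : CharZero O),
      (p : O) ∈ maximalIdeal O ∧ ∃ (f : T →+* O) (j : ResidueField O →+* AlgebraicClosure k),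
        ∀ t, j (residue O (f t)) = algebraMap k (AlgebraicClosure k) (θ t) := by
  classical
  haveI : Module.Free ℤ T := Module.free_of_finite_type_torsion_free'
  let R := ℤ_[p] ⊗[ℤ] T
  let ι : ℤ_[p] →+* k := (ZMod.castHom (dvd_refl p) k).comp PadicInt.toZMod
  let Θ : R →+* k :=
    (Algebra.TensorProduct.lift ι.toIntAlgHom θ.toIntAlgHom (fun _ _ => mul_comm _ _)).toRingHom
  have hΘ : ∀ t, Θ (1 ⊗ₜ t) = θ t := fun t => by
    change ι 1 * θ t = θ t
    rw [map_one, one_mul]
  haveI : (RingHom.ker Θ).IsPrime := RingHom.ker_isPrime Θ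
  obtain ⟨q, hq, hqle⟩ := Ideal.exists_minimalPrimes_le (J := RingHom.ker Θ) (I := (⊥ : Ideal R)) bot_le
  haveI hqp : q.IsPrime := hq.1.1
  have hinj : Function.Injective (algebraMap ℤ_[p] (R ⧸ q)) := by
    rw [injective_iff_map_eq_zero]
    intro c hc
    by_contra hne
    have hmem : algebraMap ℤ_[p] R c ∈ q := Ideal.Quotient.eq_zero_iff_mem.1 hc
    refine Set.disjoint_left.1
      (Ideal.disjoint_nonZeroDivisors_of_mem_minimalPrimes (show q ∈ minimalPrimes R from hq)) hmem ?_
    rw [SetLike.mem_coe, mem_nonZeroDivisors_iff_right]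
    intro x hx
    have h : c • x = c • (0 : R) :=
      ((Algebra.smul_def c x).trans ((mul_comm _ _).trans hx)).trans (smul_zero c).symm
    exact smul_right_injective R hne h
  haveI : Module.Finite ℤ_[p] (R ⧸ q) :=
    Module.Finite.of_surjective (Ideal.Quotient.mkₐ ℤ_[p] q).toLinearMap Ideal.Quotient.mk_surjective
  obtain ⟨O, i1, i2, i3, i4, i5, i6, hpO, f1, j, hj⟩ :=
    @exists_adic_lift_domain p _ k _ _ (R ⧸ q) (Ideal.Quotient.commRing q)
      (Ideal.Quotient.isDomain q) _ _ hinj (Ideal.Quotient.lift q Θ fun a ha => hqle ha)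
  refine ⟨O, i1, i2, i3, i4, i5, i6, hpO,
    f1.comp ((Ideal.Quotient.mk q).comp Algebra.TensorProduct.includeRight.toRingHom), j,
    fun t => ?_⟩
  rw [← hΘ t]
  exact hj (Ideal.Quotient.mk q (1 ⊗ₜ t))

variable {N : ℕ} [NeZero N]

/-- The representation attached to a mod `p` character of the full Hecke algebra. -/
theorem exists_residualRep (D : HeckeLattice N) (G : GaloisInputs N) {p : ℕ} (hp : p.Prime)
    {k : Type} [Field k] [CharP k p] (θ : TFull N →+* k) :
    ∃ ρ : ResidualGaloisRep k,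
      (∀ (ℓ : ℕ) (hℓ : ℓ.Prime) (hℓN : ¬ ℓ ∣ N), ℓ ≠ p →
        ∀ A : ValuationSubring (AlgebraicClosure ℚ), A.LiesOverPrime ℓ →
          ∀ σ : GalQ, A.IsFrobeniusAt σ ℓ →
            LinearMap.charpoly (ρ.ρ σ) =
              X ^ 2 - C (θ (CuspForm.heckeAlgebra.T hℓ hℓN (Set.notMem_empty _))) * X + C (ℓ : k)) ∧
      (∀ q : ℕ, q.Prime → ¬ q ∣ N → q ≠ p → ρ.IsUnramifiedAt q) := by
  classical
  haveI : Fact p.Prime := ⟨hp⟩
  haveI := finite_TFull N
  obtain ⟨O, _, _, _, _, _, _, hpO, f, j, hj⟩ := exists_adic_lift (T := TFull N) (p := p) θ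
  obtain ⟨ρ, hρ, hρu⟩ := exists_galoisRepAdic hp hpO D G f
  let F := ResidueField O
  let ι := algebraMap k (AlgebraicClosure k)
  let F0 : Subfield F := ι.fieldRange.comap j
  let b : Module.Basis (Fin 2) F ρ.residual.V := Module.finBasisOfFinrankEq F _ ρ.residual.finrank_eq
  let r : GalQ → Deform.Mt F := fun σ => LinearMap.toMatrix b b (ρ.residual.ρ σ)
  have hrep : Deform.RepMat ρ.residual.ρ r := ⟨b, fun σ => rfl⟩
  have h1 := hrep.map_one
  have hmul := hrep.map_mul
  obtain ⟨L, hL, hLfix⟩ := ρ.residual.factorsThroughFiniteLevel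
  have hrL : ∀ σ : GalQ, (∀ x ∈ L, σ x = x) → r σ = 1 := fun σ hσ => by
    simp only [r, hLfix σ hσ, LinearMap.toMatrix_one]
  have hfr : ∀ (ℓ : ℕ) (hℓ : ℓ.Prime) (hℓN : ¬ ℓ ∣ N), ℓ ≠ p →
      ∀ A : ValuationSubring (AlgebraicClosure ℚ), A.LiesOverPrime ℓ →
        ∀ σ : GalQ, A.IsFrobeniusAt σ ℓ →
          (r σ).trace = residue O (f (CuspForm.heckeAlgebra.T hℓ hℓN (Set.notMem_empty _))) ∧
            (r σ).det = (ℓ : F) := by
    intro ℓ hℓ hℓN hℓp A hA σ hσ
    apply trace_det_of_charpoly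
    rw [LinearMap.charpoly_toMatrix]
    change LinearMap.charpoly ((ρ.ρ σ).baseChange (ResidueField O)) = _
    rw [LinearMap.charpoly_baseChange, hρ ℓ hℓ hℓN hℓp A hA σ hσ]
    simp [IsLocalRing.ResidueField.algebraMap_eq]
  have hpair : ∀ σ, (r σ).trace ∈ F0 ∧ (r σ).det ∈ F0 := by
    intro σ
    haveI := hL
    obtain ⟨ℓ, A, τ, n, hℓ, hℓS, hA, hτ, hagree⟩ :=
      FLTAgent.Chebotarev.exists_frobenius_pow L σ (insert p N.primeFactors)
    rw [Finset.mem_insert, not_or] at hℓS
    have hℓN : ¬ ℓ ∣ N := fun h => hℓS.2 (Nat.mem_primeFactors.2 ⟨hℓ, h, NeZero.ne N⟩)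
    have hrσ : r σ = r τ ^ n := by
      have hg : r (σ⁻¹ * τ ^ n) = 1 := hrL _ fun x hx => by
        rw [AlgEquiv.mul_apply, hagree x hx]; exact σ.symm_apply_apply x
      have hpow : ∀ m, r (τ ^ m) = r τ ^ m := by
        intro m
        induction m with
        | zero => simp [h1]
        | succ m ih => rw [pow_succ, hmul, ih, pow_succ]
      rw [← hpow, ← mul_inv_cancel_left σ (τ ^ n), hmul, hg, mul_one]
    obtain ⟨ht, hd⟩ := hfr ℓ hℓ hℓN hℓS.1 A hA τ hτ
    have hd' : (r τ).det ∈ F0 := by rw [hd]; exact natCast_mem F0 ℓ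
    have ht' : (r τ).trace ∈ F0 := by
      rw [ht]
      exact Subfield.mem_comap.2 ⟨_, (hj _).symm⟩
    rw [hrσ]
    exact ⟨trace_pow_mem F0 _ ht' hd' n, by rw [Matrix.det_pow]; exact pow_mem hd' n⟩
  obtain ⟨r0, e1, e2, e3, e4⟩ :=
    Descent.exists_model F0 r h1 hmul (fun σ => (hpair σ).1) (fun σ => (hpair σ).2)
  let e : k ≃+* ι.fieldRange := RingEquiv.ofBijective ι.rangeRestrictField
    ⟨fun a b h => ι.injective (congrArg Subtype.val h), fun ⟨y, x, hx⟩ => ⟨x, Subtype.ext hx⟩⟩
  let jr : F0 →+* ι.fieldRange := (j.comp F0.subtype).codRestrict ι.fieldRange fun x => x.2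
  let δ : F0 →+* k := e.symm.toRingHom.comp jr
  have hδ : ∀ x : F0, ι (δ x) = j (x : F) := fun x =>
    congrArg Subtype.val (e.apply_symm_apply (jr x))
  let r' : GalQ → Deform.Mt k := fun σ => δ.mapMatrix (r0 σ)
  have f1 : r' 1 = 1 := by simp only [r', e1, map_one]
  have f2 : ∀ σ τ, r' (σ * τ) = r' σ * r' τ := fun σ τ => by simp only [r', e2, map_mul]
  have f3 : Deform.FinLevel r' := ⟨L, hL, fun σ hσ => by simp only [r', e3 σ (hrL σ hσ), map_one]⟩
  refine ⟨residualOfMat r' f1 f2 f3, fun ℓ hℓ hℓN hℓp A hA σ hσ => ?_, fun q hq hqN hqp A hA σ hσ => ?_⟩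
  · obtain ⟨ht, hd⟩ := hfr ℓ hℓ hℓN hℓp A hA σ hσ
    have htr : (r' σ).trace = θ (CuspForm.heckeAlgebra.T hℓ hℓN (Set.notMem_empty _)) := by
      apply ι.injective
      rw [← hj, ← ht, ← (e4 σ).1, ← hδ]
      simp [r', Matrix.trace]
    have hde : (r' σ).det = (ℓ : k) := by
      apply ι.injective
      rw [map_natCast, ← map_natCast j, ← hd, ← (e4 σ).2, ← hδ]
      simp only [r', RingHom.map_det]
    rw [residualOfMat_charpoly, Matrix.charpoly_fin_two, htr, hde]
  · refine residualOfMat_eq_one _ _ _ _ ?_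
    have hr : r σ = 1 := by
      have : ρ.residual.ρ σ = 1 := by
        change (ρ.ρ σ).baseChange (ResidueField O) = 1
        rw [hρu q hq hqN hqp A hA σ hσ, LinearMap.baseChange_one]
      simp only [r, this, LinearMap.toMatrix_one]
    simp only [r', e3 σ hr, map_one]

end FLTAgent.Attach

end
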