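import Fermat.Agent.Attach.HeckeAction

/-!
The `p`-adic realisation of the torsion of a `HeckeLattice`, as matrices over a complete ring.
-/

set_option autoImplicit false
set_option linter.style.haveILetI false
set_option linter.unusedSectionVars false

noncomputable section

namespace FLTAgent.Attach

open IsLocalRing

variable {R : Type} [CommRing R] [IsLocalRing R] [IsAdicComplete (maximalIdeal R) R]

theorem eq_zero_of_forall_mem_pow {x : R} (h : ∀ n : ℕ, x ∈ maximalIdeal R ^ n) : x = 0 :=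
  (inferInstance : IsHausdorff (maximalIdeal R) R).haus x fun n => by
    rw [SModEq.zero, smul_eq_mul, Ideal.mul_top]; exact h n

theorem eq_of_forall_sub_mem_pow {x y : R} (h : ∀ n : ℕ, x - y ∈ maximalIdeal R ^ n) : x = y :=
  sub_eq_zero.1 (eq_zero_of_forall_mem_pow h)

theorem exists_adic_lim (a : ℕ → R) (h : ∀ n, a (n + 1) - a n ∈ maximalIdeal R ^ n) :
    ∃ L, ∀ n, L - a n ∈ maximalIdeal R ^ n := by
  obtain ⟨L, hL⟩ := IsPrecomplete.prec (I := maximalIdeal R) (M := R) inferInstance (f := a) (by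
    intro m n hmn
    rw [SModEq.sub_mem, smul_eq_mul, Ideal.mul_top]
    induction n, hmn using Nat.le_induction with
    | base => simp
    | succ n hmn ih =>
      have := Ideal.pow_le_pow_right hmn (h n)
      convert sub_mem ih this using 1
      ring)
  refine ⟨L, fun n => ?_⟩
  have := hL n
  rw [SModEq.sub_mem, smul_eq_mul, Ideal.mul_top] at this
  simpa using neg_mem this

theorem intCast_mem_pow {p : ℕ} (hpR : (p : R) ∈ maximalIdeal R) {n : ℕ} {z : ℤ}
    (h : ((p ^ n : ℕ) : ℤ) ∣ z) : (z : R) ∈ maximalIdeal R ^ n := by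
  obtain ⟨k, rfl⟩ := h
  push_cast
  exact Ideal.mul_mem_right _ _ (Ideal.pow_mem_pow hpR n)

variable {p : ℕ} (hp : p.Prime) (hpR : (p : R) ∈ maximalIdeal R)

/-! ### the cyclotomic character with values in `R` -/

section

include hp hpR

theorem exists_cycR (σ : GalQ) : ∃ c : R, ∀ n : ℕ,
    haveI : NeZero (p ^ n) := ⟨pow_ne_zero n hp.ne_zero⟩
    c - ((cyc (p ^ n) σ).val : R) ∈ maximalIdeal R ^ n := by
  haveI : ∀ n, NeZero (p ^ n) := fun n => ⟨pow_ne_zero n hp.ne_zero⟩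
  refine exists_adic_lim (fun n => ((cyc (p ^ n) σ).val : R)) fun n => ?_
  have h := cyc_cast (Nat.pow_dvd_pow p (Nat.le_succ n)) σ
  have : (((cyc (p ^ (n + 1)) σ).val : ℤ) - ((cyc (p ^ n) σ).val : ℤ) : R) ∈ maximalIdeal R ^ n := by
    rw [← Int.cast_sub]
    apply intCast_mem_pow hpR
    rw [← ZMod.intCast_zmod_eq_zero_iff_dvd, Int.cast_sub, Int.cast_natCast, Int.cast_natCast,
      ZMod.natCast_zmod_val, sub_eq_zero, ← h, ZMod.castHom_apply, ZMod.cast_eq_val]
  simpa using this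

/-- The `p`-adic cyclotomic character in `R`. -/
def cycR (σ : GalQ) : R := (exists_cycR hp hpR σ).choose

theorem cycR_spec (σ : GalQ) (n : ℕ) [NeZero (p ^ n)] :
    cycR hp hpR σ - ((cyc (p ^ n) σ).val : R) ∈ maximalIdeal R ^ n :=
  (exists_cycR hp hpR σ).choose_spec n

theorem cycR_eq_of_forall {σ : GalQ} {x : R} {a : ℕ → ℕ}
    (hx : ∀ n, x - (a n : R) ∈ maximalIdeal R ^ n)
    (ha : ∀ n [NeZero (p ^ n)], cyc (p ^ n) σ = (a n : ZMod (p ^ n))) : cycR hp hpR σ = x := by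
  refine eq_of_forall_sub_mem_pow fun n => ?_
  haveI : NeZero (p ^ n) := ⟨pow_ne_zero n hp.ne_zero⟩
  have h1 := cycR_spec hp hpR σ n
  have h2 : (((cyc (p ^ n) σ).val : ℤ) - (a n : ℤ) : R) ∈ maximalIdeal R ^ n := by
    rw [← Int.cast_sub]
    apply intCast_mem_pow hpR
    rw [← ZMod.intCast_zmod_eq_zero_iff_dvd, Int.cast_sub, Int.cast_natCast, Int.cast_natCast,
      ZMod.natCast_zmod_val, sub_eq_zero, ha n]
  rw [Int.cast_natCast, Int.cast_natCast] at h2
  have h3 := sub_mem (add_mem h1 h2) (hx n)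
  convert h3 using 1
  ring

theorem cycR_one : cycR hp hpR 1 = 1 :=
  cycR_eq_of_forall hp hpR (a := fun _ => 1) (fun n => by simp) (fun n _ => by simp [cyc_one])

theorem cycR_mul (σ τ : GalQ) : cycR hp hpR (σ * τ) = cycR hp hpR σ * cycR hp hpR τ := by
  haveI : ∀ n, NeZero (p ^ n) := fun n => ⟨pow_ne_zero n hp.ne_zero⟩
  refine cycR_eq_of_forall hp hpR (a := fun n => (cyc (p ^ n) σ).val * (cyc (p ^ n) τ).val)
    (fun n => ?_) (fun n _ => by rw [cyc_mul, Nat.cast_mul, ZMod.natCast_zmod_val, ZMod.natCast_zmod_val])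
  push_cast
  have h1 := Ideal.mul_mem_right (cycR hp hpR τ) _ (cycR_spec hp hpR σ n)
  have h2 := Ideal.mul_mem_left _ ((cyc (p ^ n) σ).val : R) (cycR_spec hp hpR τ n)
  convert add_mem h1 h2 using 1
  ring

theorem isUnit_cycR (σ : GalQ) : IsUnit (cycR hp hpR σ) :=
  IsUnit.of_mul_eq_one (cycR hp hpR σ⁻¹) (by rw [← cycR_mul, mul_inv_cancel, cycR_one])

theorem cycR_frobenius {ℓ : ℕ} (hℓ : ℓ.Prime) (hℓp : ℓ ≠ p)
    {A : ValuationSubring (AlgebraicClosure ℚ)} (hA : A.LiesOverPrime ℓ) {σ : GalQ}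
    (hσ : A.IsFrobeniusAt σ ℓ) : cycR hp hpR σ = (ℓ : R) :=
  cycR_eq_of_forall hp hpR (a := fun _ => ℓ) (fun n => by simp) fun n _ =>
    cyc_frobenius hℓ (fun h => hℓp ((Nat.prime_dvd_prime_iff_eq hℓ hp).1 (hℓ.dvd_of_dvd_pow h))) hA hσ

theorem cycR_inertia {q : ℕ} (hq : q.Prime) (hqp : q ≠ p)
    {A : ValuationSubring (AlgebraicClosure ℚ)} (hA : A.LiesOverPrime q) {σ : GalQ}
    (hσ : σ ∈ A.inertiaSubgroupIn ℚ) : cycR hp hpR σ = 1 :=
  cycR_eq_of_forall hp hpR (a := fun _ => 1) (fun n => by simp) fun n _ => by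
    rw [cyc_inertia hq (fun h => hqp ((Nat.prime_dvd_prime_iff_eq hq hp).1 (hq.dvd_of_dvd_pow h))) hA hσ,
      Nat.cast_one]

theorem cycR_level (n : ℕ) : ∃ L : IntermediateField ℚ (AlgebraicClosure ℚ), FiniteDimensional ℚ L ∧
    ∀ σ : GalQ, (∀ x ∈ L, σ x = x) → cycR hp hpR σ - 1 ∈ maximalIdeal R ^ n := by
  haveI : NeZero (p ^ n) := ⟨pow_ne_zero n hp.ne_zero⟩
  obtain ⟨L, hL, h⟩ := exists_cyc_level (p ^ n)
  refine ⟨L, hL, fun σ hσ => ?_⟩
  have h1 := cycR_spec hp hpR σ n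
  rw [h σ hσ] at h1
  rcases Nat.eq_zero_or_pos n with hn | hn
  · subst hn; simp
  · haveI : Fact (1 < p ^ n) := ⟨Nat.one_lt_pow hn.ne' hp.one_lt⟩
    simpa [ZMod.val_one] using h1

end

/-! ### the Galois action -/

namespace HeckeLattice

variable {N : ℕ} [NeZero N] (D : HeckeLattice N)

/-- Index of the chosen basis of `Λ`. -/
abbrev Idx : Type := Module.Free.ChooseBasisIndex ℤ D.Lam

open scoped Classical in
/-- The matrix over `R` of an endomorphism of `Λ`. -/
def mat : Module.End ℤ D.Lam →+* Matrix D.Idx D.Idx R :=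
  ((Int.castRingHom R).mapMatrix).comp
    (LinearMap.toMatrixAlgEquiv (Module.Free.chooseBasis ℤ D.Lam)).toAlgHom.toRingHom

theorem mat_apply (u : Module.End ℤ D.Lam) (i j : D.Idx) :
    (D.mat u : Matrix D.Idx D.Idx R) i j =
      (((Module.Free.chooseBasis ℤ D.Lam).repr (u (Module.Free.chooseBasis ℤ D.Lam j)) i : ℤ) : R) := by
  classical
  simp [mat, LinearMap.toMatrixAlgEquiv_apply]

include hpR in
theorem mat_sub_mem {n : ℕ} (hn : 0 < p ^ n) {u w : Module.End ℤ D.Lam}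
    (h : ∀ v, D.tors (p ^ n) (u v) = D.tors (p ^ n) (w v)) (i j : D.Idx) :
    (D.mat u : Matrix D.Idx D.Idx R) i j - D.mat w i j ∈ maximalIdeal R ^ n := by
  rw [D.mat_apply, D.mat_apply, ← Int.cast_sub]
  obtain ⟨z, hz⟩ := (D.tors_eq_iff hn _ _).1 (h (Module.Free.chooseBasis ℤ D.Lam j))
  apply intCast_mem_pow hpR
  rw [← Finsupp.sub_apply, ← map_sub, hz, map_zsmul, Finsupp.smul_apply, smul_eq_mul]
  exact dvd_mul_right _ _

/-- The lift at level `p ^ n`. -/
def liftP (n : ℕ) (σ : GalQ) : Module.End ℤ D.Lam := D.lift (p ^ n) (pow_pos hp.pos n) σ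

include hp in
theorem tors_liftP (n : ℕ) (σ : GalQ) (v : D.Lam) :
    D.tors (p ^ n) (D.liftP hp n σ v) = σ • D.tors (p ^ n) v :=
  D.tors_lift _ σ v

include hp in
theorem tors_liftP_succ (n : ℕ) (σ : GalQ) (v : D.Lam) :
    D.tors (p ^ n) (D.liftP hp (n + 1) σ v) = σ • D.tors (p ^ n) v := by
  rw [← D.tors_mul (p ^ n) p (pow_pos hp.pos n) hp.pos, ← pow_succ, D.tors_liftP hp,
    ← D.tors_mul (p ^ n) p (pow_pos hp.pos n) hp.pos, ← pow_succ]
  exact (map_nsmul (DistribSMul.toAddMonoidHom _ σ) p _).symm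

include hp hpR in
theorem exists_galMat (σ : GalQ) (i j : D.Idx) : ∃ c : R, ∀ n,
    c - (D.mat (D.liftP hp n σ) : Matrix D.Idx D.Idx R) i j ∈ maximalIdeal R ^ n :=
  exists_adic_lim _ fun n => D.mat_sub_mem hpR (pow_pos hp.pos n)
    (fun v => by rw [D.tors_liftP_succ hp, D.tors_liftP hp]) i j

/-- The Galois action on the Tate module, as a matrix. -/
def galMat (σ : GalQ) : Matrix D.Idx D.Idx R :=
  Matrix.of fun i j => (D.exists_galMat hp hpR σ i j).choose

include hp hpR in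
theorem galMat_spec (σ : GalQ) (n : ℕ) (i j : D.Idx) :
    (D.galMat hp hpR σ) i j - (D.mat (D.liftP hp n σ) : Matrix D.Idx D.Idx R) i j ∈
      maximalIdeal R ^ n :=
  (D.exists_galMat hp hpR σ i j).choose_spec n

/-- congruence of all entries modulo `m ^ n` -/
def CongrMod (n : ℕ) (M M' : Matrix D.Idx D.Idx R) : Prop :=
  ∀ i j, M i j - M' i j ∈ maximalIdeal R ^ n

variable {D} in
theorem CongrMod.mul {n : ℕ} {M M' K K' : Matrix D.Idx D.Idx R} (h : D.CongrMod n M M')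
    (h' : D.CongrMod n K K') : D.CongrMod n (M * K) (M' * K') := by
  intro i j
  rw [Matrix.mul_apply, Matrix.mul_apply, ← Finset.sum_sub_distrib]
  refine sum_mem fun l _ => ?_
  have h1 := Ideal.mul_mem_right (K l j) _ (h i l)
  have h2 := Ideal.mul_mem_left _ (M' i l) (h' l j)
  convert add_mem h1 h2 using 1
  ring

variable {D} in
theorem CongrMod.add {n : ℕ} {M M' K K' : Matrix D.Idx D.Idx R} (h : D.CongrMod n M M')
    (h' : D.CongrMod n K K') : D.CongrMod n (M + K) (M' + K') := by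
  intro i j
  rw [Matrix.add_apply, Matrix.add_apply, add_sub_add_comm]
  exact add_mem (h i j) (h' i j)

variable {D} in
theorem eq_of_congrMod {M M' : Matrix D.Idx D.Idx R} (h : ∀ n, D.CongrMod n M M') : M = M' :=
  Matrix.ext fun i j => eq_of_forall_sub_mem_pow fun n => h n i j

include hp hpR in
theorem galMat_congr (σ : GalQ) (n : ℕ) {u : Module.End ℤ D.Lam}
    (h : ∀ v, D.tors (p ^ n) (u v) = σ • D.tors (p ^ n) v) :
    D.CongrMod n (D.galMat hp hpR σ) (D.mat u) := by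
  intro i j
  have h2 := D.mat_sub_mem (R := R) hpR (pow_pos hp.pos n) (u := D.liftP hp n σ) (w := u)
    (fun v => by rw [D.tors_liftP hp, h]) i j
  convert add_mem (D.galMat_spec hp hpR σ n i j) h2 using 1
  ring

include hp hpR in
theorem galMat_mul (σ τ : GalQ) :
    D.galMat hp hpR (σ * τ) = D.galMat hp hpR σ * D.galMat hp hpR τ := by
  refine eq_of_congrMod fun n => ?_
  have h1 := D.galMat_congr hp hpR (σ * τ) n (u := D.liftP hp n σ * D.liftP hp n τ)
    (fun v => by rw [Module.End.mul_apply, D.tors_liftP hp, D.tors_liftP hp, mul_smul])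
  have h2 : D.CongrMod n (D.galMat hp hpR σ * D.galMat hp hpR τ)
      (D.mat (D.liftP hp n σ) * D.mat (D.liftP hp n τ)) :=
    CongrMod.mul (fun i j => D.galMat_spec hp hpR σ n i j) (fun i j => D.galMat_spec hp hpR τ n i j)
  intro i j
  rw [map_mul] at h1
  convert sub_mem (h1 i j) (h2 i j) using 1
  ring

open scoped Classical in
include hp hpR in
theorem galMat_eq_one_of_fix {σ : GalQ} (n : ℕ)
    (h : ∀ v, σ • D.tors (p ^ n) v = D.tors (p ^ n) v) :
    D.CongrMod n (D.galMat hp hpR σ) 1 := by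
  have h1 := D.galMat_congr hp hpR σ n (u := 1) (fun v => by rw [h]; rfl)
  rwa [map_one] at h1

open scoped Classical in
include hp hpR in
theorem galMat_one : D.galMat hp hpR 1 = 1 :=
  eq_of_congrMod fun n => D.galMat_eq_one_of_fix hp hpR n fun _ => one_smul _ _

include hp hpR in
theorem galMat_comm (G : GaloisInputs N) (σ : GalQ) {u : Module.End ℤ D.Lam}
    (hu : u ∈ Algebra.adjoin ℤ (Set.range D.T)) :
    D.galMat hp hpR σ * D.mat u = D.mat u * D.galMat hp hpR σ := by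
  refine eq_of_congrMod fun n => ?_
  have h0 : D.CongrMod n (D.galMat hp hpR σ) (D.mat (D.liftP hp n σ)) :=
    fun i j => D.galMat_spec hp hpR σ n i j
  have hu' : D.CongrMod n (D.mat u : Matrix D.Idx D.Idx R) (D.mat u) := fun i j => by simp
  have h1 := h0.mul hu'
  have h2 := hu'.mul h0
  rw [← map_mul] at h1 h2
  intro i j
  have h3 := D.mat_sub_mem (R := R) hpR (pow_pos hp.pos n) (u := D.liftP hp n σ * u)
    (w := u * D.liftP hp n σ) (fun v => by
      rw [Module.End.mul_apply, Module.End.mul_apply, D.tors_liftP hp]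
      exact (D.galois_hecke G hu (pow_pos hp.pos n) σ v _ (D.tors_liftP hp n σ v)).symm) i j
  convert sub_mem (add_mem (h1 i j) h3) (h2 i j) using 1
  ring

open scoped Classical in
include hp hpR in
theorem galMat_frobenius (G : GaloisInputs N) {ℓ : ℕ} (hℓ : ℓ.Prime) (hℓN : ¬ ℓ ∣ N) (hℓp : ℓ ≠ p)
    {A : ValuationSubring (AlgebraicClosure ℚ)} (hA : A.LiesOverPrime ℓ) {σ : GalQ}
    (hσ : A.IsFrobeniusAt σ ℓ) :
    D.galMat hp hpR σ * D.galMat hp hpR σ + (ℓ : Matrix D.Idx D.Idx R) =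
      D.mat (D.T ⟨ℓ, hℓ⟩) * D.galMat hp hpR σ := by
  refine eq_of_congrMod fun n => ?_
  have hn : 0 < p ^ n := pow_pos hp.pos n
  have hℓn : ¬ ℓ ∣ p ^ n := fun h => hℓp ((Nat.prime_dvd_prime_iff_eq hℓ hp).1 (hℓ.dvd_of_dvd_pow h))
  set F := D.liftP hp n σ
  have h0 : D.CongrMod n (D.galMat hp hpR σ) (D.mat F) := fun i j => D.galMat_spec hp hpR σ n i j
  have hconst : ∀ M : Matrix D.Idx D.Idx R, D.CongrMod n M M := fun M i j => by simp
  have h1 := (h0.mul h0).add (hconst (ℓ : Matrix D.Idx D.Idx R))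
  have h2 := (hconst (D.mat (D.T ⟨ℓ, hℓ⟩))).mul h0
  rw [← map_mul, ← map_natCast (D.mat : Module.End ℤ D.Lam →+* Matrix D.Idx D.Idx R) ℓ, ← map_add] at h1
  rw [← map_mul] at h2
  rw [map_natCast] at h1
  intro i j
  have h3 := D.mat_sub_mem (R := R) hpR hn (u := F * F + (ℓ : Module.End ℤ D.Lam))
    (w := D.T ⟨ℓ, hℓ⟩ * F) (fun v => by
      rw [LinearMap.add_apply, Module.End.mul_apply, Module.End.mul_apply, Module.End.natCast_apply,
        map_add, map_nsmul, D.tors_liftP hp, D.tors_liftP hp]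
      have h := G.frobenius_quadratic ℓ hℓ hℓN A hA σ hσ (D.tors (p ^ n) v)
        ⟨p ^ n, hn, hℓn, D.nsmul_tors hn v⟩
      refine sub_eq_zero.1 (Eq.trans ?_ h)
      rw [D.tors_T (p ^ n) hn ⟨ℓ, hℓ⟩, D.tors_liftP hp]
      abel) i j
  convert sub_mem (add_mem (h1 i j) h3) (h2 i j) using 1
  ring

open scoped Classical in
include hp hpR in
theorem galMat_inertia (G : GaloisInputs N) {q : ℕ} (hq : q.Prime) (hqN : ¬ q ∣ N) (hqp : q ≠ p)
    {A : ValuationSubring (AlgebraicClosure ℚ)} (hA : A.LiesOverPrime q) {σ : GalQ}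
    (hσ : σ ∈ A.inertiaSubgroupIn ℚ) : D.galMat hp hpR σ = 1 :=
  eq_of_congrMod fun n => D.galMat_eq_one_of_fix hp hpR n fun v =>
    G.inertia_trivial q hq hqN A hA σ hσ _ ⟨p ^ n, pow_pos hp.pos n,
      fun h => hqp ((Nat.prime_dvd_prime_iff_eq hq hp).1 (hq.dvd_of_dvd_pow h)),
      D.nsmul_tors (pow_pos hp.pos n) v⟩

open scoped Classical in
include hp hpR in
theorem galMat_level (G : GaloisInputs N) (n : ℕ) :
    ∃ L : IntermediateField ℚ (AlgebraicClosure ℚ), FiniteDimensional ℚ L ∧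
      ∀ σ : GalQ, (∀ x ∈ L, σ x = x) → D.CongrMod n (D.galMat hp hpR σ) 1 := by
  obtain ⟨L, hL, h⟩ := D.exists_tors_level G (pow_pos hp.pos n)
  exact ⟨L, hL, fun σ hσ => D.galMat_eq_one_of_fix hp hpR n (h σ hσ)⟩

end HeckeLattice

end FLTAgent.Attach

end
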