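import Fermat.Agent.Deform.Span
import Fermat.Prelude.Def_GaloisRep_Adic
import Mathlib

set_option autoImplicit false
set_option linter.style.haveILetI false

noncomputable section

namespace FLTAgent.Attach

open IsLocalRing Polynomial

/-- `α^k + β^k` for the roots of `X² - aX + c`. -/
def powerTrace {R : Type*} [CommRing R] (a c : R) : ℕ → R
  | 0 => 2
  | 1 => a
  | k + 2 => a * powerTrace a c (k + 1) - c * powerTrace a c k

theorem map_powerTrace {R R' : Type*} [CommRing R] [CommRing R'] (φ : R →+* R') (a c : R) :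
    ∀ k, φ (powerTrace a c k) = powerTrace (φ a) (φ c) k
  | 0 => by simp [powerTrace, map_ofNat]
  | 1 => rfl
  | k + 2 => by
    simp only [powerTrace, map_sub, map_mul, map_powerTrace φ a c k, map_powerTrace φ a c (k + 1)]

variable {A : Type} [CommRing A] {V : Type} [AddCommGroup V] [Module A V]

theorem trace_mem_of_forall_mem [Module.Free A V] [Module.Finite A V] (I : Ideal A)
    (f : Module.End A V) (h : ∀ v, f v ∈ I • (⊤ : Submodule A V)) :
    LinearMap.trace A V f ∈ I := by
  classical
  rw [LinearMap.trace_eq_matrix_trace A (Module.Free.chooseBasis A V), Matrix.trace]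
  refine sum_mem fun i _ => ?_
  rw [Matrix.diag_apply, LinearMap.toMatrix_apply]
  refine Submodule.smul_induction_on (h (Module.Free.chooseBasis A V i)) ?_ ?_
  · intro a ha w _
    rw [map_smul, Finsupp.smul_apply]
    exact I.mul_mem_right _ ha
  · intro x y hx hy
    rw [map_add, Finsupp.add_apply]
    exact add_mem hx hy

theorem quadratic_of_charpoly [Module.Free A V] [Module.Finite A V] {f : Module.End A V} {a c : A}
    (h : LinearMap.charpoly f = X ^ 2 - C a * X + C c) : f * f - a • f + c • 1 = 0 := by
  have := LinearMap.aeval_self_charpoly f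
  rw [h] at this
  simp only [map_add, map_sub, map_mul, aeval_X_pow, aeval_C, aeval_X,
    Algebra.algebraMap_eq_smul_one, smul_one_mul, sq] at this
  exact this

theorem trace_pow_eq [Nontrivial A] [Module.Free A V] [Module.Finite A V]
    (hrk : Module.finrank A V = 2) {f : Module.End A V} {a c : A}
    (h : LinearMap.charpoly f = X ^ 2 - C a * X + C c) :
    ∀ k, LinearMap.trace A V (f ^ k) = powerTrace a c k
  | 0 => by simp [powerTrace, hrk]
  | 1 => by
    rw [pow_one]
    let b := Module.finBasisOfFinrankEq A V hrk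
    rw [LinearMap.trace_eq_matrix_trace A b, Matrix.trace_eq_neg_charpoly_coeff,
      LinearMap.charpoly_toMatrix, h]
    simp [powerTrace, coeff_X_pow, coeff_C]
  | k + 2 => by
    have h2 : f ^ (k + 2) = a • f ^ (k + 1) - c • f ^ k := by
      have hq := quadratic_of_charpoly h
      calc f ^ (k + 2) = f ^ k * (f * f) := by rw [pow_add, sq]
        _ = f ^ k * (a • f - c • 1) := by
          congr 1
          rw [← sub_eq_zero]
          rw [← hq]
          abel
        _ = _ := by rw [mul_sub, mul_smul_comm, mul_smul_comm, mul_one, pow_succ]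
    rw [h2, map_sub, map_smul, map_smul, trace_pow_eq hrk h k, trace_pow_eq hrk h (k + 1)]
    simp [powerTrace]

/-- A map orthogonal to the image of a residually absolutely irreducible representation is zero. -/
theorem eq_zero_of_trace_eq_zero {T : Type} [CommRing T] [IsLocalRing T] (ρ : GaloisRepAdic T)
    (habs : ρ.residual.IsAbsolutelyIrreducible) (x : Module.End T ρ.V)
    (h : ∀ σ, LinearMap.trace T ρ.V (ρ.ρ σ * x) = 0) : x = 0 := by
  obtain ⟨r, hr⟩ := FLTAgent.Deform.exists_repMat ρ
  have htop := FLTAgent.Deform.span_range_eq_top ρ.residual habs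
    (FLTAgent.Deform.repMat_residual hr)
  obtain ⟨b, hb⟩ := hr
  set X₀ := LinearMap.toMatrix b b x with hX₀
  have hzero : ∀ σ, Matrix.trace (r σ * X₀) = 0 := by
    intro σ
    rw [← hb, hX₀, ← LinearMap.toMatrix_mul, ← LinearMap.trace_eq_matrix_trace T b]
    exact h σ
  clear_value X₀
  have key : ∀ i j : Fin 2, ∃ Y : Matrix (Fin 2) (Fin 2) T,
      Y.map (residue T) = Matrix.single i j 1 ∧ Matrix.trace (Y * X₀) = 0 := by
    intro i j
    obtain ⟨l, hl⟩ := Finsupp.mem_span_range_iff_exists_finsupp.mp
      (show Matrix.single i j 1 ∈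
        Submodule.span (ResidueField T) (Set.range fun σ => (r σ).map (residue T)) from
          htop ▸ Submodule.mem_top)
    choose s hs using fun σ => residue_surjective (l σ)
    refine ⟨∑ σ ∈ l.support, s σ • r σ, ?_, ?_⟩
    · rw [← hl, Finsupp.sum]
      ext i j
      simp [Matrix.sum_apply, map_sum, hs]
    · rw [Finset.sum_mul, Matrix.trace_sum]
      refine Finset.sum_eq_zero fun σ _ => ?_
      rw [smul_mul_assoc, Matrix.trace_smul, hzero, smul_zero]
  choose Y hY hYX using fun q : Fin 2 × Fin 2 => key q.1 q.2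
  let C₀ : Matrix (Fin 2 × Fin 2) (Fin 2 × Fin 2) T := Matrix.of fun q s => Y q s.2 s.1
  have hmul : C₀.mulVec (fun s => X₀ s.1 s.2) = 0 := by
    funext q
    refine Eq.trans ?_ (hYX q)
    simp only [C₀, Matrix.mulVec, dotProduct, Matrix.of_apply, Matrix.trace, Matrix.diag_apply,
      Matrix.mul_apply, Fintype.sum_prod_type]
    exact Finset.sum_comm
  have hres : C₀.map (residue T) =
      (1 : Matrix (Fin 2 × Fin 2) (Fin 2 × Fin 2) (ResidueField T)).submatrix id Prod.swap := by
    ext q s
    have := congrFun (congrFun (hY q) s.2) s.1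
    simp only [Matrix.map_apply] at this
    simp only [C₀, Matrix.map_apply, Matrix.of_apply, this, Matrix.submatrix_apply, id,
      Matrix.single_apply, Matrix.one_apply, Prod.ext_iff, Prod.fst_swap, Prod.snd_swap]
  have hdet : IsUnit C₀.det := by
    rw [← residue_ne_zero_iff_isUnit, RingHom.map_det, RingHom.mapMatrix_apply, hres]
    rw [show (Prod.swap : Fin 2 × Fin 2 → Fin 2 × Fin 2) = ⇑(Equiv.prodComm (Fin 2) (Fin 2))
      from rfl, Matrix.det_permute']
    rw [Matrix.det_one, mul_one]
    exact ((Equiv.Perm.sign _).isUnit.map (Int.castRingHom (ResidueField T))).ne_zero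
  have hX : (fun s : Fin 2 × Fin 2 => X₀ s.1 s.2) = 0 := by
    have h1 := congrArg (C₀⁻¹).mulVec hmul
    rwa [Matrix.mulVec_mulVec, Matrix.nonsing_inv_mul C₀ hdet, Matrix.one_mulVec, Matrix.mulVec_zero] at h1
  have hX0 : X₀ = 0 := Matrix.ext fun i j => by
    rw [Matrix.zero_apply]
    have := congrFun hX (i, j)
    simpa only [Pi.zero_apply] using this
  exact (LinearMap.toMatrix b b).map_eq_zero_iff.1 (hX₀.symm.trans hX0)

end FLTAgent.Attach

end
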