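import Fermat.Agent.Attach.HeckeAction
import Fermat.Agent.Attach.TraceTools
import Fermat.Agent.Chebotarev.Density
import Fermat.Prelude.Def_CuspForm_HeckeGaloisRepDatum

/-!
The Galois representation of a Hecke–Galois datum is unramified outside `S`.
-/

set_option autoImplicit false
set_option linter.style.haveILetI false
set_option linter.unusedSectionVars false

noncomputable section

namespace FLTAgent.Attach

open IsLocalRing ModularCurve

variable {N : ℕ} [NeZero N]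

/-- `(σ + c(σ) σ⁻¹)` on `n`-torsion, as a function of `λ`. -/
def HeckeLattice.twist (D : HeckeLattice N) (n : ℕ) [NeZero n] (σ : GalQ) (v : D.Lam) : JZero N :=
  σ • D.tors n v + (cyc n σ).val • (σ⁻¹ • D.tors n v)

theorem HeckeLattice.frobenius_relation (D : HeckeLattice N) (G : GaloisInputs N) {n ℓ : ℕ}
    (hn : 0 < n) (hℓ : ℓ.Prime) (hℓN : ¬ ℓ ∣ N) (hℓn : ¬ ℓ ∣ n)
    {A : ValuationSubring (AlgebraicClosure ℚ)} (hA : A.LiesOverPrime ℓ) {τ : GalQ}
    (hτ : A.IsFrobeniusAt τ ℓ) (v : D.Lam) :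
    τ • D.tors n v + ℓ • (τ⁻¹ • D.tors n v) = D.tors n (D.T ⟨ℓ, hℓ⟩ v) := by
  have hx : n • (τ⁻¹ • D.tors n v) = 0 := D.nsmul_smul_tors hn τ⁻¹ v
  have h := G.frobenius_quadratic ℓ hℓ hℓN A hA τ hτ (τ⁻¹ • D.tors n v) ⟨n, hn, hℓn, hx⟩
  rw [smul_inv_smul] at h
  rw [D.tors_T n hn ⟨ℓ, hℓ⟩ v, ← sub_eq_zero]
  rw [← h]
  abel

theorem HeckeLattice.twist_pow (D : HeckeLattice N) (G : GaloisInputs N) (S : Set ℕ) {n ℓ : ℕ}
    [NeZero n] (hℓ : ℓ.Prime) (hℓN : ¬ ℓ ∣ N) (hℓS : ℓ ∉ S) (hℓn : ¬ ℓ ∣ n)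
    {A : ValuationSubring (AlgebraicClosure ℚ)} (hA : A.LiesOverPrime ℓ) {τ : GalQ}
    (hτ : A.IsFrobeniusAt τ ℓ) (k : ℕ) (v : D.Lam) :
    D.twist n (τ ^ k) v =
      D.tors n (D.actS S (powerTrace (CuspForm.heckeAlgebra.T hℓ hℓN hℓS) (ℓ : CuspForm.heckeAlgebra N 2 S) k) v) := by
  have hn : 0 < n := Nat.pos_of_ne_zero (NeZero.ne n)
  set Tb := heckeOperatorBar N (⟨ℓ, hℓ⟩ : Nat.Primes) with hTb
  let x := D.tors n v
  let E : ℕ → JZero N := fun k => τ ^ k • x + ℓ ^ k • ((τ⁻¹) ^ k • x)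
  have hy : ∀ σ : GalQ, τ • (σ • x) + ℓ • (τ⁻¹ • (σ • x)) = Tb (σ • x) := by
    intro σ
    obtain ⟨w, hw⟩ := D.exists_tors_eq_smul hn σ v
    change τ • (σ • D.tors n v) + ℓ • (τ⁻¹ • (σ • D.tors n v)) = Tb (σ • D.tors n v)
    rw [← hw, D.frobenius_relation G hn hℓ hℓN hℓn hA hτ w, hTb]
    exact D.tors_T n hn _ w
  have hrec : ∀ k, E (k + 2) = Tb (E (k + 1)) - ℓ • E k := by
    intro k
    have e1 : τ ^ (k + 2) • x = τ • (τ ^ (k + 1) • x) := by rw [smul_smul, ← pow_succ']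
    have e2 : τ ^ k • x = τ⁻¹ • (τ ^ (k + 1) • x) := by
      rw [smul_smul, pow_succ' τ k, inv_mul_cancel_left]
    have e3 : τ⁻¹ ^ (k + 2) • x = τ⁻¹ • (τ⁻¹ ^ (k + 1) • x) := by rw [smul_smul, ← pow_succ']
    have e4 : τ⁻¹ ^ k • x = τ • (τ⁻¹ ^ (k + 1) • x) := by
      rw [smul_smul, pow_succ' τ⁻¹ k, mul_inv_cancel_left]
    simp only [E]
    rw [map_add, map_nsmul, ← hy (τ ^ (k + 1)), ← hy (τ⁻¹ ^ (k + 1)), ← e1, ← e2, ← e3, ← e4,
      nsmul_add, nsmul_add, ← mul_nsmul', ← mul_nsmul', ← pow_succ, ← pow_succ']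
    abel
  have hmain : ∀ k, E k = D.tors n (D.actS S
      (powerTrace (CuspForm.heckeAlgebra.T hℓ hℓN hℓS) (ℓ : CuspForm.heckeAlgebra N 2 S) k) v) := by
    intro k
    induction k using Nat.twoStepInduction with
    | zero =>
      have : powerTrace (CuspForm.heckeAlgebra.T hℓ hℓN hℓS) (ℓ : CuspForm.heckeAlgebra N 2 S) 0 =
          1 + 1 := by rw [powerTrace, one_add_one_eq_two]
      rw [this, map_add, map_one, LinearMap.add_apply, Module.End.one_apply, map_add]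
      simp only [E, pow_zero, one_smul]
      rfl
    | one =>
      rw [powerTrace, D.actS_T, ← D.frobenius_relation G hn hℓ hℓN hℓn hA hτ v]
      simp only [E, pow_one]
      rfl
    | more k h1 h2 =>
      rw [powerTrace, map_sub, map_mul, map_mul, LinearMap.sub_apply, Module.End.mul_apply,
        Module.End.mul_apply, D.actS_T, map_natCast, Module.End.natCast_apply, map_sub, map_nsmul,
        hrec, h1, h2, hTb]
      exact congrArg (· - _) (D.tors_T n hn _ _).symm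
  rw [← hmain k]
  simp only [HeckeLattice.twist, E, inv_pow]
  congr 1
  have hc : cyc n (τ ^ k) = ((ℓ ^ k : ℕ) : ZMod n) := by
    induction k with
    | zero => simp [cyc_one]
    | succ k ih =>
      rw [pow_succ τ k, cyc_mul, ih, cyc_frobenius hℓ hℓn hA hτ, pow_succ ℓ k, Nat.cast_mul]
  rw [hc, ZMod.val_natCast]
  change (ℓ ^ k % n) • ((τ ^ k)⁻¹ • x) = ℓ ^ k • ((τ ^ k)⁻¹ • x)
  conv_rhs => rw [← Nat.mod_add_div (ℓ ^ k) n, add_nsmul, mul_comm, mul_nsmul',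
    D.nsmul_smul_tors hn, smul_zero, add_zero]

theorem HeckeLattice.exists_saturation (D : HeckeLattice N) (S : Set ℕ) {p : ℕ} (hp : p.Prime) :
    ∃ e c : ℕ, ¬ p ∣ c ∧ ∀ (M : ℕ) (t : CuspForm.heckeAlgebra N 2 S),
      (∀ v, D.tors (p ^ (M + e)) (D.actS S t v) = 0) →
        ∃ s : CuspForm.heckeAlgebra N 2 S, (c : ℤ) • t = ((p ^ M : ℕ) : ℤ) • s := by
  classical
  let Φ := (D.actS S).toAddMonoidHom.toIntLinearMap
  let R : Submodule ℤ (Module.End ℤ D.Lam) := LinearMap.range Φ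
  let R' : Submodule ℤ (Module.End ℤ D.Lam) :=
    { carrier := {u | ∃ m : ℕ, 0 < m ∧ (m : ℤ) • u ∈ R}
      add_mem' := by
        rintro u w ⟨a, ha, hu⟩ ⟨b, hb, hw⟩
        refine ⟨a * b, Nat.mul_pos ha hb, ?_⟩
        have : ((a * b : ℕ) : ℤ) • (u + w) = (b : ℤ) • ((a : ℤ) • u) + (a : ℤ) • ((b : ℤ) • w) := by
          push_cast; module
        rw [this]
        exact add_mem (R.smul_mem _ hu) (R.smul_mem _ hw)
      zero_mem' := ⟨1, one_pos, by rw [smul_zero]; exact R.zero_mem⟩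
      smul_mem' := by
        rintro z u ⟨a, ha, hu⟩
        exact ⟨a, ha, by rw [smul_comm]; exact R.smul_mem _ hu⟩ }
  obtain ⟨gens, hgens⟩ : R'.FG := IsNoetherian.noetherian R'
  have hmem : ∀ u ∈ gens, ∃ m : ℕ, 0 < m ∧ (m : ℤ) • u ∈ R := fun u hu =>
    show u ∈ R' from hgens ▸ Submodule.subset_span hu
  choose m hm0 hm using hmem
  let C := ∏ u ∈ gens.attach, m u.1 u.2
  have hC : 0 < C := Finset.prod_pos fun u _ => hm0 u.1 u.2
  have hCR : ∀ u ∈ R', (C : ℤ) • u ∈ R := by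
    intro u hu
    rw [← hgens] at hu
    induction hu using Submodule.span_induction with
    | mem u hu =>
      obtain ⟨k, hk⟩ : m u hu ∣ C :=
        Finset.dvd_prod_of_mem (fun w : gens => m w.1 w.2) (Finset.mem_attach gens ⟨u, hu⟩)
      rw [hk, mul_comm, Nat.cast_mul, mul_smul]
      exact R.smul_mem _ (hm u hu)
    | zero => simp
    | add x y _ _ hx hy => rw [smul_add]; exact add_mem hx hy
    | smul z x _ hx => rw [smul_comm]; exact R.smul_mem _ hx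
  obtain ⟨e, c, hpc, hCc⟩ := Nat.exists_eq_pow_mul_and_not_dvd hC.ne' p hp.ne_one
  refine ⟨e, c, hpc, fun M t ht => ?_⟩
  have hn : 0 < p ^ (M + e) := pow_pos hp.pos _
  let b := Module.Free.chooseBasis ℤ D.Lam
  choose w hw using fun i => (D.tors_eq_zero_iff _ hn _).1 (ht (b i))
  let u : Module.End ℤ D.Lam := b.constr ℤ w
  have hu : ((p ^ (M + e) : ℕ) : ℤ) • u = D.actS S t :=
    b.ext fun i => by simp only [LinearMap.smul_apply, u, Module.Basis.constr_basis, hw i]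
  obtain ⟨s, hs⟩ := hCR u ⟨p ^ (M + e), hn, hu ▸ ⟨t, rfl⟩⟩
  refine ⟨s, ?_⟩
  have h1 : D.actS S ((C : ℤ) • t) = D.actS S (((p ^ (M + e) : ℕ) : ℤ) • s) := by
    rw [map_zsmul, map_zsmul, ← hu, smul_comm]
    exact congrArg _ hs.symm
  have h2 := D.actS_injective S h1
  have h3 : ((p ^ e : ℕ) : ℤ) • ((c : ℤ) • t - ((p ^ M : ℕ) : ℤ) • s) = 0 := by
    rw [smul_sub, smul_smul, smul_smul, ← Nat.cast_mul, ← Nat.cast_mul, ← pow_add,
      ← hCc, h2, add_comm e M, sub_self]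
  rw [natCast_zsmul] at h3
  exact sub_eq_zero.1 (nsmul_right_injective (pow_pos hp.pos e).ne'
    (h3.trans (smul_zero (p ^ e)).symm))

variable {S : Finset ℕ} {𝒪 : Type} [CommRing 𝒪] [IsDomain 𝒪] [IsDiscreteValuationRing 𝒪]
  [IsAdicComplete (maximalIdeal 𝒪) 𝒪]
  {θ : CuspForm.heckeAlgebra N 2 (↑S : Set ℕ) →+* ResidueField 𝒪}
  {T : Type} [CommRing T] [IsLocalRing T] [IsNoetherianRing T]
  [IsAdicComplete (maximalIdeal T) T] [Algebra 𝒪 T] [IsLocalHom (algebraMap 𝒪 T)]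
  [Module.Finite 𝒪 T] [Module.Free 𝒪 T]

theorem isUnramifiedAt_datum (D : HeckeLattice N) (G : GaloisInputs N) {p : ℕ} (hp : p.Prime)
    (hp𝒪 : (p : 𝒪) ∈ maximalIdeal 𝒪) (hpS : p ∈ S)
    (hNS : ∀ q : ℕ, q.Prime → q ∣ N → q ∈ S)
    (H : CuspForm.HeckeGaloisRepDatum N (↑S : Set ℕ) 𝒪 θ T)
    (q : ℕ) (hq : q.Prime) (hqS : q ∉ S) : H.ρ.IsUnramifiedAt q := by
  classical
  intro P hP g hg
  obtain ⟨e, c, hpc, hsat⟩ := D.exists_saturation (↑S : Set ℕ) hp
  have hpT : (p : T) ∈ maximalIdeal T := by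
    rw [← map_natCast (algebraMap 𝒪 T)]
    exact map_nonunit (algebraMap 𝒪 T) _ hp𝒪
  have hcT : IsUnit (c : T) := by
    by_contra hcu
    obtain ⟨a, b, hab⟩ := (hp.coprime_iff_not_dvd.2 hpc).isCoprime
    apply (maximalIdeal.isMaximal T).ne_top
    rw [Ideal.eq_top_iff_one]
    have h1 : (a : T) * p + (b : T) * c = 1 := by exact_mod_cast congrArg (fun z : ℤ => (z : T)) hab
    rw [← h1]
    exact add_mem (Ideal.mul_mem_left _ _ hpT) (Ideal.mul_mem_left _ _ hcu)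
  have hqN : ¬ q ∣ N := fun h => hqS (hNS q hq h)
  have hqp : q ≠ p := fun h => hqS (h ▸ hpS)
  have htrace : ∀ σ : GalQ, LinearMap.trace T H.ρ.V (H.ρ.ρ (σ * g)) -
      LinearMap.trace T H.ρ.V (H.ρ.ρ σ) = 0 := by
    intro σ
    refine (inferInstance : IsHausdorff (maximalIdeal T) T).haus _ fun M => ?_
    rw [SModEq.zero, smul_eq_mul, Ideal.mul_top]
    set n := p ^ (M + e) with hndef
    have hn : 0 < n := pow_pos hp.pos _
    haveI : NeZero n := ⟨hn.ne'⟩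
    obtain ⟨L1, hL1, h1⟩ := D.exists_tors_level G hn
    obtain ⟨L2, hL2, h2⟩ := exists_cyc_level n
    obtain ⟨L3, hL3, h3⟩ := H.ρ.isAdicContinuous M
    haveI := hL1; haveI := hL2; haveI := hL3
    have hloc : ∀ σ₁ : GalQ, ∃ t : CuspForm.heckeAlgebra N 2 (↑S : Set ℕ),
        (∀ v, D.twist n σ₁ v = D.tors n (D.actS _ t v)) ∧
          LinearMap.trace T H.ρ.V (H.ρ.ρ σ₁) - H.π t ∈ maximalIdeal T ^ M := by
      intro σ₁
      obtain ⟨ℓ, A, τ, k, hℓ, hℓS', hA, hτ, hagree⟩ :=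
        FLTAgent.Chebotarev.exists_frobenius_pow (L1 ⊔ L2 ⊔ L3) σ₁ S
      have hℓN : ¬ ℓ ∣ N := fun h => hℓS' (hNS ℓ hℓ h)
      have hℓn : ¬ ℓ ∣ n := fun h => hℓS' ((Nat.prime_dvd_prime_iff_eq hℓ hp).1
        (hℓ.dvd_of_dvd_pow h) ▸ hpS)
      refine ⟨powerTrace (CuspForm.heckeAlgebra.T hℓ hℓN hℓS') (ℓ : CuspForm.heckeAlgebra N 2 (↑S : Set ℕ)) k,
        fun v => ?_, ?_⟩
      · rw [← D.twist_pow G _ hℓ hℓN hℓS' hℓn hA hτ k v]
        set g' : GalQ := σ₁⁻¹ * τ ^ k with hg'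
        have hτk : τ ^ k = σ₁ * g' := by rw [hg', mul_inv_cancel_left]
        have hfix : ∀ y ∈ L1 ⊔ L2 ⊔ L3, g' y = y := fun y hy => by
          rw [hg', AlgEquiv.mul_apply, hagree y hy]
          exact σ₁.symm_apply_apply y
        have hg1 := h1 g' fun y hy => hfix y (le_sup_left (a := L1 ⊔ L2) (le_sup_left (a := L1) hy))
        have hg2 := h2 g' fun y hy => hfix y (le_sup_left (a := L1 ⊔ L2) (le_sup_right (a := L1) hy))
        rw [hτk, HeckeLattice.twist, HeckeLattice.twist, mul_smul, hg1, cyc_mul, hg2, mul_one,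
          mul_inv_rev, mul_smul]
        congr 2
        obtain ⟨w, hw⟩ := D.exists_tors_eq_smul hn σ₁⁻¹ v
        rw [← hw]
        exact eq_inv_smul_iff.2 (hg1 w)
      · have htr := trace_pow_eq H.ρ.finrank_eq (H.charpoly_frob ℓ hℓ hℓN hℓS' A hA τ hτ) k
        rw [map_powerTrace, map_natCast, ← htr, ← map_pow, ← map_sub]
        refine trace_mem_of_forall_mem _ _ fun v => ?_
        have hfix : ∀ y ∈ L3, (σ₁⁻¹ * τ ^ k : GalQ) y = y := fun y hy => by
          rw [AlgEquiv.mul_apply, hagree y (le_sup_right (a := L1 ⊔ L2) hy)]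
          exact σ₁.symm_apply_apply y
        have h4 := h3 _ hfix v
        have h5 : (H.ρ.ρ σ₁ - H.ρ.ρ (τ ^ k)) v =
            -(H.ρ.ρ σ₁ (H.ρ.ρ (σ₁⁻¹ * τ ^ k) v - v)) := by
          rw [map_sub, ← Module.End.mul_apply, ← map_mul, mul_inv_cancel_left, neg_sub,
            LinearMap.sub_apply]
        rw [h5]
        refine neg_mem ?_
        refine Submodule.smul_induction_on h4 ?_ ?_
        · intro a ha w _
          rw [map_smul]
          exact Submodule.smul_mem_smul ha trivial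
        · intro x y hx hy
          rw [map_add]
          exact add_mem hx hy
    obtain ⟨t₁, ht₁, hρ₁⟩ := hloc (σ * g)
    obtain ⟨t₂, ht₂, hρ₂⟩ := hloc σ
    have hqn : ¬ q ∣ n := fun h => hqp ((Nat.prime_dvd_prime_iff_eq hq hp).1 (hq.dvd_of_dvd_pow h))
    have hgfix : ∀ v, g • D.tors n v = D.tors n v := fun v =>
      G.inertia_trivial q hq hqN P hP g hg _ ⟨n, hn, hqn, D.nsmul_tors hn v⟩
    have htw : ∀ v, D.twist n (σ * g) v = D.twist n σ v := by
      intro v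
      rw [HeckeLattice.twist, HeckeLattice.twist, mul_smul, hgfix, cyc_mul,
        cyc_inertia hq hqn hP hg, mul_one, mul_inv_rev, mul_smul]
      congr 2
      obtain ⟨w, hw⟩ := D.exists_tors_eq_smul hn σ⁻¹ v
      rw [← hw]
      exact inv_smul_eq_iff.2 (hgfix w).symm
    obtain ⟨s, hs⟩ := hsat M (t₁ - t₂) (fun v => by
      rw [map_sub, LinearMap.sub_apply, map_sub, ← hndef, ← ht₁, ← ht₂, htw, sub_self])
    have hπ : H.π (t₁ - t₂) ∈ maximalIdeal T ^ M := by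
      have h := congrArg H.π hs
      rw [map_zsmul, map_zsmul, zsmul_eq_mul, zsmul_eq_mul, Int.cast_natCast, Int.cast_natCast,
        Nat.cast_pow] at h
      refine ((maximalIdeal T ^ M).unit_mul_mem_iff_mem hcT).1 ?_
      rw [h]
      exact Ideal.mul_mem_right _ _ (Ideal.pow_mem_pow hpT M)
    rw [map_sub] at hπ
    convert add_mem (sub_mem hρ₁ hρ₂) hπ using 1
    ring
  have h0 : H.ρ.ρ g - 1 = 0 :=
    eq_zero_of_trace_eq_zero H.ρ H.residual_absIrr _ fun σ => by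
      rw [mul_sub, mul_one, ← map_mul, map_sub]
      exact htrace σ
  exact sub_eq_zero.1 h0

end FLTAgent.Attach

end
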